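import Fermat.Agent.S24.Basic
import Fermat.Agent.S20.OrbitCounts
import Fermat.Agent.S20.OrbitT

set_option autoImplicit false

namespace Fermat.Agent.S24

open scoped MatrixGroups

/-- The coset space `SL₂(ℤ)/Γ₀(N)` with its left `SL₂(ℤ)`-action. -/
abbrev Cosets (N : ℕ) : Type := SL(2, ℤ) ⧸ CongruenceSubgroup.Gamma0 N

/-- The permutation of the coset space induced by `γ`. -/
noncomputable def permOf (N : ℕ) (γ : SL(2, ℤ)) : Equiv.Perm (Cosets N) := MulAction.toPerm γ

/-- PIECE F0. -/
instance finite_cosets (N : ℕ) [NeZero N] : Finite (Cosets N) :=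
  Subgroup.finite_quotient_of_finiteIndex

theorem orbitCount_permOf (N : ℕ) (γ : SL(2, ℤ)) :
    orbitCount (permOf N γ) = Fermat.Agent.S21.orbitCount N γ :=
  Fermat.Agent.S20.AR.card_orbits_toPerm (X := Cosets N) γ

/-- PIECE F1. index of `Γ₀(N)`. -/
theorem card_cosets (N : ℕ) [NeZero N] : Nat.card (Cosets N) = ModularCurve.dedekindPsi N :=
  Fermat.Agent.S20.AR.card_quot N

/-- PIECE F2. -/
theorem orbitCount_S (N : ℕ) [NeZero N] :
    2 * orbitCount (permOf N ModularGroup.S) = Nat.card (Cosets N) + ModularCurve.nuTwo N := by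
  rw [orbitCount_permOf]
  exact Fermat.Agent.S20.AR.two_mul_orbitCount_S N

/-- PIECE F3. -/
theorem orbitCount_ST (N : ℕ) [NeZero N] :
    3 * orbitCount (permOf N (ModularGroup.S * ModularGroup.T)) =
      Nat.card (Cosets N) + 2 * ModularCurve.nuThree N := by
  rw [orbitCount_permOf]
  exact Fermat.Agent.S20.AR.three_mul_orbitCount_ST N

/-- PIECE F4. -/
theorem orbitCount_T (N : ℕ) [NeZero N] :
    orbitCount (permOf N ModularGroup.T) = ModularCurve.cuspCount N := by
  rw [orbitCount_permOf]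
  exact Fermat.Agent.S20.orbCount_T N

end Fermat.Agent.S24
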