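import Mathlib.FieldTheory.PrimitiveElement
import Mathlib.FieldTheory.Perfect

set_option autoImplicit false

namespace Fermat.Agent.S24

open IntermediateField Module

/-- For algebraic `a b` in characteristic zero, some `a + k b` with `k` a natural number
generates `F(a, b)`. -/
theorem degreeAux_exists_nat {F E : Type*} [Field F] [Field E] [Algebra F E] [CharZero F]
    (a b : E) (ha : IsIntegral F a) (hb : IsIntegral F b) :
    ∃ k : ℕ, a ∈ F⟮a + (k : E) * b⟯ ∧ b ∈ F⟮a + (k : E) * b⟯ := by
  let L : IntermediateField F E := F⟮a, b⟯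
  have : FiniteDimensional F L := finiteDimensional_adjoin_pair ha hb
  have : Finite (IntermediateField F L) :=
    (Field.exists_primitive_element_iff_finite_intermediateField F L).1
      ⟨inferInstance, Field.exists_primitive_element F L⟩
  have haL : a ∈ L := subset_adjoin F _ (by simp)
  have hbL : b ∈ L := subset_adjoin F _ (by simp)
  let a' : L := ⟨a, haL⟩
  let b' : L := ⟨b, hbL⟩
  obtain ⟨k, k', hne, heq⟩ :=
    Finite.exists_ne_map_eq_of_infinite (fun k : ℕ => F⟮a' + (k : L) * b'⟯)

  have : CharZero L := charZero_of_injective_algebraMap (algebraMap F L).injective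
  have h1 : a' + (k : L) * b' ∈ F⟮a' + (k : L) * b'⟯ := mem_adjoin_simple_self F _
  have h2 : a' + (k' : L) * b' ∈ F⟮a' + (k : L) * b'⟯ := by
    rw [heq]; exact mem_adjoin_simple_self F _
  have h3 : ((k : L) - (k' : L)) * b' ∈ F⟮a' + (k : L) * b'⟯ := by
    have := sub_mem h1 h2
    have e : a' + (k : L) * b' - (a' + (k' : L) * b') = ((k : L) - (k' : L)) * b' := by ring
    rwa [e] at this
  have hkk : ((k : L) - (k' : L)) ≠ 0 := by
    rw [sub_ne_zero]; exact_mod_cast hne
  have hk_mem : ∀ m : ℕ, (m : L) ∈ F⟮a' + (k : L) * b'⟯ := fun m => _root_.natCast_mem _ m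
  have hb' : b' ∈ F⟮a' + (k : L) * b'⟯ := by
    have h4 := mul_mem (inv_mem (sub_mem (hk_mem k) (hk_mem k'))) h3
    rwa [← mul_assoc, inv_mul_cancel₀ hkk, one_mul] at h4
  have ha' : a' ∈ F⟮a' + (k : L) * b'⟯ := by
    have h5 := sub_mem h1 (mul_mem (hk_mem k) hb')
    rwa [add_sub_cancel_right] at h5
  have hlift : IntermediateField.lift F⟮a' + (k : L) * b'⟯ = F⟮a + (k : E) * b⟯ := by
    rw [lift_adjoin_simple]
    simp [a', b']
  refine ⟨k, ?_, ?_⟩
  · rw [← hlift]
    exact (mem_lift a').2 ha'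
  · rw [← hlift]
    exact (mem_lift b').2 hb'

/-- If every element of `E` is a fraction of elements of an additive submonoid-like set `A`
all of whose elements have degree at most `n` over `F`, then `[E : F] ≤ n`. -/
theorem degreeAux_finrank_le {F E : Type*} [Field F] [Field E] [Algebra F E] [CharZero F]
    (A : Set E) (n : ℕ) (hA0 : A.Nonempty)
    (hadd : ∀ a ∈ A, ∀ b ∈ A, ∀ k : ℕ, a + (k : E) * b ∈ A)
    (hint : ∀ a ∈ A, IsIntegral F a)
    (hdeg : ∀ a ∈ A, (minpoly F a).natDegree ≤ n)
    (hfrac : ∀ x : E, ∃ a ∈ A, ∃ b ∈ A, x = a / b) :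
    FiniteDimensional F E ∧ finrank F E ≤ n := by
  let S : Set ℕ := (fun a : E => (minpoly F a).natDegree) '' A
  have hSne : S.Nonempty := hA0.image _
  have hSb : BddAbove S := ⟨n, by rintro _ ⟨a, ha, rfl⟩; exact hdeg a ha⟩
  obtain ⟨α, hαA, hα⟩ := Nat.sSup_mem hSne hSb
  have hmax : ∀ a ∈ A, (minpoly F a).natDegree ≤ (minpoly F α).natDegree := by
    intro a ha
    have : (minpoly F a).natDegree ≤ sSup S := le_csSup hSb ⟨a, ha, rfl⟩
    simpa [hα] using this
  have hAle : ∀ a ∈ A, a ∈ F⟮α⟯ := by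
    intro a ha
    obtain ⟨k, h1, h2⟩ := degreeAux_exists_nat (F := F) α a (hint α hαA) (hint a ha)
    have hγA : α + (k : E) * a ∈ A := hadd α hαA a ha k
    have hγ := hint _ hγA
    have : FiniteDimensional F F⟮α + (k : E) * a⟯ := adjoin.finiteDimensional hγ
    have hle : F⟮α⟯ ≤ F⟮α + (k : E) * a⟯ := by
      rw [adjoin_simple_le_iff]; exact h1
    have heq : F⟮α⟯ = F⟮α + (k : E) * a⟯ := by
      apply eq_of_le_of_finrank_le hle
      rw [adjoin.finrank hγ, adjoin.finrank (hint α hαA)]
      exact hmax _ hγA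
    rw [heq]; exact h2
  have htop : F⟮α⟯ = ⊤ := by
    rw [eq_top_iff]
    intro x _
    obtain ⟨a, ha, b, hb, rfl⟩ := hfrac x
    exact div_mem (hAle a ha) (hAle b hb)
  have : FiniteDimensional F F⟮α⟯ := adjoin.finiteDimensional (hint α hαA)
  have hfd : FiniteDimensional F E := by
    have : FiniteDimensional F (⊤ : IntermediateField F E) := htop ▸ this
    exact topEquiv.toLinearEquiv.finiteDimensional
  refine ⟨hfd, ?_⟩
  rw [← finrank_top', ← htop, adjoin.finrank (hint α hαA)]
  exact hdeg α hαA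


theorem degreeAux_linearIndependent_of {R S : Type*} [CommRing R] [CommRing S] [Algebra R S]
    (x y : S) (n : ℕ)
    (h : ∀ P : Polynomial (Polynomial R), P.natDegree ≤ n →
      Polynomial.eval₂ (Polynomial.eval₂RingHom (algebraMap R S) x) y P = 0 → P = 0) :
    LinearIndependent R (fun i : ℕ × Fin (n + 1) => x ^ i.1 * y ^ (i.2 : ℕ)) := by
  classical
  rw [linearIndependent_iff']
  intro s g hg i hi
  let P : Polynomial (Polynomial R) :=
    ∑ i ∈ s, Polynomial.monomial (i.2 : ℕ) (Polynomial.monomial i.1 (g i))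
  have hdeg : P.natDegree ≤ n := by
    apply Polynomial.natDegree_sum_le_of_forall_le
    intro i _
    exact (Polynomial.natDegree_monomial_le _).trans (Nat.lt_succ_iff.1 i.2.2)
  have heval : Polynomial.eval₂ (Polynomial.eval₂RingHom (algebraMap R S) x) y P = 0 := by
    rw [← hg]
    simp only [P, Polynomial.eval₂_finsetSum, Polynomial.eval₂_monomial,
      Polynomial.coe_eval₂RingHom, Algebra.smul_def, mul_assoc]
  have hP := h P hdeg heval
  have h1 := congrArg (fun Q => (Polynomial.coeff Q (i.2 : ℕ)).coeff i.1) hP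
  simp only [P, Polynomial.finsetSum_coeff, Polynomial.coeff_zero] at h1
  rw [Finset.sum_eq_single i] at h1
  · simpa using h1
  · intro j _ hji
    rw [Polynomial.coeff_monomial]
    split_ifs with h2
    · rw [Polynomial.coeff_monomial, if_neg]
      intro h3
      exact hji (Prod.ext h3 (Fin.ext h2))
    · simp
  · intro h2; exact absurd hi h2

theorem degreeAux_eq_zero_of_linearIndependent {R S : Type*} [CommRing R] [CommRing S]
    [Algebra R S] (x y : S) (n : ℕ)
    (h : LinearIndependent R (fun i : ℕ × Fin (n + 1) => x ^ i.1 * y ^ (i.2 : ℕ)))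
    (P : Polynomial (Polynomial R)) (hdeg : P.natDegree ≤ n)
    (heval : Polynomial.eval₂ (Polynomial.eval₂RingHom (algebraMap R S) x) y P = 0) : P = 0 := by
  classical
  rw [linearIndependent_iff'] at h
  let B := (Finset.range (n + 1)).sup (fun l => (P.coeff l).natDegree)
  have hB : ∀ l ≤ n, (P.coeff l).natDegree < B + 1 := by
    intro l hl
    exact Nat.lt_succ_of_le
      (Finset.le_sup (f := fun l => (P.coeff l).natDegree) (Finset.mem_range.2 (Nat.lt_succ_of_le hl)))
  have key := h (Finset.range (B + 1) ×ˢ Finset.univ) (fun i => (P.coeff (i.2 : ℕ)).coeff i.1) ?_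
  · ext l k
    by_cases hl : l ≤ n
    · by_cases hk : k < B + 1
      · exact key (k, ⟨l, Nat.lt_succ_of_le hl⟩) (by simp [hk])
      · rw [Polynomial.coeff_eq_zero_of_natDegree_lt (lt_of_lt_of_le (hB l hl) (not_lt.1 hk))]
        simp
    · rw [Polynomial.coeff_eq_zero_of_natDegree_lt (lt_of_le_of_lt hdeg (not_le.1 hl))]
      simp
  · rw [Finset.sum_product_right]
    rw [Polynomial.eval₂_eq_sum_range' _ (Nat.lt_succ_of_le hdeg), Finset.sum_range] at heval
    rw [← heval]
    apply Finset.sum_congr rfl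
    intro l _
    rw [Polynomial.coe_eval₂RingHom,
      Polynomial.eval₂_eq_sum_range' _ (hB l (Nat.lt_succ_iff.1 l.2)), Finset.sum_mul]
    apply Finset.sum_congr rfl
    intro k _
    rw [Algebra.smul_def, mul_assoc]

end Fermat.Agent.S24
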