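import Mathlib

open UpperHalfPlane hiding I
open ModularForm SlashInvariantForm SlashInvariantFormClass ModularFormClass MatrixGroups
  EisensteinSeries Complex Filter
  Topology Function
open scoped Manifold Real
open Derivative

namespace Fermat.Agent.S24.LevelOne

noncomputable section

local notation "Δ" => ModularForm.discriminant
local notation "𝕢" => Periodic.qParam

theorem hasDerivAt_qParam_one (z : ℂ) : HasDerivAt (𝕢 1) (2 * π * I * 𝕢 1 z) z := by
  have h : HasDerivAt (fun w : ℂ => 2 * π * I * w / (1 : ℝ)) (2 * π * I) z := by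
    simpa using (hasDerivAt_id z).const_mul (2 * π * I)
  have h2 := h.cexp
  have e : (𝕢 1) = fun w : ℂ => cexp (2 * π * I * w / (1 : ℝ)) := by
    funext w; rfl
  rw [e]
  have e2 : 2 * π * I * (fun w : ℂ => cexp (2 * π * I * w / (1 : ℝ))) z
      = cexp (2 * π * I * z / (1 : ℝ)) * (2 * π * I) := mul_comm _ _
  rw [e2]
  exact h2

theorem D_eq_q_mul_deriv_cuspFunction {k : ℤ} {F : Type*} [FunLike F ℍ ℂ]
    [ModularFormClass F 𝒮ℒ k] (f : F) (z : ℍ) :
    D f z = 𝕢 1 z * deriv (cuspFunction 1 f) (𝕢 1 z) := by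
  have hq : ‖𝕢 1 (z : ℂ)‖ < 1 := Periodic.norm_qParam_lt_one one_pos z.im_pos
  have hF : DifferentiableAt ℂ (cuspFunction 1 f) (𝕢 1 z) :=
    ModularFormClass.differentiableAt_cuspFunction f one_pos one_mem_strictPeriods_SL hq
  have hqd := hasDerivAt_qParam_one (z : ℂ)
  have hcomp : (f ∘ ofComplex) =ᶠ[𝓝 (z : ℂ)] (cuspFunction 1 f) ∘ (𝕢 1) := by
    filter_upwards [isOpen_upperHalfPlaneSet.mem_nhds z.im_pos] with w hw
    have := SlashInvariantFormClass.eq_cuspFunction f ⟨w, hw⟩ one_mem_strictPeriods_SL one_ne_zero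
    simp only [comp_apply, ofComplex_apply_of_im_pos hw]
    exact this.symm
  have h1 : HasDerivAt (f ∘ ofComplex)
      (deriv (cuspFunction 1 f) (𝕢 1 z) * (2 * π * I * 𝕢 1 z)) (z : ℂ) :=
    (hF.hasDerivAt.comp (z : ℂ) hqd).congr_of_eventuallyEq hcomp
  simp only [normalizedDerivOfComplex, h1.deriv]
  have : (2 * π * I : ℂ) ≠ 0 := two_pi_I_ne_zero
  field_simp

theorem isZeroAtImInfty_D {k : ℤ} {F : Type*} [FunLike F ℍ ℂ]
    [ModularFormClass F 𝒮ℒ k] (f : F) : IsZeroAtImInfty (D f) := by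
  have han : AnalyticAt ℂ (cuspFunction 1 f) 0 :=
    ModularFormClass.analyticAt_cuspFunction_zero f one_pos one_mem_strictPeriods_SL
  have hc : ContinuousAt (fun q => q * deriv (cuspFunction 1 f) q) 0 :=
    continuousAt_id.mul han.deriv.continuousAt
  have ht : Tendsto (fun z : ℍ => 𝕢 1 z * deriv (cuspFunction 1 f) (𝕢 1 z)) atImInfty (𝓝 0) := by
    have := hc.tendsto.comp (qParam_tendsto_atImInfty one_pos)
    simpa [Function.comp_def] using this
  exact ht.congr fun z => (D_eq_q_mul_deriv_cuspFunction f z).symm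

theorem tendsto_coeff_zero {k : ℤ} (f : ModularForm 𝒮ℒ k) :
    Tendsto f atImInfty (𝓝 ((qExpansion 1 f).coeff 0)) := by
  have han : AnalyticAt ℂ (cuspFunction 1 f) 0 :=
    ModularFormClass.analyticAt_cuspFunction_zero f one_pos one_mem_strictPeriods_SL
  have h0 : (qExpansion 1 f).coeff 0 = cuspFunction 1 f 0 := by
    simp [qExpansion_coeff]
  rw [h0]
  have := han.continuousAt.tendsto.comp (qParam_tendsto_atImInfty one_pos)
  refine this.congr fun z => ?_
  exact SlashInvariantFormClass.eq_cuspFunction f z one_mem_strictPeriods_SL one_ne_zero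

theorem tendsto_E4 : Tendsto E₄ atImInfty (𝓝 1) := by
  have := tendsto_coeff_zero E₄
  rwa [E_qExpansion_coeff_zero _ ⟨2, rfl⟩] at this

theorem tendsto_E6 : Tendsto E₆ atImInfty (𝓝 1) := by
  have := tendsto_coeff_zero E₆
  rwa [E_qExpansion_coeff_zero _ ⟨3, rfl⟩] at this

/-- `E₄ ^ 3` as a weight 12 form. -/
def E43 : ModularForm 𝒮ℒ 12 := ModularForm.mcast (by decide) (E₄.pow 3)

@[simp] theorem E43_apply (z : ℍ) : E43 z = E₄ z ^ 3 := by
  simp only [E43, coe_mcast, coe_pow, Pi.pow_apply]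

/-- `E₄ ^ 2 * E₆` as a weight 14 form. -/
def E14 : ModularForm 𝒮ℒ 14 := ModularForm.mcast (by decide) ((E₄.pow 2).mul E₆)

@[simp] theorem E14_apply (z : ℍ) : E14 z = E₄ z ^ 2 * E₆ z := by
  simp only [E14, coe_mcast, ModularForm.coe_mul, coe_pow, Pi.mul_apply, Pi.pow_apply]

/-- The `j`-function `E₄ ^ 3 / Δ`. -/
def jf (z : ℍ) : ℂ := E₄ z ^ 3 / Δ z

theorem jf_eq : jf = (⇑E43 / ⇑CuspForm.discriminant) := by
  funext z; simp [jf]

theorem jf_mul_disc (z : ℍ) : jf z * Δ z = E₄ z ^ 3 := by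
  rw [jf, div_mul_cancel₀ _ (discriminant_ne_zero z)]

theorem jf_sub_mul_disc (z : ℍ) : (jf z - 1728) * Δ z = E₆ z ^ 2 := by
  rw [sub_mul, jf_mul_disc, discriminant_eq_E₄_cube_sub_E₆_sq]; ring

theorem jf_slash (γ : SL(2, ℤ)) : jf ∣[(0 : ℤ)] γ = jf := by
  have hγ : (γ : GL (Fin 2) ℝ) ∈ 𝒮ℒ := ⟨γ, rfl⟩
  rw [jf_eq]
  have := div_slash_SL2 12 12 γ (⇑E43) (⇑CuspForm.discriminant)
  simp only [sub_self] at this
  rw [this]
  simp_rw [SL_slash, slash_action_eqn _ _ hγ]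

theorem jf_smul (γ : SL(2, ℤ)) (z : ℍ) : jf (γ • z) = jf z := by
  have := congrFun (jf_slash γ) z
  simpa [ModularForm.SL_slash_apply] using this

theorem mdiff_jf : MDiff jf := by
  rw [jf_eq]
  exact E43.holo'.div CuspForm.discriminant.holo' discriminant_ne_zero

theorem D_jf_slash (γ : SL(2, ℤ)) : D jf ∣[(2 : ℤ)] γ = D jf := by
  have h := normalizedDerivOfComplex_SL_slash (k := 0) mdiff_jf (γ := γ)
  rw [jf_slash] at h
  have h2 : (D jf ∣[(0 : ℤ) + 2] γ) = D jf := by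
    funext z
    have := congrFun h z
    simp only [Int.cast_zero, zero_mul, Pi.sub_apply, sub_zero] at this
    exact this.symm
  simpa using h2

/-- `D j * Δ ^ 2 = D (E₄ ^ 3) * Δ - E₄ ^ 3 * D Δ`. -/
theorem D_jf_mul (z : ℍ) :
    D jf z * Δ z * Δ z = D E43 z * Δ z - E43 z * D Δ z := by
  have h : (⇑E43 : ℍ → ℂ) = jf * Δ := by
    funext z; simp [jf_mul_disc]
  have h2 := normalizedDerivOfComplex_mul jf Δ mdiff_jf CuspForm.discriminant.holo'
  rw [← h] at h2
  have h3 := congrFun h2 z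
  simp only [Pi.add_apply, Pi.mul_apply] at h3
  rw [h3, E43_apply, ← jf_mul_disc]
  ring

theorem G_slash (γ : SL(2, ℤ)) :
    (fun z => D jf z * Δ z * Δ z) ∣[(26 : ℤ)] γ = fun z => D jf z * Δ z * Δ z := by
  have hγ : (γ : GL (Fin 2) ℝ) ∈ 𝒮ℒ := ⟨γ, rfl⟩
  have hΔ : (⇑CuspForm.discriminant) ∣[(12 : ℤ)] γ = ⇑CuspForm.discriminant := by
    rw [SL_slash, slash_action_eqn _ _ hγ]
  have e : (fun z => D jf z * Δ z * Δ z)
      = (D jf * ⇑CuspForm.discriminant) * ⇑CuspForm.discriminant := by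
    funext z; simp
  rw [e]
  have h1 := mul_slash_SL2 2 12 γ (D jf) (⇑CuspForm.discriminant)
  have h2 := mul_slash_SL2 (2 + 12) 12 γ (D jf * ⇑CuspForm.discriminant)
    (⇑CuspForm.discriminant)
  rw [h1, D_jf_slash, hΔ] at h2
  exact h2

theorem G_zero : IsZeroAtImInfty (fun z => D jf z * Δ z * Δ z) := by
  have e : (fun z => D jf z * Δ z * Δ z) = fun z => D E43 z * Δ z - E43 z * D Δ z := by
    funext z; exact D_jf_mul z
  rw [e]
  have h1 : Tendsto (D E43) atImInfty (𝓝 0) := isZeroAtImInfty_D E43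
  have h2 : Tendsto Δ atImInfty (𝓝 0) := discriminant_isZeroAtImInfty
  have h3 : Tendsto (D Δ) atImInfty (𝓝 0) := isZeroAtImInfty_D CuspForm.discriminant
  have h4 : Tendsto E43 atImInfty (𝓝 (1 ^ 3)) := by
    have := tendsto_E4.pow 3
    refine this.congr fun z => ?_
    simp
  have := (h1.mul h2).sub (h4.mul h3)
  simpa [IsZeroAtImInfty, ZeroAtFilter] using this

/-- `D j * Δ ^ 2` as a cusp form of weight 26. -/
def G : CuspForm 𝒮ℒ 26 where
  toFun z := D jf z * Δ z * Δ z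
  slash_action_eq' A hA := by
    obtain ⟨A, rfl⟩ := hA
    exact G_slash A
  holo' := ((normalizedDerivOfComplex_mdifferentiable mdiff_jf).mul
    CuspForm.discriminant.holo').mul CuspForm.discriminant.holo'
  zero_at_cusps' hc := by
    rw [Subgroup.IsArithmetic.isCusp_iff_isCusp_SL2Z] at hc
    rw [OnePoint.isZeroAt_iff_forall_SL2Z hc]
    intro γ _
    rw [G_slash]
    exact G_zero

theorem G_apply (z : ℍ) : G z = D jf z * Δ z * Δ z := rfl

theorem tendsto_inv_jf_sub (c : ℂ) : Tendsto (fun z => (jf z - c)⁻¹) atImInfty (𝓝 0) := by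
  have h2 : Tendsto Δ atImInfty (𝓝 0) := discriminant_isZeroAtImInfty
  have h4 : Tendsto (fun z => E₄ z ^ 3 - c * Δ z) atImInfty (𝓝 (1 ^ 3 - c * 0)) :=
    (tendsto_E4.pow 3).sub (h2.const_mul c)
  have h5 := h2.div h4 (by simp)
  simp only [zero_div] at h5
  refine h5.congr fun z => ?_
  have hΔ := discriminant_ne_zero z
  rw [jf, div_sub' hΔ, inv_div, mul_comm (Δ z) c]
  rfl

theorem jf_surjective (c : ℂ) : ∃ z, jf z = c := by
  by_contra hcon
  push Not at hcon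
  have hne : ∀ z, jf z - c ≠ 0 := fun z => sub_ne_zero.mpr (hcon z)
  have hslash : ∀ γ : SL(2, ℤ), (fun z => (jf z - c)⁻¹) ∣[(0 : ℤ)] γ = fun z => (jf z - c)⁻¹ := by
    intro γ
    funext z
    rw [ModularForm.SL_slash_apply, jf_smul]
    simp
  let g : ModularForm 𝒮ℒ 0 :=
    { toFun := fun z => (jf z - c)⁻¹
      slash_action_eq' := fun _ ⟨γ, hγ⟩ => hγ ▸ hslash γ
      holo' := by
        have : MDiff (fun z => (1 : ℂ) / (jf z - c)) :=
          MDifferentiable.div mdifferentiable_const (mdiff_jf.sub mdifferentiable_const) hne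
        simpa using this
      bdd_at_cusps' := by
        intro x hc
        rw [Subgroup.IsArithmetic.isCusp_iff_isCusp_SL2Z] at hc
        rw [OnePoint.isBoundedAt_iff_forall_SL2Z hc]
        intro γ _
        rw [hslash γ]
        exact (tendsto_inv_jf_sub c).isBigO_one ℝ }
  obtain ⟨c', hc'⟩ := levelOne_weight_zero_const g
  have hg : ∀ z, (jf z - c)⁻¹ = c' := fun z => congrFun hc' z
  have h0 : c' = 0 := by
    have h1 := tendsto_inv_jf_sub c
    simp_rw [hg] at h1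
    exact tendsto_nhds_unique tendsto_const_nhds h1
  exact inv_ne_zero (hne UpperHalfPlane.I) ((hg _).trans h0)

theorem exists_E4_E6_ne : ∃ z, E₄ z ≠ 0 ∧ E₆ z ≠ 0 := by
  obtain ⟨z, hz⟩ := jf_surjective 1
  refine ⟨z, ?_, ?_⟩
  · intro h
    have := jf_mul_disc z
    rw [hz, h] at this
    simp at this
    exact discriminant_ne_zero z this
  · intro h
    have := jf_sub_mul_disc z
    rw [hz, h] at this
    norm_num at this
    exact discriminant_ne_zero z this

theorem rank_M14 : Module.rank ℂ (ModularForm 𝒮ℒ 14) = 1 := by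
  have := dimension_level_one 14 (by decide)
  simpa [Nat.ModEq] using this

theorem exists_D_jf_eq : ∃ c : ℂ, ∀ z, D jf z * Δ z = c * (E₄ z ^ 2 * E₆ z) := by
  have hE : E14 ≠ 0 := by
    obtain ⟨z, h4, h6⟩ := exists_E4_E6_ne
    refine DFunLike.ne_iff.mpr ⟨z, ?_⟩
    simp [h4, h6]
  let h14 : ModularForm 𝒮ℒ 14 := ModularForm.mcast (by norm_num) (CuspForm.discriminantEquiv G)
  obtain ⟨c, hc⟩ := (finrank_eq_one_iff_of_nonzero' E14 hE).mp
    (Module.rank_eq_one_iff_finrank_eq_one.mp rank_M14) h14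
  refine ⟨c, fun z => ?_⟩
  have h := congrArg (fun f : ModularForm 𝒮ℒ 14 => f z) hc
  simp only [h14, coe_mcast, CuspForm.discriminantEquiv_apply, G_apply, smul_apply,
    E14_apply, smul_eq_mul] at h
  rw [h, mul_div_cancel_right₀ _ (discriminant_ne_zero z)]

theorem isPreconnected_uhp : IsPreconnected upperHalfPlaneSet :=
  (convex_halfSpace_im_gt 0).isPreconnected

theorem differentiableOn_of_mdiff {F : ℍ → ℂ} (hF : MDiff F) :
    DifferentiableOn ℂ (F ∘ ofComplex) upperHalfPlaneSet :=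
  UpperHalfPlane.mdifferentiable_iff.mp hF

theorem analyticAt_of_mdiff {F : ℍ → ℂ} (hF : MDiff F) (z : ℍ) :
    AnalyticAt ℂ (F ∘ ofComplex) (z : ℂ) :=
  (differentiableOn_of_mdiff hF).analyticAt (isOpen_upperHalfPlaneSet.mem_nhds z.im_pos)

theorem exists_D_jf_eq' : ∃ c : ℂ, c ≠ 0 ∧ ∀ z, D jf z * Δ z = c * (E₄ z ^ 2 * E₆ z) := by
  obtain ⟨c, hc⟩ := exists_D_jf_eq
  refine ⟨c, ?_, hc⟩
  rintro rfl
  have hD : ∀ z, D jf z = 0 := by
    intro z
    have := hc z
    rw [zero_mul] at this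
    exact (mul_eq_zero.mp this).resolve_right (discriminant_ne_zero z)
  have hd : upperHalfPlaneSet.EqOn (deriv (jf ∘ ofComplex)) 0 := by
    intro w hw
    have := hD ⟨w, hw⟩
    simp only [normalizedDerivOfComplex] at this
    exact (mul_eq_zero.mp this).resolve_left (inv_ne_zero two_pi_I_ne_zero)
  obtain ⟨z0, h0⟩ := jf_surjective 0
  obtain ⟨z1, h1⟩ := jf_surjective 1
  have := isOpen_upperHalfPlaneSet.is_const_of_deriv_eq_zero isPreconnected_uhp
    (differentiableOn_of_mdiff mdiff_jf) hd z0.im_pos z1.im_pos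
  simp only [comp_apply, ofComplex_apply, h0, h1] at this
  exact zero_ne_one this

theorem E4_ne_zero_of_jf_ne {z : ℍ} (h : jf z ≠ 0) : E₄ z ≠ 0 := by
  intro h4
  apply h
  simp [jf, h4]

theorem E6_ne_zero_of_jf_ne {z : ℍ} (h : jf z ≠ 1728) : E₆ z ≠ 0 := by
  intro h6
  have := jf_sub_mul_disc z
  rw [h6] at this
  simp only [ne_eq, OfNat.ofNat_ne_zero, not_false_eq_true, zero_pow, mul_eq_zero] at this
  exact h (sub_eq_zero.mp (this.resolve_right (discriminant_ne_zero z)))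

theorem jf_eq_zero_iff {z : ℍ} : jf z = 0 ↔ E₄ z = 0 := by
  constructor
  · intro h
    by_contra h4
    have := jf_mul_disc z
    rw [h, zero_mul] at this
    exact h4 (pow_eq_zero_iff (by norm_num) |>.mp this.symm)
  · intro h; simp [jf, h]

theorem jf_eq_1728_iff {z : ℍ} : jf z = 1728 ↔ E₆ z = 0 := by
  constructor
  · intro h
    have := jf_sub_mul_disc z
    rw [h, sub_self, zero_mul] at this
    exact pow_eq_zero_iff (by norm_num) |>.mp this.symm
  · intro h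
    by_contra hne
    exact E6_ne_zero_of_jf_ne hne h

theorem deriv_eq_D (F : ℍ → ℂ) (z : ℍ) :
    deriv (F ∘ ofComplex) z = 2 * π * I * D F z := by
  simp only [normalizedDerivOfComplex]
  rw [← mul_assoc, mul_inv_cancel₀ two_pi_I_ne_zero, one_mul]

theorem deriv_jf_ne_zero {z : ℍ} (h0 : jf z ≠ 0) (h1 : jf z ≠ 1728) :
    deriv (jf ∘ ofComplex) z ≠ 0 := by
  obtain ⟨c, hc0, hc⟩ := exists_D_jf_eq'
  rw [deriv_eq_D]
  refine mul_ne_zero two_pi_I_ne_zero ?_
  intro hD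
  have := hc z
  rw [hD, zero_mul] at this
  have h4 := E4_ne_zero_of_jf_ne h0
  have h6 := E6_ne_zero_of_jf_ne h1
  exact mul_ne_zero hc0 (mul_ne_zero (pow_ne_zero 2 h4) h6) this.symm

theorem order_jf_generic {z : ℍ} (h0 : jf z ≠ 0) (h1 : jf z ≠ 1728) :
    analyticOrderAt (fun w => (jf ∘ ofComplex) w - jf z) (z : ℂ) = 1 := by
  have := (analyticAt_of_mdiff mdiff_jf z).analyticOrderAt_sub_eq_one_of_deriv_ne_zero
    (deriv_jf_ne_zero h0 h1)
  simpa using this

theorem analyticOnNhd_of_mdiff {F : ℍ → ℂ} (hF : MDiff F) :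
    AnalyticOnNhd ℂ (F ∘ ofComplex) upperHalfPlaneSet :=
  fun w hw => analyticAt_of_mdiff hF ⟨w, hw⟩

theorem order_ne_top_of_ne {F : ℍ → ℂ} (hF : MDiff F) {z0 : ℍ} (h0 : F z0 ≠ 0) (z : ℍ) :
    analyticOrderAt (F ∘ ofComplex) (z : ℂ) ≠ ⊤ := by
  refine (analyticOnNhd_of_mdiff hF).analyticOrderAt_ne_top_of_isPreconnected isPreconnected_uhp
    z0.im_pos z.im_pos ?_
  have : analyticOrderAt (F ∘ ofComplex) (z0 : ℂ) = 0 := by
    rw [(analyticAt_of_mdiff hF z0).analyticOrderAt_eq_zero]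
    simpa using h0
  rw [this]
  simp

theorem order_eq_zero_of_ne {F : ℍ → ℂ} (hF : MDiff F) {z : ℍ} (h0 : F z ≠ 0) :
    analyticOrderAt (F ∘ ofComplex) (z : ℂ) = 0 := by
  rw [(analyticAt_of_mdiff hF z).analyticOrderAt_eq_zero]
  simpa using h0

theorem mdiff_E4 : MDiff (⇑E₄) := ModularFormClass.holo E₄

theorem mdiff_E6 : MDiff (⇑E₆) := ModularFormClass.holo E₆

theorem mdiff_disc : MDiff Δ := CuspForm.discriminant.holo'

theorem eventuallyEq_of_forall {F G : ℍ → ℂ} (h : ∀ z, F z = G z) (z : ℍ) :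
    (F ∘ ofComplex) =ᶠ[𝓝 (z : ℂ)] (G ∘ ofComplex) :=
  Eventually.of_forall fun _ => h _

theorem deriv_jc_mul_eventuallyEq {c : ℂ} (hc : ∀ z, D jf z * Δ z = c * (E₄ z ^ 2 * E₆ z))
    (z : ℍ) :
    (deriv (jf ∘ ofComplex) * (Δ ∘ ofComplex)) =ᶠ[𝓝 (z : ℂ)]
      ((fun _ => 2 * π * I * c) * ((E₄ ∘ ofComplex) ^ 2 * (E₆ ∘ ofComplex))) := by
  filter_upwards [isOpen_upperHalfPlaneSet.mem_nhds z.im_pos] with w hw
  have h1 := deriv_eq_D jf ⟨w, hw⟩
  have h2 := hc ⟨w, hw⟩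
  simp only [Pi.mul_apply, Pi.pow_apply, comp_apply, ofComplex_apply_of_im_pos hw]
  simp only at h1
  rw [h1, mul_assoc, h2]
  ring

/-- Orders of `deriv j`: `ord (j') = 2 ord E₄ + ord E₆`. -/
theorem order_deriv_jc (z : ℍ) :
    analyticOrderAt (deriv (jf ∘ ofComplex)) (z : ℂ) =
      2 • analyticOrderAt (E₄ ∘ ofComplex) (z : ℂ) + analyticOrderAt (E₆ ∘ ofComplex) (z : ℂ) := by
  obtain ⟨c, hc0, hc⟩ := exists_D_jf_eq'
  have hj := analyticAt_of_mdiff mdiff_jf z
  have h4 := analyticAt_of_mdiff mdiff_E4 z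
  have h6 := analyticAt_of_mdiff mdiff_E6 z
  have hd := analyticAt_of_mdiff mdiff_disc z
  have h := analyticOrderAt_congr (deriv_jc_mul_eventuallyEq hc z)
  have hd0 : analyticOrderAt (Δ ∘ ofComplex) (z : ℂ) = 0 :=
    order_eq_zero_of_ne mdiff_disc (discriminant_ne_zero z)
  have hconst : analyticOrderAt (fun _ : ℂ => 2 * π * I * c) (z : ℂ) = 0 := by
    rw [analyticAt_const.analyticOrderAt_eq_zero]
    exact mul_ne_zero two_pi_I_ne_zero hc0
  rw [analyticOrderAt_mul hj.deriv hd, hd0, add_zero,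
    analyticOrderAt_mul analyticAt_const ((h4.pow 2).mul h6), hconst, zero_add,
    analyticOrderAt_mul (h4.pow 2) h6, analyticOrderAt_pow h4] at h
  exact h

theorem order_jc (z : ℍ) :
    analyticOrderAt (jf ∘ ofComplex) (z : ℂ) = 3 • analyticOrderAt (E₄ ∘ ofComplex) (z : ℂ) := by
  have hj := analyticAt_of_mdiff mdiff_jf z
  have h4 := analyticAt_of_mdiff mdiff_E4 z
  have hd := analyticAt_of_mdiff mdiff_disc z
  have hd0 : analyticOrderAt (Δ ∘ ofComplex) (z : ℂ) = 0 :=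
    order_eq_zero_of_ne mdiff_disc (discriminant_ne_zero z)
  have e : ((jf ∘ ofComplex) * (Δ ∘ ofComplex)) =ᶠ[𝓝 (z : ℂ)] (E₄ ∘ ofComplex) ^ 3 :=
    Eventually.of_forall fun w => jf_mul_disc _
  have h := analyticOrderAt_congr e
  rw [analyticOrderAt_mul hj hd, hd0, add_zero, analyticOrderAt_pow h4] at h
  exact h

theorem order_jc_sub (z : ℍ) :
    analyticOrderAt (fun w => (jf ∘ ofComplex) w - 1728) (z : ℂ) =
      2 • analyticOrderAt (E₆ ∘ ofComplex) (z : ℂ) := by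
  have hj := analyticAt_of_mdiff mdiff_jf z
  have h6 := analyticAt_of_mdiff mdiff_E6 z
  have hd := analyticAt_of_mdiff mdiff_disc z
  have hd0 : analyticOrderAt (Δ ∘ ofComplex) (z : ℂ) = 0 :=
    order_eq_zero_of_ne mdiff_disc (discriminant_ne_zero z)
  have e : ((fun w => (jf ∘ ofComplex) w - 1728) * (Δ ∘ ofComplex)) =ᶠ[𝓝 (z : ℂ)]
      (E₆ ∘ ofComplex) ^ 2 :=
    Eventually.of_forall fun w => jf_sub_mul_disc _
  have h := analyticOrderAt_congr e
  rw [analyticOrderAt_mul (f := fun w => (jf ∘ ofComplex) w - 1728)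
    (hj.sub analyticAt_const) hd, hd0, add_zero, analyticOrderAt_pow h6] at h
  exact h

theorem E6_ne_zero_of_E4 {z : ℍ} (h : E₄ z = 0) : E₆ z ≠ 0 := by
  intro h6
  have := discriminant_eq_E₄_cube_sub_E₆_sq z
  rw [h, h6] at this
  simp at this
  exact discriminant_ne_zero z this

theorem E4_ne_zero_of_E6 {z : ℍ} (h : E₆ z = 0) : E₄ z ≠ 0 :=
  fun h4 => E6_ne_zero_of_E4 h4 h

/-- Zeros of `E₄` are simple. -/
theorem order_E4_of_zero {z : ℍ} (h : E₄ z = 0) :
    analyticOrderAt (E₄ ∘ ofComplex) (z : ℂ) = 1 := by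
  obtain ⟨z0, h40, -⟩ := exists_E4_E6_ne
  have htop := order_ne_top_of_ne mdiff_E4 h40 z
  have h1 := order_deriv_jc z
  have h2 := order_jc z
  have h3 := (analyticAt_of_mdiff mdiff_jf z).analyticOrderAt_deriv_add_one
  have hz : (jf ∘ ofComplex) (z : ℂ) = 0 := by simp [jf_eq_zero_iff.mpr h]
  simp only [hz, sub_zero] at h3
  rw [order_eq_zero_of_ne mdiff_E6 (E6_ne_zero_of_E4 h), add_zero] at h1
  have h3' : analyticOrderAt (deriv (jf ∘ ofComplex)) (z : ℂ) + 1
      = analyticOrderAt (jf ∘ ofComplex) (z : ℂ) := h3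
  rw [h1, h2] at h3'
  obtain ⟨n, hn⟩ := ENat.ne_top_iff_exists.mp htop
  rw [← hn] at h3' ⊢
  simp only [nsmul_eq_mul] at h3'
  norm_cast at h3' ⊢
  omega

/-- Zeros of `E₆` are simple. -/
theorem order_E6_of_zero {z : ℍ} (h : E₆ z = 0) :
    analyticOrderAt (E₆ ∘ ofComplex) (z : ℂ) = 1 := by
  obtain ⟨z0, -, h60⟩ := exists_E4_E6_ne
  have htop := order_ne_top_of_ne mdiff_E6 h60 z
  have h1 := order_deriv_jc z
  have h2 := order_jc_sub z
  have h3 := (analyticAt_of_mdiff mdiff_jf z).analyticOrderAt_deriv_add_one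
  have hz : (jf ∘ ofComplex) (z : ℂ) = 1728 := by simp [jf_eq_1728_iff.mpr h]
  simp only [hz] at h3
  rw [order_eq_zero_of_ne mdiff_E4 (E4_ne_zero_of_E6 h), smul_zero, zero_add] at h1
  rw [h1, h2] at h3
  obtain ⟨n, hn⟩ := ENat.ne_top_iff_exists.mp htop
  rw [← hn] at h3 ⊢
  simp only [nsmul_eq_mul] at h3
  norm_cast at h3 ⊢
  omega

/-- `j` vanishes to order exactly 3 at a zero of `E₄`. -/
theorem order_jf_of_E4 {z : ℍ} (h : E₄ z = 0) :
    analyticOrderAt (jf ∘ ofComplex) (z : ℂ) = 3 := by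
  rw [order_jc, order_E4_of_zero h]; rfl

/-- `j - 1728` vanishes to order exactly 2 at a zero of `E₆`. -/
theorem order_jf_of_E6 {z : ℍ} (h : E₆ z = 0) :
    analyticOrderAt (fun w => (jf ∘ ofComplex) w - 1728) (z : ℂ) = 2 := by
  rw [order_jc_sub, order_E6_of_zero h]; rfl

/-! ### The elliptic points -/

theorem sqrt3_sq : ((Real.sqrt 3 : ℝ) : ℂ) ^ 2 = 3 := by
  rw [← Complex.ofReal_pow, Real.sq_sqrt (by norm_num)]; norm_num

/-- A point of `ℍ` satisfying `z² + z + 1 = 0` is fixed by `ST`. -/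
theorem ST_smul_of_quad {z : ℍ} (h : (z : ℂ) ^ 2 + (z : ℂ) + 1 = 0) :
    (ModularGroup.S * ModularGroup.T) • z = z := by
  rw [mul_smul, UpperHalfPlane.modular_T_smul, UpperHalfPlane.modular_S_smul]
  ext
  have hne : (1 : ℂ) + (z : ℂ) ≠ 0 := by
    intro h0
    have : (z : ℂ) = -1 := by linear_combination h0
    rw [this] at h
    norm_num at h
  simp only [coe_vadd]
  push_cast
  field_simp
  linear_combination (-1 : ℂ) * h

theorem S_smul_I' : ModularGroup.S • UpperHalfPlane.I = UpperHalfPlane.I := by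
  rw [UpperHalfPlane.modular_S_smul]
  ext
  simp [Complex.inv_I]

theorem apply_fixed {k : ℤ} (f : ModularForm 𝒮ℒ k) (g : SL(2, ℤ)) (z : ℍ) (hg : g • z = z) :
    f z = denom g z ^ k * f z := by
  have hγ : (g : GL (Fin 2) ℝ) ∈ 𝒮ℒ := ⟨g, rfl⟩
  have h1 : (⇑f) ∣[k] g = ⇑f := by rw [SL_slash, slash_action_eqn _ _ hγ]
  have h2 := congrFun h1 z
  rw [ModularForm.SL_slash_apply, hg] at h2
  have hd : denom g z ≠ 0 := denom_ne_zero _ z
  rw [zpow_neg] at h2
  field_simp at h2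
  rw [mul_comm]; exact h2

theorem E6_I : E₆ UpperHalfPlane.I = 0 := by
  have h := apply_fixed E₆ ModularGroup.S UpperHalfPlane.I S_smul_I'
  rw [ModularGroup.denom_S] at h
  have h6 : ((UpperHalfPlane.I : ℍ) : ℂ) ^ (6 : ℤ) = -1 := by
    have : ((UpperHalfPlane.I : ℍ) : ℂ) = Complex.I := rfl
    rw [this]
    have : (Complex.I) ^ (6 : ℤ) = Complex.I ^ (6 : ℕ) := by norm_cast
    rw [this]
    have : Complex.I ^ 6 = (Complex.I ^ 2) ^ 3 := by ring
    rw [this, Complex.I_sq]; norm_num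
  rw [h6] at h
  have : (2 : ℂ) * E₆ UpperHalfPlane.I = 0 := by linear_combination h
  simpa using this

theorem E4_of_quad {z : ℍ} (hq : (z : ℂ) ^ 2 + (z : ℂ) + 1 = 0) : E₄ z = 0 := by
  have h := apply_fixed E₄ (ModularGroup.S * ModularGroup.T) z (ST_smul_of_quad hq)
  have hd : denom ((ModularGroup.S * ModularGroup.T : SL(2, ℤ))) z = (z : ℂ) + 1 := by
    rw [ModularGroup.denom_apply]
    have h10 : ((ModularGroup.S * ModularGroup.T : SL(2, ℤ)) 1 0 : ℤ) = 1 := by decide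
    have h11 : ((ModularGroup.S * ModularGroup.T : SL(2, ℤ)) 1 1 : ℤ) = 1 := by decide
    rw [h10, h11]
    push_cast; ring
  rw [hd] at h
  have h4 : ((z : ℂ) + 1) ^ (4 : ℤ) = -(z : ℂ) - 1 := by
    have : ((z : ℂ) + 1) ^ (4 : ℤ) = ((z : ℂ) + 1) ^ (4 : ℕ) := by norm_cast
    rw [this]
    linear_combination ((z : ℂ) ^ 2 + 3 * (z : ℂ) + 2) * hq
  rw [h4] at h
  have hne : (2 : ℂ) + (z : ℂ) ≠ 0 := by
    intro h0
    have : (z : ℂ) = -2 := by linear_combination h0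
    rw [this] at hq
    norm_num at hq
  have : ((2 : ℂ) + (z : ℂ)) * E₄ z = 0 := by linear_combination h
  exact (mul_eq_zero.mp this).resolve_left hne

end

end Fermat.Agent.S24.LevelOne
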