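import Fermat.Agent.S24.JFun
import Fermat.Agent.S24.LevelOneAux

set_option autoImplicit false

namespace Fermat.Agent.S24

open UpperHalfPlane Function ModularForm EisensteinSeries
open scoped Manifold MatrixGroups

local notation "𝕢" => Periodic.qParam

theorem jfun_eq_jf : jfun = LevelOne.jf := rfl

/-- PIECE L1. `j` is surjective. -/
theorem exists_jfun_eq (c : ℂ) : ∃ τ : ℍ, jfun τ = c :=
  LevelOne.jf_surjective c

/-- PIECE L2. `j - 1728 = E₆²/Δ`. -/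
theorem jfun_sub_1728 (τ : ℍ) : jfun τ - 1728 = (E₆ τ) ^ 2 / ModularForm.discriminant τ := by
  rw [eq_div_iff (discriminant_ne_zero τ)]
  exact LevelOne.jf_sub_mul_disc τ

/-- PIECE L3. `j' Δ = c E₄² E₆` with `c ≠ 0`. -/
theorem exists_deriv_jfun :
    ∃ c : ℂ, c ≠ 0 ∧ ∀ τ : ℍ, (derivHol jHol : ℍ → ℂ) τ * ModularForm.discriminant τ =
      c * (E₄ τ) ^ 2 * E₆ τ := by
  obtain ⟨c, hc0, hc⟩ := LevelOne.exists_D_jf_eq'
  refine ⟨2 * Real.pi * Complex.I * c, mul_ne_zero Complex.two_pi_I_ne_zero hc0, fun τ => ?_⟩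
  have h1 : (derivHol jHol : ℍ → ℂ) τ = deriv (LevelOne.jf ∘ ofComplex) (τ : ℂ) := rfl
  rw [h1, LevelOne.deriv_eq_D, mul_assoc, hc τ]
  ring

/-- PIECE L4. -/
theorem order_taylorHom_generic (τ : ℍ) (h0 : jfun τ ≠ 0) (h1 : jfun τ ≠ 1728) :
    (taylorHom τ (jHol - constHol (jfun τ))).order = 1 := by
  rw [order_taylorHom]
  exact LevelOne.order_jf_generic h0 h1

/-- The elliptic point `ρ = e^{2πi/3}`. -/
noncomputable def rhoPt : ℍ := ⟨-1 / 2 + (Real.sqrt 3 / 2 : ℝ) * Complex.I, by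
  simp⟩

theorem coe_rhoPt : (rhoPt : ℂ) = -1 / 2 + (Real.sqrt 3 / 2 : ℝ) * Complex.I := rfl

theorem rhoPt_quad : (rhoPt : ℂ) ^ 2 + (rhoPt : ℂ) + 1 = 0 := by
  rw [coe_rhoPt]
  push_cast
  ring_nf
  rw [LevelOne.sqrt3_sq, Complex.I_sq]
  ring

/-- PIECE L5. -/
theorem ST_smul_rhoPt : (ModularGroup.S * ModularGroup.T) • rhoPt = rhoPt :=
  LevelOne.ST_smul_of_quad rhoPt_quad

theorem S_smul_I : ModularGroup.S • UpperHalfPlane.I = UpperHalfPlane.I :=
  LevelOne.S_smul_I'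

/-- PIECE L6. -/
theorem jfun_rhoPt : jfun rhoPt = 0 :=
  LevelOne.jf_eq_zero_iff.mpr (LevelOne.E4_of_quad rhoPt_quad)

theorem jfun_I : jfun UpperHalfPlane.I = 1728 :=
  LevelOne.jf_eq_1728_iff.mpr LevelOne.E6_I

/-- PIECE L7. -/
theorem order_taylorHom_rhoPt : (taylorHom rhoPt jHol).order = 3 := by
  rw [order_taylorHom]
  exact LevelOne.order_jf_of_E4 (LevelOne.E4_of_quad rhoPt_quad)

theorem order_taylorHom_I : (taylorHom UpperHalfPlane.I (jHol - constHol 1728)).order = 2 := by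
  rw [order_taylorHom]
  exact LevelOne.order_jf_of_E6 LevelOne.E6_I

end Fermat.Agent.S24
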