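import Fermat.Agent.S24.JFun

set_option autoImplicit false

namespace Fermat.Agent.S24

open UpperHalfPlane Function ModularForm EisensteinSeries ModularFormClass Filter Asymptotics
open scoped Manifold MatrixGroups Topology

local notation "𝕢" => Periodic.qParam

theorem poly_mdiff_q : MDiff (fun τ : ℍ => 𝕢 1 (τ : ℂ)) := by
  rw [UpperHalfPlane.mdifferentiable_iff]
  have h : Differentiable ℂ (𝕢 1) := by
    unfold Periodic.qParam
    fun_prop
  refine h.differentiableOn.congr fun z hz => ?_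
  simp [Function.comp_apply, ofComplex_apply_of_im_pos hz]

theorem poly_periodic_q : Periodic ((fun τ : ℍ => 𝕢 1 (τ : ℂ)) ∘ ofComplex) ((1 : ℝ) : ℂ) := by
  intro z
  simp only [Function.comp_apply]
  by_cases hz : 0 < z.im
  · have hz' : 0 < (z + ((1 : ℝ) : ℂ)).im := by simpa using hz
    rw [ofComplex_apply_of_im_pos hz, ofComplex_apply_of_im_pos hz']
    have := Hol_qParam_add_period 1 z
    simpa using this
  · have hz' : ¬ 0 < (z + ((1 : ℝ) : ℂ)).im := by simpa using hz
    rw [ofComplex_apply_of_im_nonpos (not_lt.1 hz), ofComplex_apply_of_im_nonpos (not_lt.1 hz')]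

theorem poly_norm_q (τ : ℍ) : ‖𝕢 1 (τ : ℂ)‖ = Real.exp (-2 * Real.pi * τ.im / 1) := by
  rw [Periodic.norm_qParam]
  rfl

theorem poly_aux (m : ℕ) : ∀ f : Hol, (∀ γ : SL(2, ℤ), compHom γ f = f) →
    Periodic ((f : ℍ → ℂ) ∘ ofComplex) ((1 : ℝ) : ℂ) →
    IsBoundedAtImInfty (fun τ : ℍ => (f : ℍ → ℂ) τ * 𝕢 1 τ ^ m) →
    ∃ P : Polynomial ℂ, f = Polynomial.eval₂ constHol jHol P := by
  induction m with
  | zero =>
    intro f hinv _ hb
    have hslash : ∀ γ : SL(2, ℤ), (f : ℍ → ℂ) ∣[(0 : ℤ)] γ = (f : ℍ → ℂ) := by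
      intro γ
      funext z
      rw [ModularForm.SL_slash_apply]
      have := congrArg (fun g : Hol => (g : ℍ → ℂ) z) (hinv γ)
      simp only [compHom_apply] at this
      rw [this]; simp
    let g : ModularForm 𝒮ℒ 0 :=
      { toFun := (f : ℍ → ℂ)
        slash_action_eq' := fun _ ⟨γ, hγ⟩ => hγ ▸ hslash γ
        holo' := f.2
        bdd_at_cusps' := by
          intro x hc
          rw [Subgroup.IsArithmetic.isCusp_iff_isCusp_SL2Z] at hc
          rw [OnePoint.isBoundedAt_iff_forall_SL2Z hc]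
          intro γ _
          rw [hslash γ]
          simpa using hb }
    obtain ⟨c, hc⟩ := levelOne_weight_zero_const g
    refine ⟨Polynomial.C c, ?_⟩
    rw [Polynomial.eval₂_C]
    ext τ
    exact congrFun hc τ
  | succ m ih =>
    intro f hinv hper hb
    set G : ℍ → ℂ := fun τ : ℍ => (f : ℍ → ℂ) τ * 𝕢 1 τ ^ (m + 1) with hG
    have hGhol : MDiff G := f.2.mul (poly_mdiff_q.pow (m + 1))
    have hGper : Periodic (G ∘ ofComplex) ((1 : ℝ) : ℂ) := by
      intro z
      have h1 := hper z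
      have h2 := poly_periodic_q z
      simp only [Function.comp_apply, hG] at h1 h2 ⊢
      rw [h1, h2]
    set a : ℂ := valueAtInfty G with ha
    have hdecay := exp_decay_sub_atImInfty (h := 1) one_pos hGper hGhol hb
    -- the corrected function
    set f1 : Hol := f - constHol a * jHol ^ (m + 1) with hf1
    have hinv1 : ∀ γ : SL(2, ℤ), compHom γ f1 = f1 := by
      intro γ
      rw [hf1, map_sub, map_mul, map_pow, hinv γ, compHom_jHol, compHom_constHol]
    have hper1 : Periodic ((f1 : ℍ → ℂ) ∘ ofComplex) ((1 : ℝ) : ℂ) := by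
      intro z
      have h1 := hper z
      have h2 := jf_periodic z
      simp only [Function.comp_apply] at h1 h2 ⊢
      show (f : ℍ → ℂ) _ - a * jfun _ ^ (m + 1) = (f : ℍ → ℂ) _ - a * jfun _ ^ (m + 1)
      rw [h1, h2]
    -- `J = (j q)^(m+1)` also decays to its limit `1`
    set J : ℍ → ℂ := fun τ : ℍ => (jfun τ * 𝕢 1 τ) ^ (m + 1) with hJ
    have hJhol : MDiff J := (jfun_mdiff.mul poly_mdiff_q).pow (m + 1)
    have hJper : Periodic (J ∘ ofComplex) ((1 : ℝ) : ℂ) := by
      intro z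
      have h1 := jf_periodic z
      have h2 := poly_periodic_q z
      simp only [Function.comp_apply, hJ] at h1 h2 ⊢
      rw [h1, h2]
    have hJlim : Tendsto J atImInfty (𝓝 1) := by
      have := tendsto_jfun_mul_q.pow (m + 1)
      simpa using this
    have hJb : IsBoundedAtImInfty J := hJlim.isBigO_one ℝ
    have hJval : valueAtInfty J = 1 := hJlim.limUnder_eq
    have hdecayJ := exp_decay_sub_atImInfty (h := 1) one_pos hJper hJhol hJb
    rw [hJval] at hdecayJ
    have hb1 : IsBoundedAtImInfty (fun τ : ℍ => (f1 : ℍ → ℂ) τ * 𝕢 1 τ ^ m) := by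
      have h3 : (fun τ : ℍ => (G τ - a) - a * (J τ - 1)) =O[atImInfty]
          fun τ : ℍ => Real.exp (-2 * Real.pi * τ.im / 1) :=
        hdecay.sub (hdecayJ.const_mul_left a)
      have h4 : (fun τ : ℍ => (f1 : ℍ → ℂ) τ * 𝕢 1 τ ^ m) =
          fun τ : ℍ => ((G τ - a) - a * (J τ - 1)) * (𝕢 1 τ)⁻¹ := by
        funext τ
        have hq : 𝕢 1 (τ : ℂ) ≠ 0 := Periodic.qParam_ne_zero _
        show ((f : ℍ → ℂ) τ - a * jfun τ ^ (m + 1)) * 𝕢 1 τ ^ m = _
        simp only [hG, hJ]
        field_simp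
        ring
      rw [h4]
      have h5 : (fun τ : ℍ => (𝕢 1 (τ : ℂ))⁻¹) =O[atImInfty]
          fun τ : ℍ => (Real.exp (-2 * Real.pi * τ.im / 1))⁻¹ := by
        refine IsBigO.of_bound 1 (Eventually.of_forall fun τ => ?_)
        rw [norm_inv, poly_norm_q, one_mul, Real.norm_eq_abs, abs_inv, abs_of_pos (Real.exp_pos _)]
      have h6 := h3.mul h5
      refine h6.trans (IsBigO.of_bound 1 (Eventually.of_forall fun τ => ?_))
      rw [mul_inv_cancel₀ (Real.exp_pos _).ne']
      simp
    obtain ⟨P, hP⟩ := ih f1 hinv1 hper1 hb1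
    refine ⟨P + Polynomial.C a * Polynomial.X ^ (m + 1), ?_⟩
    rw [Polynomial.eval₂_add, Polynomial.eval₂_mul, Polynomial.eval₂_C, Polynomial.eval₂_pow,
      Polynomial.eval₂_X, ← hP, hf1]
    ring

/-- PIECE L8. An `SL₂(ℤ)`-invariant holomorphic function, meromorphic at `i∞`, is a polynomial
in `j`. -/
theorem exists_polynomial_of_invariant (f : Hol) (hinv : ∀ γ : SL(2, ℤ), compHom γ f = f)
    (hmer : (f : ℍ → ℂ) ∈ MerInf 1) :
    ∃ P : Polynomial ℂ, f = Polynomial.eval₂ constHol jHol P := by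
  obtain ⟨_, hper, m, hm⟩ := mem_MerInf.1 hmer
  exact poly_aux m f hinv (by simpa using hper) (by simpa using hm)

end Fermat.Agent.S24
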