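import Mathlib
import Fermat.Prelude.Def_AlgebraicCurve_DivisorClassGroup

/-!
# The formal (π-adic) embedding of a function field at a place of degree one

For a place `v` of `F/K` whose residue field is `K`, we construct a ring homomorphism
`F →+* K((t))`, which is the identity on constants and which transports `ord_v` to the order of
Laurent series.  No completion API is used.
-/

set_option autoImplicit false

namespace Fermat.Agent.S24

open AlgebraicCurve Polynomial

variable {K F : Type*} [Field K] [Field F] [Algebra K F] (v : Place K F)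

/-- `s` is a `π`-adic expansion of `a`. -/
def IsExp (π a : v.toValuationSubring) (s : PowerSeries K) : Prop :=
  ∀ m : ℕ, π ^ m ∣ a - aeval π (PowerSeries.trunc m s)

variable {v}
variable {π : v.toValuationSubring}

theorem isExp_coe (p : K[X]) : IsExp v π (aeval π p) (p : PowerSeries K) := by
  intro m
  have h : (X : K[X]) ^ m ∣ p - PowerSeries.trunc m (p : PowerSeries K) := by
    rw [X_pow_dvd_iff]
    intro d hd
    rw [coeff_sub, PowerSeries.coeff_trunc, if_pos hd, Polynomial.coeff_coe, sub_self]
  have h2 := map_dvd (aeval π) h
  rwa [map_pow, aeval_X, map_sub] at h2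

theorem IsExp.add {a b : v.toValuationSubring} {s t : PowerSeries K}
    (ha : IsExp v π a s) (hb : IsExp v π b t) : IsExp v π (a + b) (s + t) := by
  intro m
  have := dvd_add (ha m) (hb m)
  rw [map_add, map_add]
  convert this using 1
  ring

theorem IsExp.sub {a b : v.toValuationSubring} {s t : PowerSeries K}
    (ha : IsExp v π a s) (hb : IsExp v π b t) : IsExp v π (a - b) (s - t) := by
  intro m
  have := dvd_sub (ha m) (hb m)
  rw [PowerSeries.trunc_sub, map_sub]
  convert this using 1
  ring

theorem IsExp.mul {a b : v.toValuationSubring} {s t : PowerSeries K}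
    (ha : IsExp v π a s) (hb : IsExp v π b t) : IsExp v π (a * b) (s * t) := by
  intro m
  have h1 := isExp_coe (v := v) (π := π) (PowerSeries.trunc m s * PowerSeries.trunc m t) m
  rw [Polynomial.coe_mul, PowerSeries.trunc_trunc_mul_trunc, map_mul] at h1
  have h2 := dvd_add (dvd_add ((ha m).mul_right b)
    ((hb m).mul_left (aeval π (PowerSeries.trunc m s)))) h1
  convert h2 using 1
  ring

theorem isExp_one : IsExp v π 1 1 := by
  have := isExp_coe (v := v) (π := π) (1 : K[X])
  simpa using this

theorem isExp_zero : IsExp v π 0 0 := by
  have := isExp_coe (v := v) (π := π) (0 : K[X])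
  simpa using this

theorem isExp_C (c : K) : IsExp v π (algebraMap K v.toValuationSubring c) (PowerSeries.C c) := by
  have := isExp_coe (v := v) (π := π) (Polynomial.C c : K[X])
  simpa using this

theorem isExp_X : IsExp v π π PowerSeries.X := by
  have := isExp_coe (v := v) (π := π) (Polynomial.X : K[X])
  simpa using this

theorem not_dvd_algebraMap (hπ : Irreducible π) {c : K} (hc : c ≠ 0) :
    ¬ π ∣ algebraMap K v.toValuationSubring c := by
  intro h
  have hu : IsUnit (algebraMap K v.toValuationSubring c) := (hc.isUnit).map _
  exact hπ.not_isUnit (isUnit_of_dvd_unit h hu)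

theorem IsExp.eq_zero (hπ : Irreducible π) {s : PowerSeries K} (h : IsExp v π 0 s) : s = 0 := by
  ext n
  induction n using Nat.strong_induction_on with
  | _ n ih =>
    rw [map_zero]
    by_contra hn
    have ht : PowerSeries.trunc (n + 1) s = monomial n (PowerSeries.coeff n s) := by
      ext i
      rw [PowerSeries.coeff_trunc, coeff_monomial]
      by_cases hi : i < n + 1
      · rw [if_pos hi]
        rcases Nat.lt_succ_iff_lt_or_eq.mp hi with h1 | h1
        · rw [ih i h1, if_neg (by omega)]; simp
        · rw [if_pos h1.symm, h1]
      · rw [if_neg hi, if_neg (by omega)]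
    have h1 := h (n + 1)
    rw [ht, aeval_monomial, zero_sub, dvd_neg, pow_succ, mul_comm] at h1
    exact not_dvd_algebraMap hπ hn
      ((mul_dvd_mul_iff_right (pow_ne_zero n hπ.ne_zero)).mp h1)

theorem IsExp.unique (hπ : Irreducible π) {a : v.toValuationSubring} {s t : PowerSeries K}
    (hs : IsExp v π a s) (ht : IsExp v π a t) : s = t := by
  have := (hs.sub ht)
  rw [sub_self] at this
  exact sub_eq_zero.mp (this.eq_zero hπ)

theorem exists_step (hπ : Irreducible π)
    (hres : Function.Surjective (algebraMap K v.ResidueField)) (a : v.toValuationSubring) :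
    ∃ (c : K) (a' : v.toValuationSubring), a = algebraMap K v.toValuationSubring c + π * a' := by
  obtain ⟨c, hc⟩ := hres (IsLocalRing.residue _ a)
  have h1 : IsLocalRing.residue v.toValuationSubring (a - algebraMap K v.toValuationSubring c)
      = 0 := by
    rw [map_sub, ← hc]
    exact sub_self _
  rw [IsLocalRing.residue_eq_zero_iff, hπ.maximalIdeal_eq, Ideal.mem_span_singleton] at h1
  obtain ⟨a', ha'⟩ := h1
  exact ⟨c, a', by rw [← ha']; ring⟩

theorem exists_isExp (hπ : Irreducible π)
    (hres : Function.Surjective (algebraMap K v.ResidueField)) (a : v.toValuationSubring) :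
    ∃ s : PowerSeries K, IsExp v π a s := by
  choose cf nx h using exists_step hπ hres
  refine ⟨PowerSeries.mk fun n => cf (nx^[n] a), fun m => ?_⟩
  suffices hm : a - aeval π (PowerSeries.trunc m (PowerSeries.mk fun n => cf (nx^[n] a)))
      = π ^ m * nx^[m] a from ⟨_, hm⟩
  induction m with
  | zero => simp
  | succ m ih =>
    rw [PowerSeries.trunc_succ, map_add, aeval_monomial, PowerSeries.coeff_mk,
      Function.iterate_succ_apply', ← sub_sub, ih]
    linear_combination π ^ m * h (nx^[m] a)

/-- the formal expansion ring hom on the valuation ring -/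
noncomputable def formalHom₀ (hπ : Irreducible π)
    (hres : Function.Surjective (algebraMap K v.ResidueField)) :
    v.toValuationSubring →+* PowerSeries K where
  toFun a := (exists_isExp hπ hres a).choose
  map_one' := ((exists_isExp hπ hres 1).choose_spec).unique hπ isExp_one
  map_zero' := ((exists_isExp hπ hres 0).choose_spec).unique hπ isExp_zero
  map_add' a b := ((exists_isExp hπ hres (a + b)).choose_spec).unique hπ
    (((exists_isExp hπ hres a).choose_spec).add ((exists_isExp hπ hres b).choose_spec))
  map_mul' a b := ((exists_isExp hπ hres (a * b)).choose_spec).unique hπ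
    (((exists_isExp hπ hres a).choose_spec).mul ((exists_isExp hπ hres b).choose_spec))

theorem formalHom₀_spec (hπ : Irreducible π)
    (hres : Function.Surjective (algebraMap K v.ResidueField)) (a : v.toValuationSubring) :
    IsExp v π a (formalHom₀ hπ hres a) :=
  (exists_isExp hπ hres a).choose_spec

theorem formalHom₀_C (hπ : Irreducible π)
    (hres : Function.Surjective (algebraMap K v.ResidueField)) (c : K) :
    formalHom₀ hπ hres (algebraMap K v.toValuationSubring c) = PowerSeries.C c :=
  (formalHom₀_spec hπ hres _).unique hπ (isExp_C c)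

theorem formalHom₀_X (hπ : Irreducible π)
    (hres : Function.Surjective (algebraMap K v.ResidueField)) :
    formalHom₀ hπ hres π = PowerSeries.X :=
  (formalHom₀_spec hπ hres _).unique hπ isExp_X

theorem formalHom₀_constantCoeff_ne_zero (hπ : Irreducible π)
    (hres : Function.Surjective (algebraMap K v.ResidueField)) {u : v.toValuationSubring}
    (hu : IsUnit u) : PowerSeries.constantCoeff (formalHom₀ hπ hres u) ≠ 0 := by
  intro h0
  have h1 := formalHom₀_spec hπ hres u 1
  rw [PowerSeries.trunc_one_left, PowerSeries.coeff_zero_eq_constantCoeff_apply, h0, map_zero,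
    map_zero, sub_zero, pow_one] at h1
  exact hπ.not_isUnit (isUnit_of_dvd_unit h1 hu)

theorem formalHom₀_injective (hπ : Irreducible π)
    (hres : Function.Surjective (algebraMap K v.ResidueField)) :
    Function.Injective (formalHom₀ hπ hres) := by
  rw [injective_iff_map_eq_zero]
  intro a ha
  by_contra ha0
  obtain ⟨n, u, rfl⟩ := IsDiscreteValuationRing.eq_unit_mul_pow_irreducible ha0 hπ
  rw [map_mul, map_pow, formalHom₀_X] at ha
  rcases mul_eq_zero.mp ha with h | h
  · exact formalHom₀_constantCoeff_ne_zero hπ hres u.isUnit (by rw [h, map_zero])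
  · exact pow_ne_zero n PowerSeries.X_ne_zero h

/-- the formal expansion ring hom on the function field -/
noncomputable def formalHom (hπ : Irreducible π)
    (hres : Function.Surjective (algebraMap K v.ResidueField)) : F →+* LaurentSeries K :=
  IsFractionRing.lift (A := v.toValuationSubring) (K := F)
    (g := (HahnSeries.ofPowerSeries ℤ K).comp (formalHom₀ hπ hres))
    (HahnSeries.ofPowerSeries_injective.comp (formalHom₀_injective hπ hres))

theorem formalHom_coe (hπ : Irreducible π)
    (hres : Function.Surjective (algebraMap K v.ResidueField)) (a : v.toValuationSubring) :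
    formalHom hπ hres (a : F) = HahnSeries.ofPowerSeries ℤ K (formalHom₀ hπ hres a) :=
  IsFractionRing.lift_algebraMap _ a

theorem formalHom_algebraMap (hπ : Irreducible π)
    (hres : Function.Surjective (algebraMap K v.ResidueField)) (c : K) :
    formalHom hπ hres (algebraMap K F c) = HahnSeries.C c := by
  rw [← v.coe_algebraMap, formalHom_coe, formalHom₀_C, HahnSeries.ofPowerSeries_C]

theorem order_ofPowerSeries_of_constantCoeff_ne_zero {P : PowerSeries K}
    (hP : PowerSeries.constantCoeff P ≠ 0) : (HahnSeries.ofPowerSeries ℤ K P).order = 0 := by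
  have h0 : (HahnSeries.ofPowerSeries ℤ K P).coeff 0 ≠ 0 := by
    have := HahnSeries.ofPowerSeries_apply_coeff (Γ := ℤ) P 0
    rw [Nat.cast_zero] at this
    rw [this, PowerSeries.coeff_zero_eq_constantCoeff_apply]
    exact hP
  have hne : HahnSeries.ofPowerSeries ℤ K P ≠ 0 := by
    intro h
    rw [h] at h0
    exact h0 rfl
  apply le_antisymm (HahnSeries.order_le_of_coeff_ne_zero h0)
  rw [HahnSeries.le_order_iff_forall hne]
  intro j hj
  have := PowerSeries.coeff_coe P j
  rw [if_pos hj] at this
  exact this

theorem order_formalHom (hπ : Irreducible π)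
    (hres : Function.Surjective (algebraMap K v.ResidueField)) {f : F} (hf : f ≠ 0) :
    (formalHom hπ hres f).order = v.ord f := by
  obtain ⟨u, hu⟩ := v.exists_unit_mul_zpow hf hπ
  conv_lhs => rw [hu]
  rw [map_mul, map_zpow₀, formalHom_coe, formalHom_coe, formalHom₀_X, HahnSeries.ofPowerSeries_X,
    ← RatFunc.single_zpow]
  have h1 := order_ofPowerSeries_of_constantCoeff_ne_zero
    (formalHom₀_constantCoeff_ne_zero hπ hres u.isUnit)
  have hne : HahnSeries.ofPowerSeries ℤ K (formalHom₀ hπ hres (u : v.toValuationSubring)) ≠ 0 := by
    intro h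
    have := formalHom₀_constantCoeff_ne_zero hπ hres u.isUnit
    rw [HahnSeries.ofPowerSeries_injective (h.trans (map_zero _).symm)] at this
    exact this (map_zero _)
  rw [HahnSeries.order_mul hne (by simp), h1, HahnSeries.order_single one_ne_zero, zero_add]

/-- **E0.** The formal embedding at a place of degree one. -/
theorem exists_formal_embedding (v : Place K F)
    (hres : Function.Surjective (algebraMap K v.ResidueField)) :
    ∃ φ : F →+* LaurentSeries K, (∀ a : K, φ (algebraMap K F a) = HahnSeries.C a) ∧
      ∀ f : F, f ≠ 0 → (φ f).order = v.ord f := by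
  obtain ⟨π, hπ⟩ := IsDiscreteValuationRing.exists_irreducible v.toValuationSubring
  exact ⟨formalHom hπ hres, formalHom_algebraMap hπ hres, fun f hf => order_formalHom hπ hres hf⟩

end Fermat.Agent.S24
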