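import Mathlib

/-!
# The formal derivative on Laurent series is a derivation; order of the derivative
-/

set_option autoImplicit false

namespace Fermat.Agent.S24

open HahnSeries

variable {K : Type*} [Field K]

/-- formal derivative of Laurent series -/
noncomputable def ld (f : LaurentSeries K) : LaurentSeries K := LaurentSeries.derivative K f

theorem ld_coeff (f : LaurentSeries K) (n : ℤ) :
    (ld f).coeff n = ((n + 1 : ℤ) : K) * f.coeff (n + 1) := by
  unfold ld
  rw [LaurentSeries.derivative_apply, LaurentSeries.hasseDeriv_coeff]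
  simp [zsmul_eq_mul]

theorem ld_add (f g : LaurentSeries K) : ld (f + g) = ld f + ld g := by
  unfold ld; exact map_add _ _ _

theorem ld_smul (c : K) (f : LaurentSeries K) : ld (c • f) = c • ld f := by
  unfold ld; exact map_smul _ _ _

theorem ld_zero : ld (0 : LaurentSeries K) = 0 := by
  unfold ld; exact map_zero _

theorem ld_single_mul (k : ℤ) (x : LaurentSeries K) :
    ld (single k (1 : K) * x) = (k : K) • (single (k - 1) (1 : K) * x) + single k (1 : K) * ld x := by
  ext n
  rw [ld_coeff, coeff_single_mul, coeff_add, coeff_smul, coeff_single_mul, coeff_single_mul,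
    ld_coeff]
  have h1 : n + 1 - k = n - (k - 1) := by ring
  have h2 : n - k + 1 = n - (k - 1) := by ring
  rw [h1, h2]
  simp only [smul_eq_mul, one_mul]
  push_cast
  ring

theorem ld_ofPowerSeries (P : PowerSeries K) :
    ld (ofPowerSeries ℤ K P) = ofPowerSeries ℤ K (PowerSeries.derivative K P) := by
  ext n
  rw [ld_coeff]
  rcases lt_or_ge n 0 with hn | hn
  · have h2 : ((ofPowerSeries ℤ K) (PowerSeries.derivative K P)).coeff n = 0 := by
      have := PowerSeries.coeff_coe (PowerSeries.derivative K P) n
      rw [if_pos hn] at this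
      exact this
    rw [h2]
    rcases eq_or_lt_of_le (show n + 1 ≤ 0 by omega) with h | h
    · rw [h]; simp
    · have := PowerSeries.coeff_coe P (n + 1)
      rw [if_pos h] at this
      have h3 : ((ofPowerSeries ℤ K) P).coeff (n + 1) = 0 := this
      rw [h3, mul_zero]
  · obtain ⟨m, rfl⟩ := Int.eq_ofNat_of_zero_le hn
    have e1 : ((m : ℤ) + 1) = ((m + 1 : ℕ) : ℤ) := by push_cast; ring
    rw [ofPowerSeries_apply_coeff, PowerSeries.coeff_derivative, e1, ofPowerSeries_apply_coeff]
    push_cast
    ring

theorem ld_mul (f g : LaurentSeries K) : ld (f * g) = f * ld g + g * ld f := by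
  obtain ⟨a, P, rfl⟩ : ∃ (a : ℤ) (P : PowerSeries K), single a (1 : K) * ofPowerSeries ℤ K P = f :=
    ⟨_, _, LaurentSeries.single_order_mul_powerSeriesPart f⟩
  obtain ⟨b, Q, rfl⟩ : ∃ (b : ℤ) (Q : PowerSeries K), single b (1 : K) * ofPowerSeries ℤ K Q = g :=
    ⟨_, _, LaurentSeries.single_order_mul_powerSeriesPart g⟩
  have e : single a (1 : K) * ofPowerSeries ℤ K P * (single b (1 : K) * ofPowerSeries ℤ K Q)
      = single (a + b) (1 : K) * ofPowerSeries ℤ K (P * Q) := by
    rw [map_mul, ← one_mul (1 : K), ← single_mul_single, one_mul]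
    ring
  rw [e, ld_single_mul, ld_single_mul, ld_single_mul, ld_ofPowerSeries, ld_ofPowerSeries,
    ld_ofPowerSeries, Derivation.leibniz, map_add, smul_eq_mul, smul_eq_mul, map_mul, map_mul,
    map_mul]
  have s1 : single (a + b) (1 : K) = single a (1 : K) * single b (1 : K) := by
    rw [single_mul_single, one_mul]
  have s2 : single (a + b - 1) (1 : K) = single (a - 1) (1 : K) * single b (1 : K) := by
    rw [single_mul_single, one_mul, show a + b - 1 = a - 1 + b by ring]
  have s3 : single (a - 1) (1 : K) * single b (1 : K) = single a (1 : K) * single (b - 1) (1 : K) := by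
    rw [single_mul_single, single_mul_single, show a - 1 + b = a + (b - 1) by ring]
  rw [s1, s2]
  simp only [← C_mul_eq_smul]
  push_cast
  rw [map_add]
  linear_combination
    (HahnSeries.C (b : K)) * (ofPowerSeries ℤ K P) * (ofPowerSeries ℤ K Q) * s3

theorem ld_C (c : K) : ld (HahnSeries.C c : LaurentSeries K) = 0 := by
  ext n
  rw [ld_coeff]
  by_cases h : n + 1 = 0
  · rw [h]; simp
  · rw [HahnSeries.C_apply, coeff_single_of_ne h]; simp

theorem ld_ne_zero [CharZero K] {f : LaurentSeries K} (hf : f.order ≠ 0) : ld f ≠ 0 := by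
  intro h
  have hf0 : f ≠ 0 := by
    rintro rfl
    exact hf order_zero
  have h1 : (ld f).coeff (f.order - 1) = 0 := by rw [h]; rfl
  rw [ld_coeff, sub_add_cancel] at h1
  rcases mul_eq_zero.mp h1 with h2 | h2
  · exact hf (by exact_mod_cast h2)
  · exact hf0 (coeff_order_eq_zero.mp h2)

theorem order_ld [CharZero K] {f : LaurentSeries K} (hf : f.order ≠ 0) :
    (ld f).order = f.order - 1 := by
  have hf0 : f ≠ 0 := by
    rintro rfl
    exact hf order_zero
  apply le_antisymm
  · apply order_le_of_coeff_ne_zero
    rw [ld_coeff, sub_add_cancel]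
    exact mul_ne_zero (by exact_mod_cast hf) (fun h => hf0 (coeff_order_eq_zero.mp h))
  · rw [le_order_iff_forall (ld_ne_zero hf)]
    intro j hj
    rw [ld_coeff, coeff_eq_zero_of_lt_order (by omega), mul_zero]

end Fermat.Agent.S24
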