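import Mathlib
import Fermat.Prelude.Def_AlgebraicCurve_CanonicalDivisor
import Fermat.Agent.S24.LaurentDeriv
import Fermat.Agent.S24.FormalEmb

/-!
# Orders of differentials on function fields (piece (E) of S24)
-/

set_option autoImplicit false

namespace Fermat.Agent.S24

open AlgebraicCurve KaehlerDifferential

variable {K F : Type*} [Field K] [Field F] [Algebra K F]

section LMod

variable {L : Type*} [Field L]

/-- Laurent series as a module over `F` through `φ`. -/
def LMod (_φ : F →+* LaurentSeries L) : Type _ := LaurentSeries L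

variable (φ : F →+* LaurentSeries L)

noncomputable instance : AddCommGroup (LMod φ) := inferInstanceAs (AddCommGroup (LaurentSeries L))

noncomputable instance instModuleLMod : Module F (LMod φ) := Module.compHom (LaurentSeries L) φ

noncomputable instance instModuleLModBase : Module K (LMod φ) :=
  Module.compHom (LaurentSeries L) (φ.comp (algebraMap K F))

instance : IsScalarTower K F (LMod φ) where
  smul_assoc a f m := by
    change (φ (a • f) * (id m : LaurentSeries L) : LaurentSeries L)
      = φ (algebraMap K F a) * (φ f * (id m : LaurentSeries L))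
    rw [Algebra.smul_def, map_mul, mul_assoc]

/-- the derivation `f ↦ d/dt (φ f)` -/
noncomputable def derivOf (hK : ∀ a : K, ∃ c : L, φ (algebraMap K F a) = HahnSeries.C c) :
    Derivation K F (LMod φ) where
  toFun f := (ld (φ f) : LaurentSeries L)
  map_add' f g := by
    rw [map_add, ld_add]; rfl
  map_smul' a f := by
    obtain ⟨c, hc⟩ := hK a
    change (ld (φ (a • f)) : LaurentSeries L) = φ (algebraMap K F a) * ld (φ f)
    rw [Algebra.smul_def, map_mul, ld_mul, hc, ld_C, mul_zero, add_zero]
  map_one_eq_zero' := by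
    show ld (φ 1) = 0
    rw [map_one, ← map_one (HahnSeries.C : L →+* LaurentSeries L), ld_C]
  leibniz' f g := by
    show ld (φ (f * g)) = _
    rw [map_mul, ld_mul]
    rfl

theorem derivOf_apply (hK : ∀ a : K, ∃ c : L, φ (algebraMap K F a) = HahnSeries.C c) (f : F) :
    derivOf φ hK f = (ld (φ f) : LaurentSeries L) := rfl

end LMod

theorem exists_dCoord_eq (v : Place K F) :
    ∃ π : F, v.ord π = 1 ∧ v.dCoord = D K F π :=
  ⟨((IsDiscreteValuationRing.exists_irreducible v.toValuationSubring).choose : F),
    v.ord_coe_irreducible (IsDiscreteValuationRing.exists_irreducible v.toValuationSubring).choose_spec,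
    rfl⟩

section main

variable {L : Type*} [Field L] [CharZero L]

theorem D_ne_zero_of_hom (φ : F →+* LaurentSeries L)
    (hK : ∀ a : K, ∃ c : L, φ (algebraMap K F a) = HahnSeries.C c)
    {f : F} (hf : (φ f).order ≠ 0) : D K F f ≠ 0 := by
  intro h
  have h1 := (derivOf φ hK).liftKaehlerDifferential_comp_D f
  rw [h, map_zero, derivOf_apply] at h1
  exact ld_ne_zero hf h1.symm

theorem dCoord_ne_zero_of_hom (v : Place K F) (φ : F →+* LaurentSeries L)
    (hK : ∀ a : K, ∃ c : L, φ (algebraMap K F a) = HahnSeries.C c)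
    (e : ℤ) (he : e ≠ 0) (hord : ∀ f : F, f ≠ 0 → (φ f).order = e * v.ord f) :
    v.dCoord ≠ 0 := by
  obtain ⟨π, hπ, hd⟩ := exists_dCoord_eq v
  rw [hd]
  apply D_ne_zero_of_hom φ hK
  have hπ0 : π ≠ 0 := by
    rintro rfl
    simp at hπ
  rw [hord π hπ0, hπ, mul_one]
  exact he

theorem span_eq_top_of_ne_zero {ω : Ω[F⁄K]} (hω : ω ≠ 0)
    (hspan : ∃ x : F, Submodule.span F {D K F x} = ⊤) : Submodule.span F {ω} = ⊤ := by
  obtain ⟨x, hx⟩ := hspan
  have h1 : ω ∈ Submodule.span F {D K F x} := hx ▸ Submodule.mem_top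
  obtain ⟨b, hb⟩ := Submodule.mem_span_singleton.mp h1
  have hb0 : b ≠ 0 := by
    rintro rfl
    rw [zero_smul] at hb
    exact hω hb.symm
  rw [eq_top_iff, ← hx, Submodule.span_singleton_le_iff_mem, Submodule.mem_span_singleton]
  exact ⟨b⁻¹, by rw [← hb, smul_smul, inv_mul_cancel₀ hb0, one_smul]⟩

theorem dCoordGenerates_of_hom (v : Place K F) (φ : F →+* LaurentSeries L)
    (hK : ∀ a : K, ∃ c : L, φ (algebraMap K F a) = HahnSeries.C c)
    (e : ℤ) (he : e ≠ 0) (hord : ∀ f : F, f ≠ 0 → (φ f).order = e * v.ord f)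
    (hspan : ∃ x : F, Submodule.span F {D K F x} = ⊤) : v.DCoordGenerates :=
  ⟨span_eq_top_of_ne_zero (dCoord_ne_zero_of_hom v φ hK e he hord) hspan⟩

/-- **E1**, version with an arbitrary "local parametrisation" `φ` of ramification `e`. -/
theorem ordDifferential_D_of_hom (v : Place K F) (φ : F →+* LaurentSeries L)
    (hK : ∀ a : K, ∃ c : L, φ (algebraMap K F a) = HahnSeries.C c)
    (e : ℤ) (he : e ≠ 0) (hord : ∀ f : F, f ≠ 0 → (φ f).order = e * v.ord f)
    (hspan : ∃ x : F, Submodule.span F {D K F x} = ⊤)
    (f : F) (hf : v.ord f ≠ 0) :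
    v.ordDifferential (D K F f) = v.ord f - 1 := by
  have := dCoordGenerates_of_hom v φ hK e he hord hspan
  have hf0 : f ≠ 0 := by
    rintro rfl
    simp at hf
  obtain ⟨π, hπ, hd⟩ := exists_dCoord_eq v
  have hπ0 : π ≠ 0 := by
    rintro rfl
    simp at hπ
  set c := v.differentialCoeff (D K F f) with hc
  have h1 : c • v.dCoord = D K F f := v.differentialCoeff_smul_dCoord _
  have h2 := congrArg (derivOf φ hK).liftKaehlerDifferential h1
  rw [map_smul, hd, Derivation.liftKaehlerDifferential_comp_D,
    Derivation.liftKaehlerDifferential_comp_D, derivOf_apply, derivOf_apply] at h2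
  have h2' : φ c * ld (φ π) = ld (φ f) := h2
  have of : (φ f).order ≠ 0 := by
    rw [hord f hf0]; exact mul_ne_zero he hf
  have oπ : (φ π).order ≠ 0 := by
    rw [hord π hπ0, hπ, mul_one]; exact he
  have hc0 : c ≠ 0 := by
    intro h0
    rw [h0, map_zero, zero_mul] at h2'
    exact ld_ne_zero of h2'.symm
  have h3 := congrArg HahnSeries.order h2'
  rw [HahnSeries.order_mul ((map_ne_zero φ).mpr hc0) (ld_ne_zero oπ), order_ld oπ, order_ld of,
    hord c hc0, hord π hπ0, hord f hf0, hπ] at h3
  have h4 : e * (v.ord c + 1) = e * v.ord f := by linarith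
  have h5 := mul_left_cancel₀ he h4
  show v.ord c = _
  linarith

end main

section formal

variable [CharZero K]

/-- **E1.** -/
theorem ordDifferential_D (v : Place K F)
    (hres : Function.Surjective (algebraMap K v.ResidueField))
    (hspan : ∃ x : F, Submodule.span F {D K F x} = ⊤)
    (f : F) (hf : v.ord f ≠ 0) :
    v.ordDifferential (D K F f) = v.ord f - 1 := by
  obtain ⟨φ, h1, h2⟩ := exists_formal_embedding v hres
  exact ordDifferential_D_of_hom v φ (fun a => ⟨a, h1 a⟩) 1 one_ne_zero
    (fun f hf => by rw [h2 f hf, one_mul]) hspan f hf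

theorem dCoordGenerates (v : Place K F)
    (hres : Function.Surjective (algebraMap K v.ResidueField))
    (hspan : ∃ x : F, Submodule.span F {D K F x} = ⊤) : v.DCoordGenerates := by
  obtain ⟨φ, h1, h2⟩ := exists_formal_embedding v hres
  exact dCoordGenerates_of_hom v φ (fun a => ⟨a, h1 a⟩) 1 one_ne_zero
    (fun f hf => by rw [h2 f hf, one_mul]) hspan

theorem D_ne_zero_of_ord_ne_zero (v : Place K F)
    (hres : Function.Surjective (algebraMap K v.ResidueField))
    {f : F} (hf : v.ord f ≠ 0) : D K F f ≠ 0 := by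
  obtain ⟨φ, h1, h2⟩ := exists_formal_embedding v hres
  have hf0 : f ≠ 0 := by
    rintro rfl
    simp at hf
  exact D_ne_zero_of_hom φ (fun a => ⟨a, h1 a⟩) (by rw [h2 f hf0]; exact hf)

/-- **E2.** -/
theorem span_D_eq_top_of_isAlgebraic (x : F) [halg : Algebra.IsAlgebraic (IntermediateField.adjoin K {x}) F] :
    Submodule.span F {D K F x} = ⊤ := by
  set S := Submodule.span F {D K F x} with hS
  have hx : D K F x ∈ S := Submodule.mem_span_singleton_self _
  have step1 : ∀ y ∈ IntermediateField.adjoin K {x}, D K F y ∈ S := by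
    intro y hy
    obtain ⟨r, s, rfl⟩ := (IntermediateField.mem_adjoin_simple_iff K y).mp hy
    rw [Derivation.leibniz_div, Derivation.map_aeval, Derivation.map_aeval]
    exact S.smul_mem _ (S.sub_mem (S.smul_mem _ (S.smul_mem _ hx)) (S.smul_mem _ (S.smul_mem _ hx)))
  have step2 : ∀ (f : F) (q : Polynomial (IntermediateField.adjoin K {x})),
      D K F (Polynomial.aeval f q) - Polynomial.aeval f (Polynomial.derivative q) • D K F f ∈ S := by
    intro f q
    induction q using Polynomial.induction_on' with
    | add p q hp hq =>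
      have := S.add_mem hp hq
      rw [map_add, map_add, map_add, map_add, add_smul]
      convert this using 1
      abel
    | monomial n a =>
      rw [Polynomial.aeval_monomial, Polynomial.derivative_monomial, Polynomial.aeval_monomial,
        Derivation.leibniz, Derivation.leibniz_pow]
      have h1 : D K F (algebraMap (IntermediateField.adjoin K {x}) F a) ∈ S := step1 _ a.2
      have h2 := S.smul_mem (f ^ n) h1
      convert h2 using 1
      rw [map_mul, map_natCast]
      module
  rw [eq_top_iff, ← KaehlerDifferential.span_range_derivation, Submodule.span_le]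
  rintro _ ⟨f, rfl⟩
  have hsep : (minpoly (IntermediateField.adjoin K {x}) f).Separable :=
    Algebra.IsSeparable.isSeparable _ f
  have h1 := step2 f (minpoly (IntermediateField.adjoin K {x}) f)
  rw [minpoly.aeval, map_zero, zero_sub] at h1
  have h2 := hsep.aeval_derivative_ne_zero (minpoly.aeval _ f)
  have h3 := S.smul_mem (-(Polynomial.aeval f
    (Polynomial.derivative (minpoly (IntermediateField.adjoin K {x}) f)))⁻¹) h1
  rw [smul_neg, neg_smul, neg_neg, smul_smul, inv_mul_cancel₀ h2, one_smul] at h3
  exact h3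

end formal

end Fermat.Agent.S24
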