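import Mathlib
import Fermat.Prelude.Def_AlgebraicCurve_DivisorClassGroup

set_option autoImplicit false

noncomputable section

namespace Fermat.Agent.S24.Zeros

open AlgebraicCurve IsDedekindDomain WithZero IsLocalRing

section Basic

variable {K F : Type*} [Field K] [Field F] [Algebra K F] (v : Place K F)

theorem adicValuation_le_one_iff_mem (f : F) :
    v.adicValuation f ≤ 1 ↔ f ∈ v.toValuationSubring := by
  constructor
  · intro h
    obtain ⟨a, ha⟩ := IsDiscreteValuationRing.exists_lift_of_le_one (A := v.toValuationSubring)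
      (K := F) (x := f) h
    rw [← ha]
    exact a.2
  · intro h
    have := (v.adicValuation_coe ⟨f, h⟩).trans_le (v.heightOneSpectrum.intValuation_le_one ⟨f, h⟩)
    simpa using this

theorem adicValuation_eq_exp {f : F} (hf : f ≠ 0) : v.adicValuation f = exp (-v.ord f) := by
  unfold Place.ord
  rw [neg_neg, exp_log (v.adicValuation_ne_zero hf)]

theorem mem_iff_ord_nonneg {f : F} (hf : f ≠ 0) :
    f ∈ v.toValuationSubring ↔ 0 ≤ v.ord f := by
  rw [← adicValuation_le_one_iff_mem, adicValuation_eq_exp v hf, ← exp_zero, exp_le_exp]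
  omega

theorem mem_of_ord_nonneg {f : F} (h : 0 ≤ v.ord f) : f ∈ v.toValuationSubring := by
  rcases eq_or_ne f 0 with rfl | hf
  · exact zero_mem _
  · exact (mem_iff_ord_nonneg v hf).2 h

theorem ord_nonneg_of_mem {f : F} (h : f ∈ v.toValuationSubring) : 0 ≤ v.ord f := by
  rcases eq_or_ne f 0 with rfl | hf
  · simp
  · exact (mem_iff_ord_nonneg v hf).1 h

theorem mem_iff_ord_nonneg' (f : F) : f ∈ v.toValuationSubring ↔ 0 ≤ v.ord f :=
  ⟨ord_nonneg_of_mem v, mem_of_ord_nonneg v⟩

theorem ord_algebraMap (a : K) : v.ord (algebraMap K F a) = 0 := by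
  rcases eq_or_ne a 0 with rfl | ha
  · simp
  have h1 := ord_nonneg_of_mem v (v.algebraMap_mem' a)
  have h2 := ord_nonneg_of_mem v (v.algebraMap_mem' a⁻¹)
  rw [map_inv₀, v.ord_inv] at h2
  omega

theorem min_ord_le_ord_add {f g : F} (hfg : f + g ≠ 0) :
    min (v.ord f) (v.ord g) ≤ v.ord (f + g) := by
  rcases eq_or_ne f 0 with rfl | hf
  · simp
  rcases eq_or_ne g 0 with rfl | hg
  · simp
  have h := v.adicValuation.map_add f g
  rw [adicValuation_eq_exp v hf, adicValuation_eq_exp v hg, adicValuation_eq_exp v hfg] at h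
  rcases le_max_iff.1 h with h | h <;> rw [exp_le_exp] at h <;> omega

theorem ord_add_eq_of_lt {f g : F} (h : v.ord f < v.ord g) (hf : f ≠ 0) :
    v.ord (f + g) = v.ord f := by
  rcases eq_or_ne g 0 with rfl | hg
  · simp
  have h' : v.adicValuation g < v.adicValuation f := by
    rw [adicValuation_eq_exp v hf, adicValuation_eq_exp v hg, exp_lt_exp]; omega
  have := v.adicValuation.map_add_eq_of_lt_left h'
  unfold Place.ord
  rw [this]

/-- membership in the maximal ideal -/
theorem mem_maximalIdeal_iff (a : v.toValuationSubring) :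
    a ∈ maximalIdeal v.toValuationSubring ↔ a = 0 ∨ 0 < v.ord (a : F) := by
  rcases eq_or_ne a 0 with rfl | ha
  · simp
  have haF : (a : F) ≠ 0 := by simpa using ha
  rw [or_iff_right ha, mem_maximalIdeal, mem_nonunits_iff, ← v.adicValuation_coe_eq_one_iff,
    adicValuation_eq_exp v haF, ← exp_zero, exp_inj]
  have := ord_nonneg_of_mem v a.2
  omega

theorem isUnit_iff_ord_eq_zero {a : v.toValuationSubring} (ha : a ≠ 0) :
    IsUnit a ↔ v.ord (a : F) = 0 := by
  have haF : (a : F) ≠ 0 := by simpa using ha
  rw [← v.adicValuation_coe_eq_one_iff, adicValuation_eq_exp v haF, ← exp_zero, exp_inj]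
  omega

theorem valuationSubring_adicValuation :
    v.adicValuation.valuationSubring = v.toValuationSubring := by
  ext f
  rw [Valuation.mem_valuationSubring_iff, adicValuation_le_one_iff_mem]

theorem exists_adicValuation_eq_exp_neg_one : ∃ π : F, v.adicValuation π = exp (-1 : ℤ) := by
  obtain ⟨π, hπ⟩ := IsDiscreteValuationRing.exists_irreducible v.toValuationSubring
  exact ⟨π, v.adicValuation_coe_irreducible hπ⟩

end Basic

/-- Two equivalent normalised discrete valuations are equal. -/
theorem valuation_eq_of_isEquiv {F : Type*} [Field F] {v₁ v₂ : Valuation F ℤᵐ⁰}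
    (h : v₁.IsEquiv v₂) (h₁ : ∃ π, v₁ π = exp (-1 : ℤ)) (h₂ : ∃ π, v₂ π = exp (-1 : ℤ)) :
    v₁ = v₂ := by
  obtain ⟨π₁, hπ₁⟩ := h₁
  obtain ⟨π₂, hπ₂⟩ := h₂
  have hπ₁0 : π₁ ≠ 0 := by
    rintro rfl
    rw [map_zero] at hπ₁
    exact exp_ne_zero hπ₁.symm
  have hπ₂0 : π₂ ≠ 0 := by
    rintro rfl
    rw [map_zero] at hπ₂
    exact exp_ne_zero hπ₂.symm
  have hv : ∀ (v : Valuation F ℤᵐ⁰) (f : F), f ≠ 0 → v f = exp (log (v f)) := fun v f hf =>
    (exp_log ((Valuation.ne_zero_iff v).2 hf)).symm
  have key : ∀ f : F, f ≠ 0 → log (v₂ f) = -(log (v₁ f)) * log (v₂ π₁) := by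
    intro f hf
    have h1 : v₁ (f / π₁ ^ (-(log (v₁ f)))) = 1 := by
      rw [map_div₀, map_zpow₀, hπ₁, ← exp_zsmul, smul_eq_mul, mul_neg, mul_one, neg_neg, ← hv v₁ f hf]
      exact div_self ((Valuation.ne_zero_iff v₁).2 hf)
    have h2 := (h.eq_one_iff_eq_one).1 h1
    rw [map_div₀, map_zpow₀, div_eq_one_iff_eq
      (zpow_ne_zero _ ((Valuation.ne_zero_iff v₂).2 hπ₁0))] at h2
    rw [h2, log_zpow, smul_eq_mul]
  have hk := key π₂ hπ₂0
  rw [hπ₂, log_exp] at hk
  have hlt : log (v₂ π₁) < 0 := by
    have h3 : v₁ π₁ < 1 := by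
      rw [hπ₁, ← exp_zero, exp_lt_exp]; omega
    have h4 : v₂ π₁ < 1 := (h.lt_one_iff_lt_one).1 h3
    rw [hv v₂ π₁ hπ₁0, ← exp_zero, exp_lt_exp] at h4
    exact h4
  have hone : log (v₂ π₁) = -1 := by
    have h5 : IsUnit (log (v₂ π₁)) := by
      refine IsUnit.of_mul_eq_one (log (v₁ π₂)) ?_
      linarith
    rcases Int.isUnit_iff.1 h5 with h6 | h6
    · omega
    · exact h6
  ext f
  rcases eq_or_ne f 0 with rfl | hf
  · simp
  rw [hv v₁ f hf, hv v₂ f hf, key f hf, hone]
  simp

section Dictionary

variable {K F : Type*} [Field K] [Field F] [Algebra K F]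
variable {R : Type*} [CommRing R] [IsDedekindDomain R] [Algebra R F] [IsFractionRing R F]
  [Algebra K R] [IsScalarTower K R F]

theorem adicValuation_ofHeightOneSpectrum (w : HeightOneSpectrum R) :
    (Place.ofHeightOneSpectrum (K := K) w).adicValuation = w.valuation F := by
  apply valuation_eq_of_isEquiv
  · rw [Valuation.isEquiv_iff_valuationSubring, valuationSubring_adicValuation]
    rfl
  · exact exists_adicValuation_eq_exp_neg_one _
  · exact w.valuation_exists_uniformizer F

theorem ord_ofHeightOneSpectrum (w : HeightOneSpectrum R) (f : F) :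
    (Place.ofHeightOneSpectrum (K := K) w).ord f = -(WithZero.log (w.valuation F f)) := by
  unfold Place.ord
  rw [adicValuation_ofHeightOneSpectrum]

theorem ord_ofHeightOneSpectrum_algebraMap (w : HeightOneSpectrum R) {r : R} (hr : r ≠ 0) :
    (Place.ofHeightOneSpectrum (K := K) w).ord (algebraMap R F r)
      = (multiplicity w.asIdeal (Ideal.span {r}) : ℤ) := by
  rw [ord_ofHeightOneSpectrum, HeightOneSpectrum.valuation_of_algebraMap,
    w.intValuation_eq_exp_neg_multiplicity hr, log_exp, neg_neg]

theorem ofHeightOneSpectrum_injective :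
    Function.Injective (Place.ofHeightOneSpectrum (K := K) (F := F) (R := R)) := by
  intro w w' h
  apply HeightOneSpectrum.eq_of_valuation_isEquiv_valuation (K := F)
  rw [Valuation.isEquiv_iff_valuationSubring]
  exact congrArg Place.toValuationSubring h

theorem algebraMap_mem_ofHeightOneSpectrum (w : HeightOneSpectrum R) (r : R) :
    algebraMap R F r ∈ (Place.ofHeightOneSpectrum (K := K) w).toValuationSubring := by
  rw [Place.ofHeightOneSpectrum_toValuationSubring, Valuation.mem_valuationSubring_iff]
  exact w.valuation_le_one r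

theorem mem_asIdeal_iff_ord_pos (w : HeightOneSpectrum R) {r : R} (hr : r ≠ 0) :
    r ∈ w.asIdeal ↔ 0 < (Place.ofHeightOneSpectrum (K := K) w).ord (algebraMap R F r) := by
  have hr' : algebraMap R F r ≠ 0 := by
    simpa using (IsFractionRing.injective R F).ne hr
  rw [← w.valuation_lt_one_iff_mem (K := F), ← adicValuation_ofHeightOneSpectrum (K := K),
    adicValuation_eq_exp _ hr', ← exp_zero, exp_lt_exp]
  omega

theorem exists_heightOneSpectrum (v : Place K F)
    (h : ∀ r : R, algebraMap R F r ∈ v.toValuationSubring) :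
    ∃ w : HeightOneSpectrum R, Place.ofHeightOneSpectrum (K := K) w = v := by
  let φ : R →+* v.toValuationSubring := (algebraMap R F).codRestrict v.toValuationSubring.toSubring h
  have hφ : ∀ r, ((φ r : v.toValuationSubring) : F) = algebraMap R F r := fun r => rfl
  let P : Ideal R := (maximalIdeal v.toValuationSubring).comap φ
  have hPprime : P.IsPrime := Ideal.comap_isPrime φ _
  have hinv : ∀ d : R, d ∉ P → (algebraMap R F d)⁻¹ ∈ v.toValuationSubring := by
    intro d hd
    have hu : IsUnit (φ d) := by
      by_contra hnu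
      exact hd ((mem_maximalIdeal _).2 hnu)
    obtain ⟨u, hu⟩ := hu
    have : (algebraMap R F d)⁻¹ = ((u⁻¹ : (v.toValuationSubring)ˣ) : v.toValuationSubring) := by
      rw [← hφ, ← hu]
      have h1 : ((u : v.toValuationSubring) : F) * ((u⁻¹ : (v.toValuationSubring)ˣ) : v.toValuationSubring) = 1 := by
        rw [← MulMemClass.coe_mul, Units.mul_inv]; rfl
      exact inv_eq_of_mul_eq_one_right h1
    rw [this]
    exact SetLike.coe_mem _
  have hPbot : P ≠ ⊥ := by
    intro hbot
    apply v.ne_top'
    refine SetLike.ext fun f => ⟨fun _ => ValuationSubring.mem_top f, fun _ => ?_⟩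
    obtain ⟨a, b, hb, rfl⟩ := IsFractionRing.div_surjective (A := R) f
    have hb0 : b ∉ P := by
      rw [hbot, Ideal.mem_bot]
      exact nonZeroDivisors.ne_zero hb
    rw [div_eq_mul_inv]
    exact mul_mem (h a) (hinv b hb0)
  let w : HeightOneSpectrum R := ⟨P, hPprime, hPbot⟩
  refine ⟨w, ?_⟩
  apply Place.ext
  refine ValuationSubring.eq_of_le_of_ne_top _ ?_ v.ne_top'
  intro f hf
  rw [Place.ofHeightOneSpectrum_toValuationSubring, Valuation.mem_valuationSubring_iff] at hf
  obtain ⟨n, d, hnd⟩ := w.exists_primeCompl_mul_eq_of_integer f hf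
  have hd : (d : R) ∉ P := d.2
  have hd0 : algebraMap R F d ≠ 0 := by
    intro h0
    apply hd
    have : (d : R) = 0 := (IsFractionRing.injective R F) (by simpa using h0)
    rw [this]
    exact zero_mem _
  have : f = algebraMap R F n * (algebraMap R F d)⁻¹ := by
    rw [← hnd]
    field_simp
  rw [this]
  exact mul_mem (h n) (hinv d hd)

/-- Dictionary: height one primes of `R` = places of `F/K` whose valuation ring contains `R`. -/
def placeEquiv : HeightOneSpectrum R ≃
    {v : Place K F // ∀ r : R, algebraMap R F r ∈ v.toValuationSubring} :=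
  Equiv.ofBijective
    (fun w => ⟨Place.ofHeightOneSpectrum (K := K) w, algebraMap_mem_ofHeightOneSpectrum w⟩)
    ⟨fun w w' h => ofHeightOneSpectrum_injective (K := K) (F := F) (congrArg Subtype.val h),
      fun v => by
        obtain ⟨w, hw⟩ := exists_heightOneSpectrum v.1 v.2
        exact ⟨w, Subtype.ext hw⟩⟩

@[simp] theorem placeEquiv_apply_coe (w : HeightOneSpectrum R) :
    ((placeEquiv (K := K) (F := F) w : {v : Place K F // ∀ r : R, algebraMap R F r ∈ v.toValuationSubring})
      : Place K F) = Place.ofHeightOneSpectrum (K := K) w := rfl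

end Dictionary

section Residue

theorem algebraMap_bijective_of_finiteType (K L : Type*) [Field K] [IsAlgClosed K] [Field L]
    [Algebra K L] [Algebra.FiniteType K L] : Function.Bijective (algebraMap K L) := by
  have : Module.Finite K L := finite_of_finite_type_of_isJacobsonRing K L
  have : Algebra.IsIntegral K L := Algebra.IsIntegral.of_finite K L
  exact IsAlgClosed.algebraMap_bijective_of_isIntegral

theorem finrank_eq_one_of_bijective (K L : Type*) [Field K] [Field L]
    [Algebra K L] (h : Function.Bijective (algebraMap K L)) : Module.finrank K L = 1 := by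
  rw [← Module.finrank_self K]
  exact ((AlgEquiv.ofBijective (Algebra.ofId K L) h).toLinearEquiv.finrank_eq).symm

variable {K F : Type*} [Field K] [Field F] [Algebra K F]
variable {R : Type*} [CommRing R] [IsDedekindDomain R] [Algebra R F] [IsFractionRing R F]
  [Algebra K R] [IsScalarTower K R F]

theorem mem_maximalIdeal_iff_adicValuation_lt_one (v : Place K F) (a : v.toValuationSubring) :
    a ∈ maximalIdeal v.toValuationSubring ↔ v.adicValuation (a : F) < 1 := by
  rw [v.adicValuation_coe, HeightOneSpectrum.intValuation_lt_one_iff_mem,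
    Place.heightOneSpectrum_asIdeal]

/-- the ring hom `R → A_v` when `R ⊆ A_v` -/
def ringHomOfMem {R : Type*} [CommRing R] [Algebra R F] (v : Place K F)
    (h : ∀ r : R, algebraMap R F r ∈ v.toValuationSubring) : R →+* v.toValuationSubring :=
  (algebraMap R F).codRestrict v.toValuationSubring.toSubring h

@[simp] theorem coe_ringHomOfMem {R : Type*} [CommRing R] [Algebra R F] (v : Place K F)
    (h : ∀ r : R, algebraMap R F r ∈ v.toValuationSubring) (r : R) :
    ((ringHomOfMem v h r : v.toValuationSubring) : F) = algebraMap R F r := rfl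

/-- the `K`-algebra map `R → κ(v_w)` -/
def toResidue (w : HeightOneSpectrum R) :
    R →ₐ[K] (Place.ofHeightOneSpectrum (K := K) (F := F) w).ResidueField :=
  { (IsLocalRing.residue _).comp (ringHomOfMem (Place.ofHeightOneSpectrum (K := K) (F := F) w)
      (algebraMap_mem_ofHeightOneSpectrum w)) with
    commutes' := fun a => by
      show IsLocalRing.residue _ _ = IsLocalRing.residue _ _
      congr 1
      ext
      exact (IsScalarTower.algebraMap_apply K R F a).symm }

theorem toResidue_surjective (w : HeightOneSpectrum R) :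
    Function.Surjective (toResidue (K := K) (F := F) w) := by
  intro y
  obtain ⟨a, rfl⟩ := IsLocalRing.residue_surjective y
  have ha : w.valuation F (a : F) ≤ 1 := a.2
  obtain ⟨r, hr⟩ := w.exists_valuation_sub_lt_of_integer ha 1
  refine ⟨r, ?_⟩
  show IsLocalRing.residue _ _ = IsLocalRing.residue _ _
  rw [← sub_eq_zero, ← map_sub, IsLocalRing.residue_eq_zero_iff,
    mem_maximalIdeal_iff_adicValuation_lt_one, adicValuation_ofHeightOneSpectrum]
  have hr' : w.valuation F (algebraMap R F r - (a : F)) < 1 := by simpa using hr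
  exact hr'

theorem finiteType_residueField [Algebra.FiniteType K R] (w : HeightOneSpectrum R) :
    Algebra.FiniteType K (Place.ofHeightOneSpectrum (K := K) (F := F) w).ResidueField :=
  Algebra.FiniteType.of_surjective (toResidue (K := K) (F := F) w) (toResidue_surjective w)

theorem algebraMap_residueField_bijective [IsAlgClosed K] [Algebra.FiniteType K R]
    (w : HeightOneSpectrum R) :
    Function.Bijective
      (algebraMap K (Place.ofHeightOneSpectrum (K := K) (F := F) w).ResidueField) := by
  have := finiteType_residueField (K := K) (F := F) w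
  exact algebraMap_bijective_of_finiteType K _

theorem deg_ofHeightOneSpectrum [IsAlgClosed K] [Algebra.FiniteType K R]
    (w : HeightOneSpectrum R) : (Place.ofHeightOneSpectrum (K := K) (F := F) w).deg = 1 :=
  finrank_eq_one_of_bijective K _ (algebraMap_residueField_bijective w)

end Residue

end Fermat.Agent.S24.Zeros
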