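import Mathlib
import Fermat.Agent.S24.PlacesDedekind

set_option autoImplicit false
set_option linter.deprecated false
set_option linter.unusedSectionVars false
set_option linter.style.haveILetI false

noncomputable section

namespace Fermat.Agent.S24.Zeros

open AlgebraicCurve IsDedekindDomain WithZero IsLocalRing

section SumOrd

theorem inertiaDeg'_eq_one (K : Type*) [Field K] [IsAlgClosed K]
    {A B : Type*} [CommRing A] [CommRing B]
    [Algebra K A] [Algebra K B] [Algebra A B] [IsScalarTower K A B]
    [Module.Finite A B] [Algebra.FiniteType K A]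
    (p : Ideal A) [p.IsMaximal] (P : Ideal B) [P.IsMaximal]
    [P.LiesOver p] : p.inertiaDeg' P = 1 := by
  rw [Ideal.inertiaDeg'_algebraMap]
  letI := Ideal.Quotient.field p
  letI := Ideal.Quotient.field P
  have hB0 : Algebra.FiniteType K B := Algebra.FiniteType.trans (S := A) inferInstance inferInstance
  have hA : Algebra.FiniteType K (A ⧸ p) :=
    Algebra.FiniteType.of_surjective (Ideal.Quotient.mkₐ K p) (Ideal.Quotient.mkₐ_surjective K p)
  have hB : Algebra.FiniteType K (B ⧸ P) :=
    Algebra.FiniteType.of_surjective (Ideal.Quotient.mkₐ K P) (Ideal.Quotient.mkₐ_surjective K P)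
  have h1 := finrank_eq_one_of_bijective K (A ⧸ p) (algebraMap_bijective_of_finiteType K _)
  have h2 := finrank_eq_one_of_bijective K (B ⧸ P) (algebraMap_bijective_of_finiteType K _)
  have h3 := Module.finrank_mul_finrank K (A ⧸ p) (B ⧸ P)
  rw [h1, h2, one_mul] at h3
  exact h3

variable {K : Type*} [Field K] [IsAlgClosed K]
  {A B : Type*} [CommRing A] [IsDedekindDomain A] [CommRing B] [IsDedekindDomain B]
  [Algebra K A] [Algebra K B] [Algebra A B] [IsScalarTower K A B]
  [Module.Finite A B] [Algebra.FiniteType K A]
  (E F : Type*) [Field E] [Field F] [Algebra K F] [Algebra A E] [Algebra A F]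
  [Algebra B F] [Algebra E F]
  [IsFractionRing A E] [IsFractionRing B F] [IsScalarTower A B F] [IsScalarTower A E F]
  [IsScalarTower K B F]

include K E F in
theorem sum_multiplicity_eq_finrank (t : A) (ht0 : t ≠ 0) (htmax : (Ideal.span {t}).IsMaximal) :
    ∑ P ∈ IsDedekindDomain.primesOverFinset (Ideal.span {t}) B,
      multiplicity P (Ideal.span {algebraMap A B t}) = Module.finrank E F := by
  have hp0 : Ideal.span {t} ≠ ⊥ := by
    rwa [Ne, Ideal.span_singleton_eq_bot]
  have hinj : Function.Injective (algebraMap A B) := by
    have h1 : Function.Injective (algebraMap A F) := by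
      rw [IsScalarTower.algebraMap_eq A E F]
      exact (algebraMap E F).injective.comp (IsFractionRing.injective A E)
    rw [IsScalarTower.algebraMap_eq A B F] at h1
    exact Function.Injective.of_comp h1
  have : Module.IsTorsionFree A B := Module.isTorsionFree_iff_algebraMap_injective.2 hinj
  have : FaithfulSMul A B := (faithfulSMul_iff_algebraMap_injective A B).2 hinj
  rw [← Ideal.sum_ramification_inertia B E F hp0]
  refine Finset.sum_congr rfl fun P hP => ?_
  rw [IsDedekindDomain.mem_primesOverFinset_iff hp0] at hP
  have hPprime : P.IsPrime := hP.1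
  have hPover : P.LiesOver (Ideal.span {t}) := hP.2
  have hmap : Ideal.map (algebraMap A B) (Ideal.span {t}) = Ideal.span {algebraMap A B t} := by
    rw [Ideal.map_span, Set.image_singleton]
  have hmap0 : Ideal.map (algebraMap A B) (Ideal.span {t}) ≠ ⊥ := by
    rw [hmap, Ne, Ideal.span_singleton_eq_bot]
    exact fun h => ht0 (hinj (by simpa using h))
  have hP0 : P ≠ ⊥ := Ideal.ne_bot_of_mem_primesOver hp0 hP
  have hPmax : P.IsMaximal := hPprime.isMaximal hP0
  rw [inertiaDeg'_eq_one K, mul_one, Ideal.IsDedekindDomain.ramificationIdx'_eq_multiplicity hmap0 hPprime, hmap]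

/-- the set of height one primes of `B` containing `t` -/
def primesContaining (b : B) : Set (HeightOneSpectrum B) := {w | b ∈ w.asIdeal}

include K E F in
theorem image_primesContaining (t : A) (ht0 : t ≠ 0) (htmax : (Ideal.span {t}).IsMaximal) :
    HeightOneSpectrum.asIdeal '' (primesContaining (algebraMap A B t))
      = ↑(IsDedekindDomain.primesOverFinset (Ideal.span {t}) B) := by
  have hp0 : Ideal.span {t} ≠ ⊥ := by
    rwa [Ne, Ideal.span_singleton_eq_bot]
  have hinj : Function.Injective (algebraMap A B) := by
    have h1 : Function.Injective (algebraMap A F) := by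
      rw [IsScalarTower.algebraMap_eq A E F]
      exact (algebraMap E F).injective.comp (IsFractionRing.injective A E)
    rw [IsScalarTower.algebraMap_eq A B F] at h1
    exact Function.Injective.of_comp h1
  have : Module.IsTorsionFree A B := Module.isTorsionFree_iff_algebraMap_injective.2 hinj
  have : FaithfulSMul A B := (faithfulSMul_iff_algebraMap_injective A B).2 hinj
  rw [IsDedekindDomain.coe_primesOverFinset hp0]
  ext P
  constructor
  · rintro ⟨w, hw, rfl⟩
    refine ⟨w.isPrime, ⟨?_⟩⟩
    have hle : Ideal.span {t} ≤ w.asIdeal.comap (algebraMap A B) := by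
      rw [Ideal.span_singleton_le_iff_mem]
      exact hw
    exact htmax.eq_of_le (Ideal.comap_ne_top _ w.isPrime.ne_top) hle
  · intro hP
    refine ⟨⟨P, hP.1, Ideal.ne_bot_of_mem_primesOver hp0 hP⟩, ?_, rfl⟩
    show algebraMap A B t ∈ P
    have := hP.2.over
    have ht : t ∈ P.comap (algebraMap A B) := by
      rw [← Ideal.under_def, ← this]
      exact Ideal.mem_span_singleton_self t
    exact ht

include K E F in
theorem finite_primesContaining (t : A) (ht0 : t ≠ 0) (htmax : (Ideal.span {t}).IsMaximal) :
    (primesContaining (algebraMap A B t)).Finite := by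
  have h := image_primesContaining (K := K) (B := B) E F t ht0 htmax
  refine Set.Finite.of_finite_image (f := HeightOneSpectrum.asIdeal) ?_ ?_
  · rw [h]; exact Finset.finite_toSet _
  · exact fun w _ w' _ h => HeightOneSpectrum.ext h

include K E F in
theorem finsum_multiplicity_eq_finrank (t : A) (ht0 : t ≠ 0)
    (htmax : (Ideal.span {t}).IsMaximal) :
    ∑ᶠ w ∈ primesContaining (algebraMap A B t),
      multiplicity w.asIdeal (Ideal.span {algebraMap A B t}) = Module.finrank E F := by
  rw [← sum_multiplicity_eq_finrank (K := K) (B := B) E F t ht0 htmax, ← finsum_mem_coe_finset,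
    ← image_primesContaining (K := K) (B := B) E F t ht0 htmax, finsum_mem_image]
  exact fun w _ w' _ h => HeightOneSpectrum.ext h

/-- the set of places of `F/K` containing `B` at which `f` has a zero -/
def zerosOver (K : Type*) [Field K] (B : Type*) [CommRing B] {F : Type*} [Field F] [Algebra K F]
    [Algebra B F] (f : F) : Set (Place K F) :=
  {v | (∀ b : B, algebraMap B F b ∈ v.toValuationSubring) ∧ 0 < v.ord f}

omit [IsAlgClosed K] in
theorem zerosOver_eq_image {b : B} (hb : b ≠ 0) :
    zerosOver K B (algebraMap B F b)
      = Place.ofHeightOneSpectrum (K := K) (F := F) '' primesContaining b := by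
  ext v
  constructor
  · rintro ⟨h1, h2⟩
    obtain ⟨w, rfl⟩ := exists_heightOneSpectrum v h1
    exact ⟨w, (mem_asIdeal_iff_ord_pos w hb).2 h2, rfl⟩
  · rintro ⟨w, hw, rfl⟩
    exact ⟨algebraMap_mem_ofHeightOneSpectrum w, (mem_asIdeal_iff_ord_pos w hb).1 hw⟩

include E in
theorem finite_zerosOver (t : A) (ht0 : t ≠ 0) (htmax : (Ideal.span {t}).IsMaximal) :
    (zerosOver K B (algebraMap A F t)).Finite := by
  have hinj : Function.Injective (algebraMap A B) := by
    have h1 : Function.Injective (algebraMap A F) := by
      rw [IsScalarTower.algebraMap_eq A E F]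
      exact (algebraMap E F).injective.comp (IsFractionRing.injective A E)
    rw [IsScalarTower.algebraMap_eq A B F] at h1
    exact Function.Injective.of_comp h1
  have hb : algebraMap A B t ≠ 0 := fun h => ht0 (hinj (by simpa using h))
  rw [IsScalarTower.algebraMap_apply A B F, zerosOver_eq_image F hb]
  exact (finite_primesContaining (K := K) (B := B) E F t ht0 htmax).image _

theorem finsum_ord_zerosOver (t : A) (ht0 : t ≠ 0) (htmax : (Ideal.span {t}).IsMaximal) :
    ∑ᶠ v ∈ zerosOver K B (algebraMap A F t), v.ord (algebraMap A F t)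
      = (Module.finrank E F : ℤ) := by
  have hinj : Function.Injective (algebraMap A B) := by
    have h1 : Function.Injective (algebraMap A F) := by
      rw [IsScalarTower.algebraMap_eq A E F]
      exact (algebraMap E F).injective.comp (IsFractionRing.injective A E)
    rw [IsScalarTower.algebraMap_eq A B F] at h1
    exact Function.Injective.of_comp h1
  have hb : algebraMap A B t ≠ 0 := fun h => ht0 (hinj (by simpa using h))
  rw [IsScalarTower.algebraMap_apply A B F, zerosOver_eq_image F hb,
    finsum_mem_image (fun w _ w' _ h => ofHeightOneSpectrum_injective h),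
    ← finsum_multiplicity_eq_finrank (K := K) (B := B) E F t ht0 htmax]
  simp_rw [ord_ofHeightOneSpectrum_algebraMap _ hb]
  have hfin := finite_primesContaining (K := K) (B := B) E F t ht0 htmax
  rw [finsum_mem_eq_finite_toFinset_sum _ hfin, finsum_mem_eq_finite_toFinset_sum _ hfin]
  push_cast
  rfl

end SumOrd

end Fermat.Agent.S24.Zeros
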