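import Mathlib
import Fermat.Agent.S24.SumOrd

set_option autoImplicit false
set_option linter.unusedSectionVars false
set_option linter.style.haveILetI false

noncomputable section

namespace Fermat.Agent.S24.Zeros

open AlgebraicCurve IsDedekindDomain WithZero IsLocalRing
open scoped IntermediateField.algebraAdjoinAdjoin

section Core

variable {K F : Type*} [Field K] [Field F] [Algebra K F]

/-- the polynomial ring `K[x] ⊆ F` -/
abbrev polyRing (K : Type*) {F : Type*} [Field K] [Field F] [Algebra K F] (x : F) :
    Subalgebra K F := Algebra.adjoin K {x}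

/-- the integral closure of `K[x]` in `F` -/
abbrev intClosure (K : Type*) {F : Type*} [Field K] [Field F] [Algebra K F] (x : F) :
    Subalgebra (polyRing K x) F := integralClosure (polyRing K x) F

theorem isPrincipalIdealRing_polyRing {x : F} (hx : Transcendental K x) :
    IsPrincipalIdealRing (polyRing K x) :=
  IsPrincipalIdealRing.of_surjective (Polynomial.algEquivOfTranscendental K x hx).toRingEquiv.toRingHom
    (Polynomial.algEquivOfTranscendental K x hx).surjective

theorem isDedekindDomain_polyRing {x : F} (hx : Transcendental K x) :
    IsDedekindDomain (polyRing K x) := by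
  have := isPrincipalIdealRing_polyRing hx
  infer_instance

instance finiteType_polyRing (x : F) : Algebra.FiniteType K (polyRing K x) :=
  .adjoin_of_finite (Set.finite_singleton x)

/-- `x` as an element of `K[x]` -/
def genPoly (K : Type*) {F : Type*} [Field K] [Field F] [Algebra K F] (x : F) : polyRing K x :=
  ⟨x, Algebra.self_mem_adjoin_singleton K x⟩

theorem span_genPoly_isMaximal {x : F} (hx : Transcendental K x) :
    (Ideal.span {genPoly K x}).IsMaximal := by
  have := isPrincipalIdealRing_polyRing hx
  apply PrincipalIdealRing.isMaximal_of_irreducible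
  have he : (Polynomial.algEquivOfTranscendental K x hx) Polynomial.X = genPoly K x := by
    ext
    simp [genPoly]
  rw [← he]
  exact (MulEquiv.irreducible_iff (Polynomial.algEquivOfTranscendental K x hx).toMulEquiv).2
    Polynomial.irreducible_X

theorem genPoly_ne_zero {x : F} (hx : Transcendental K x) : genPoly K x ≠ 0 := by
  intro h
  have h0 : x = 0 := congrArg Subtype.val h
  rw [h0] at hx
  exact hx (isAlgebraic_zero)

example (x : F) : Algebra K (intClosure K x) := inferInstance
example (x : F) : IsScalarTower K (intClosure K x) F := inferInstance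
instance isScalarTower_intClosure (x : F) : IsScalarTower K (polyRing K x) (intClosure K x) :=
  IsScalarTower.of_algebraMap_eq fun _ => rfl
instance isScalarTower_intClosure' (x : F) : IsScalarTower (polyRing K x) (intClosure K x) F :=
  IsScalarTower.of_algebraMap_eq fun _ => rfl
example (x : F) : IsScalarTower (polyRing K x) (IntermediateField.adjoin K {x}) F := inferInstance
example (x : F) : IsFractionRing (polyRing K x) (IntermediateField.adjoin K {x}) := inferInstance


theorem isDedekindDomain_intClosure [CharZero K] {x : F} (hx : Transcendental K x)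
    [FiniteDimensional (IntermediateField.adjoin K {x}) F] :
    IsDedekindDomain (intClosure K x) := by
  have := isDedekindDomain_polyRing hx
  exact integralClosure.isDedekindDomain (polyRing K x) (IntermediateField.adjoin K {x}) F

theorem isFractionRing_intClosure (x : F)
    [FiniteDimensional (IntermediateField.adjoin K {x}) F] :
    IsFractionRing (intClosure K x) F :=
  integralClosure.isFractionRing_of_finite_extension (IntermediateField.adjoin K {x}) F

theorem finite_intClosure [CharZero K] {x : F} (hx : Transcendental K x)
    [FiniteDimensional (IntermediateField.adjoin K {x}) F] :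
    Module.Finite (polyRing K x) (intClosure K x) := by
  have := isDedekindDomain_polyRing hx
  exact IsIntegralClosure.finite (polyRing K x) (IntermediateField.adjoin K {x}) F
    (intClosure K x)

theorem finiteType_intClosure [CharZero K] {x : F} (hx : Transcendental K x)
    [FiniteDimensional (IntermediateField.adjoin K {x}) F] :
    Algebra.FiniteType K (intClosure K x) := by
  have := finite_intClosure hx
  exact Algebra.FiniteType.trans (S := polyRing K x) inferInstance inferInstance

/-- the valuation ring of a place as a `K`-subalgebra -/
def placeSubalgebra (v : Place K F) : Subalgebra K F :=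
  { v.toValuationSubring.toSubring with algebraMap_mem' := v.algebraMap_mem' }

theorem mem_placeSubalgebra (v : Place K F) (f : F) :
    f ∈ placeSubalgebra v ↔ f ∈ v.toValuationSubring := Iff.rfl

theorem polyRing_le (v : Place K F) {x : F} (h : 0 ≤ v.ord x) :
    polyRing K x ≤ placeSubalgebra v := by
  apply Algebra.adjoin_le
  rintro _ rfl
  exact mem_of_ord_nonneg v h

theorem intClosure_mem (v : Place K F) {x : F} (h : 0 ≤ v.ord x) (b : intClosure K x) :
    algebraMap (intClosure K x) F b ∈ v.toValuationSubring := by
  obtain ⟨p, hp, hpb⟩ := b.2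
  let φ : polyRing K x →+* v.toValuationSubring :=
    (algebraMap (polyRing K x) F).codRestrict v.toValuationSubring.toSubring
      (fun a => polyRing_le v h a.2)
  have hint : IsIntegral v.toValuationSubring (b : F) := by
    refine ⟨p.map φ, hp.map φ, ?_⟩
    rw [Polynomial.eval₂_map]
    exact hpb
  obtain ⟨y, hy⟩ := IsIntegrallyClosed.isIntegral_iff.1 hint
  show (b : F) ∈ _
  rw [← hy]
  exact y.2

theorem zerosOver_intClosure (x : F) :
    zerosOver K (intClosure K x) x = {v : Place K F | 0 < v.ord x} := by
  ext v
  exact ⟨fun h => h.2, fun h => ⟨intClosure_mem v (le_of_lt h), h⟩⟩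

theorem finite_zeros_aux [IsAlgClosed K] [CharZero K] {x : F} (hx : Transcendental K x)
    [FiniteDimensional (IntermediateField.adjoin K {x}) F] :
    {v : Place K F | 0 < v.ord x}.Finite := by
  have := isDedekindDomain_polyRing hx
  have := isDedekindDomain_intClosure hx
  have := isFractionRing_intClosure (K := K) x
  have := finite_intClosure hx
  rw [← zerosOver_intClosure]
  exact finite_zerosOver (K := K) (B := intClosure K x) (IntermediateField.adjoin K {x}) F
    (genPoly K x) (genPoly_ne_zero hx) (span_genPoly_isMaximal hx)

theorem sum_ord_zeros_aux [IsAlgClosed K] [CharZero K] {x : F} (hx : Transcendental K x)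
    [FiniteDimensional (IntermediateField.adjoin K {x}) F] :
    ∑ᶠ v ∈ {v : Place K F | 0 < v.ord x}, v.ord x
      = (Module.finrank (IntermediateField.adjoin K {x}) F : ℤ) := by
  have := isDedekindDomain_polyRing hx
  have := isDedekindDomain_intClosure hx
  have := isFractionRing_intClosure (K := K) x
  have := finite_intClosure hx
  rw [← zerosOver_intClosure]
  exact finsum_ord_zerosOver (K := K) (B := intClosure K x) (IntermediateField.adjoin K {x}) F
    (genPoly K x) (genPoly_ne_zero hx) (span_genPoly_isMaximal hx)

end Core

section Exchange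

variable {K F : Type*} [Field K] [Field F] [Algebra K F]

theorem adjoin_sub_const (x : F) (c : K) :
    IntermediateField.adjoin K {x - algebraMap K F c} = IntermediateField.adjoin K {x} := by
  apply le_antisymm
  · rw [IntermediateField.adjoin_simple_le_iff]
    exact sub_mem (IntermediateField.mem_adjoin_simple_self K x) (IntermediateField.algebraMap_mem _ c)
  · rw [IntermediateField.adjoin_simple_le_iff]
    have h : x = (x - algebraMap K F c) + algebraMap K F c := by ring
    have h2 := add_mem (IntermediateField.mem_adjoin_simple_self K (x - algebraMap K F c))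
      (IntermediateField.algebraMap_mem _ c)
    rwa [← h] at h2

theorem adjoin_inv (x : F) :
    IntermediateField.adjoin K {x⁻¹} = IntermediateField.adjoin K {x} := by
  apply le_antisymm
  · rw [IntermediateField.adjoin_simple_le_iff]
    exact inv_mem (IntermediateField.mem_adjoin_simple_self K x)
  · rw [IntermediateField.adjoin_simple_le_iff]
    have h2 := inv_mem (IntermediateField.mem_adjoin_simple_self K x⁻¹)
    rwa [inv_inv] at h2

theorem transcendental_sub_const {x : F} (hx : Transcendental K x) (c : K) :
    Transcendental K (x - algebraMap K F c) := by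
  intro h
  apply hx
  have h2 : x = (x - algebraMap K F c) + algebraMap K F c := by ring
  rw [h2]
  exact h.add (isAlgebraic_algebraMap c)

theorem transcendental_inv {x : F} (hx : Transcendental K x) : Transcendental K x⁻¹ :=
  fun h => hx (IsAlgebraic.inv_iff.1 h)

theorem finiteDimensional_sub_const (x : F) (c : K)
    (h : FiniteDimensional (IntermediateField.adjoin K {x}) F) :
    FiniteDimensional (IntermediateField.adjoin K {x - algebraMap K F c}) F := by
  rw [adjoin_sub_const]
  exact h

theorem finiteDimensional_inv (x : F)
    (h : FiniteDimensional (IntermediateField.adjoin K {x}) F) :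
    FiniteDimensional (IntermediateField.adjoin K {x⁻¹}) F := by
  rw [adjoin_inv]
  exact h

theorem finrank_sub_const (x : F) (c : K) :
    Module.finrank (IntermediateField.adjoin K {x - algebraMap K F c}) F
      = Module.finrank (IntermediateField.adjoin K {x}) F := by
  rw [adjoin_sub_const]

theorem finrank_inv (x : F) :
    Module.finrank (IntermediateField.adjoin K {x⁻¹}) F
      = Module.finrank (IntermediateField.adjoin K {x}) F := by
  rw [adjoin_inv]

/-- Exchange lemma: if `F / K(x)` is finite and `f` is transcendental over `K` then `F / K(f)` is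
finite. -/
theorem finiteDimensional_adjoin_of_transcendental {x f : F}
    (hfin : FiniteDimensional (IntermediateField.adjoin K {x}) F) (hf : Transcendental K f) :
    FiniteDimensional (IntermediateField.adjoin K {f}) F := by
  have h1 : Algebra.IsAlgebraic (Algebra.adjoin K {x}) F :=
    Algebra.IsAlgebraic.trans (Algebra.adjoin K {x}) (IntermediateField.adjoin K {x}) F
  have h2 : Algebra.trdeg K F ≤ 1 := by
    have := Algebra.IsAlgebraic.trdeg_le_cardinalMk K ({x} : Set F)
    simpa using this
  have h3 : AlgebraicIndependent K (fun _ : Unit => f) :=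
    algebraicIndependent_unique_type_iff.2 hf
  have h4 : IsTranscendenceBasis K (fun _ : Unit => f) := by
    apply h3.isTranscendenceBasis_of_lift_trdeg_le_of_finite
    simpa using h2
  have h5 : Algebra.IsAlgebraic (IntermediateField.adjoin K {f}) F := by
    have := h4.isAlgebraic_field
    rwa [Set.range_const] at this
  have h6 : Algebra.EssFiniteType K (IntermediateField.adjoin K {x}) := by
    have : Algebra.EssFiniteType (Algebra.adjoin K {x}) (IntermediateField.adjoin K {x}) :=
      .of_isLocalization _ (nonZeroDivisors _)
    have : Algebra.FiniteType K (Algebra.adjoin K {x}) :=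
      .adjoin_of_finite (Set.finite_singleton x)
    exact .comp K (Algebra.adjoin K {x}) _
  have h7 : Algebra.EssFiniteType K F := .comp K (IntermediateField.adjoin K {x}) F
  have h8 : Algebra.EssFiniteType (IntermediateField.adjoin K {f}) F := .of_comp K _ F
  exact Algebra.finite_of_essFiniteType_of_isAlgebraic

end Exchange

section Main

variable {K F : Type*} [Field K] [Field F] [Algebra K F] [IsAlgClosed K] [CharZero K]
  {x : F}

theorem residueField_bijective_of_ord_nonneg (hx : Transcendental K x)
    (hfin : FiniteDimensional (IntermediateField.adjoin K {x}) F)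
    (v : Place K F) (h : 0 ≤ v.ord x) :
    Function.Bijective (algebraMap K v.ResidueField) := by
  have := isDedekindDomain_intClosure hx
  have := isFractionRing_intClosure (K := K) x
  have := finiteType_intClosure hx
  obtain ⟨w, rfl⟩ := exists_heightOneSpectrum (R := intClosure K x) v (intClosure_mem v h)
  exact algebraMap_residueField_bijective w

/-- **A1'**: all residue fields are `K`. -/
theorem residueField_bijective (hx : Transcendental K x)
    (hfin : FiniteDimensional (IntermediateField.adjoin K {x}) F) (v : Place K F) :
    Function.Bijective (algebraMap K v.ResidueField) := by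
  rcases le_total 0 (v.ord x) with h | h
  · exact residueField_bijective_of_ord_nonneg hx hfin v h
  · have h' : 0 ≤ v.ord x⁻¹ := by rw [v.ord_inv]; omega
    exact residueField_bijective_of_ord_nonneg (transcendental_inv hx)
      (finiteDimensional_inv x hfin) v h'

/-- **A1**: all places have degree one. -/
theorem deg_eq_one (hx : Transcendental K x)
    (hfin : FiniteDimensional (IntermediateField.adjoin K {x}) F) (v : Place K F) : v.deg = 1 :=
  finrank_eq_one_of_bijective K _ (residueField_bijective hx hfin v)

/-- **A2**: finitely many zeros. -/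
theorem finite_zeros (hx : Transcendental K x)
    (hfin : FiniteDimensional (IntermediateField.adjoin K {x}) F) :
    {v : Place K F | 0 < v.ord x}.Finite :=
  finite_zeros_aux hx

/-- **A3**: the number of zeros counted with multiplicity is `[F : K(x)]`. -/
theorem sum_ord_zeros (hx : Transcendental K x)
    (hfin : FiniteDimensional (IntermediateField.adjoin K {x}) F) :
    ∑ᶠ v ∈ {v : Place K F | 0 < v.ord x}, v.ord x
      = (Module.finrank (IntermediateField.adjoin K {x}) F : ℤ) :=
  sum_ord_zeros_aux hx

theorem finite_zeros_sub (hx : Transcendental K x)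
    (hfin : FiniteDimensional (IntermediateField.adjoin K {x}) F) (c : K) :
    {v : Place K F | 0 < v.ord (x - algebraMap K F c)}.Finite :=
  finite_zeros (transcendental_sub_const hx c) (finiteDimensional_sub_const x c hfin)

theorem sum_ord_zeros_sub (hx : Transcendental K x)
    (hfin : FiniteDimensional (IntermediateField.adjoin K {x}) F) (c : K) :
    ∑ᶠ v ∈ {v : Place K F | 0 < v.ord (x - algebraMap K F c)}, v.ord (x - algebraMap K F c)
      = (Module.finrank (IntermediateField.adjoin K {x}) F : ℤ) := by
  rw [sum_ord_zeros (transcendental_sub_const hx c) (finiteDimensional_sub_const x c hfin),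
    finrank_sub_const]

theorem poles_eq_zeros_inv (x : F) :
    {v : Place K F | v.ord x < 0} = {v : Place K F | 0 < v.ord x⁻¹} := by
  ext v
  simp only [Set.mem_ofPred_eq, v.ord_inv]
  omega

theorem finite_poles (hx : Transcendental K x)
    (hfin : FiniteDimensional (IntermediateField.adjoin K {x}) F) :
    {v : Place K F | v.ord x < 0}.Finite := by
  rw [poles_eq_zeros_inv]
  exact finite_zeros (transcendental_inv hx) (finiteDimensional_inv x hfin)

theorem sum_ord_poles (hx : Transcendental K x)
    (hfin : FiniteDimensional (IntermediateField.adjoin K {x}) F) :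
    ∑ᶠ v ∈ {v : Place K F | v.ord x < 0}, v.ord x
      = -(Module.finrank (IntermediateField.adjoin K {x}) F : ℤ) := by
  have h := sum_ord_zeros (transcendental_inv hx) (finiteDimensional_inv x hfin)
  rw [finrank_inv, ← poles_eq_zeros_inv] at h
  rw [← h, ← finsum_mem_neg_distrib]
  · exact finsum_mem_congr rfl fun v _ => by rw [v.ord_inv, neg_neg]
  · exact finite_poles hx hfin

theorem support_ord_eq (f : F) :
    (Function.support fun v : Place K F => v.ord f)
      = {v : Place K F | 0 < v.ord f} ∪ {v : Place K F | v.ord f < 0} := by
  ext v
  simp only [Function.mem_support, Set.mem_union, Set.mem_ofPred_eq]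
  omega

theorem exists_algebraMap_eq_of_isAlgebraic {f : F} (hf : IsAlgebraic K f) :
    ∃ c : K, algebraMap K F c = f := by
  have hint : IsIntegral K f := hf.isIntegral
  have hdeg := IsAlgClosed.degree_eq_one_of_irreducible K (minpoly.irreducible hint)
  exact minpoly.mem_range_of_degree_eq_one K f hdeg

theorem finite_support_ord
    (hfin : FiniteDimensional (IntermediateField.adjoin K {x}) F) (f : F) :
    (Function.support fun v : Place K F => v.ord f).Finite := by
  by_cases hf : IsAlgebraic K f
  · obtain ⟨c, rfl⟩ := exists_algebraMap_eq_of_isAlgebraic hf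
    simp [ord_algebraMap]
  · have hfin' := finiteDimensional_adjoin_of_transcendental hfin hf
    rw [support_ord_eq]
    exact (finite_zeros hf hfin').union (finite_poles hf hfin')

theorem finsum_ord_eq_zero
    (hfin : FiniteDimensional (IntermediateField.adjoin K {x}) F) (f : F) :
    ∑ᶠ v : Place K F, v.ord f = 0 := by
  by_cases hf : IsAlgebraic K f
  · obtain ⟨c, rfl⟩ := exists_algebraMap_eq_of_isAlgebraic hf
    simp [ord_algebraMap]
  · have hfin' := finiteDimensional_adjoin_of_transcendental hfin hf
    rw [← finsum_mem_support, support_ord_eq, finsum_mem_union _ (finite_zeros hf hfin')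
      (finite_poles hf hfin'), sum_ord_zeros hf hfin', sum_ord_poles hf hfin']
    · ring
    · rw [Set.disjoint_left]
      intro v h1 h2
      simp only [Set.mem_ofPred_eq] at h1 h2
      omega

omit [IsAlgClosed K] [CharZero K] in
theorem degree_eq_finsum (hdeg : ∀ v : Place K F, v.deg = 1) (D : Divisor K F) :
    Divisor.degree D = ∑ᶠ v : Place K F, D v := by
  rw [finsum_eq_finsetSum_of_support_subset (s := D.support) _ (by simp)]
  simp [Divisor.degree, Finsupp.sum, hdeg]

/-- the divisor of a function -/
def divOf (hfin : FiniteDimensional (IntermediateField.adjoin K {x}) F) (f : F) : Divisor K F :=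
  Finsupp.ofSupportFinite (fun v : Place K F => v.ord f) (finite_support_ord hfin f)

theorem divOf_apply (hfin : FiniteDimensional (IntermediateField.adjoin K {x}) F) (f : F)
    (v : Place K F) : divOf hfin f v = v.ord f := rfl

theorem degree_divOf (hx : Transcendental K x)
    (hfin : FiniteDimensional (IntermediateField.adjoin K {x}) F) (f : F) :
    Divisor.degree (divOf hfin f) = 0 := by
  rw [degree_eq_finsum (deg_eq_one hx hfin)]
  exact finsum_ord_eq_zero hfin f

/-- **A4**: principal divisors exist and have degree `0`. -/
theorem hasPrincipalDivisors (hx : Transcendental K x)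
    (hfin : FiniteDimensional (IntermediateField.adjoin K {x}) F) :
    HasPrincipalDivisors K F :=
  ⟨fun f _ => ⟨divOf hfin f, divOf_apply hfin f, degree_divOf hx hfin f⟩⟩

end Main

section DictionaryIntClosure

variable {K F : Type*} [Field K] [Field F] [Algebra K F] {x : F}

/-- **A5**: the prime ideal `m_v ∩ B` of `B = intClosure K x` attached to a place `v` with
`0 ≤ ord_v x`. -/
def primeOfPlace (v : Place K F) (h : 0 ≤ v.ord x) : Ideal (intClosure K x) :=
  (maximalIdeal v.toValuationSubring).comap (ringHomOfMem v (intClosure_mem v h))

theorem mem_primeOfPlace (v : Place K F) (h : 0 ≤ v.ord x) (b : intClosure K x) :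
    b ∈ primeOfPlace v h ↔ b = 0 ∨ 0 < v.ord (b : F) := by
  unfold primeOfPlace
  rw [Ideal.mem_comap, mem_maximalIdeal_iff]
  have h1 : ((ringHomOfMem v (intClosure_mem v h) b : v.toValuationSubring) : F) = (b : F) := rfl
  rw [h1]
  have h2 : ringHomOfMem v (intClosure_mem v h) b = 0 ↔ b = 0 := by
    rw [← Subtype.coe_inj, h1, ← Subtype.coe_inj]
    rfl
  rw [h2]

theorem primeOfPlace_isPrime (v : Place K F) (h : 0 ≤ v.ord x) : (primeOfPlace v h).IsPrime :=
  Ideal.comap_isPrime _ _

theorem primeOfPlace_ofHeightOneSpectrum [IsDedekindDomain (intClosure K x)]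
    [IsFractionRing (intClosure K x) F] (w : HeightOneSpectrum (intClosure K x))
    (h : 0 ≤ (Place.ofHeightOneSpectrum (K := K) (F := F) w).ord x) :
    primeOfPlace (Place.ofHeightOneSpectrum (K := K) (F := F) w) h = w.asIdeal := by
  ext b
  rw [mem_primeOfPlace]
  rcases eq_or_ne b 0 with rfl | hb
  · simp
  · rw [or_iff_right hb, mem_asIdeal_iff_ord_pos (K := K) (F := F) w hb]
    rfl

theorem primeOfPlace_ne_bot [CharZero K] (hx : Transcendental K x)
    (hfin : FiniteDimensional (IntermediateField.adjoin K {x}) F)
    (v : Place K F) (h : 0 ≤ v.ord x) : primeOfPlace v h ≠ ⊥ := by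
  have := isDedekindDomain_intClosure hx
  have := isFractionRing_intClosure (K := K) x
  obtain ⟨w, rfl⟩ := exists_heightOneSpectrum (R := intClosure K x) v (intClosure_mem v h)
  rw [primeOfPlace_ofHeightOneSpectrum]
  exact w.ne_bot

theorem primeOfPlace_isMaximal [CharZero K] (hx : Transcendental K x)
    (hfin : FiniteDimensional (IntermediateField.adjoin K {x}) F)
    (v : Place K F) (h : 0 ≤ v.ord x) : (primeOfPlace v h).IsMaximal := by
  have := isDedekindDomain_intClosure hx
  exact (primeOfPlace_isPrime v h).isMaximal (primeOfPlace_ne_bot hx hfin v h)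

theorem primeOfPlace_injective [CharZero K] (hx : Transcendental K x)
    (hfin : FiniteDimensional (IntermediateField.adjoin K {x}) F)
    {v v' : Place K F} (h : 0 ≤ v.ord x) (h' : 0 ≤ v'.ord x)
    (heq : primeOfPlace v h = primeOfPlace v' h') : v = v' := by
  have := isDedekindDomain_intClosure hx
  have := isFractionRing_intClosure (K := K) x
  obtain ⟨w, rfl⟩ := exists_heightOneSpectrum (R := intClosure K x) v (intClosure_mem v h)
  obtain ⟨w', rfl⟩ := exists_heightOneSpectrum (R := intClosure K x) v' (intClosure_mem v' h')
  rw [primeOfPlace_ofHeightOneSpectrum, primeOfPlace_ofHeightOneSpectrum] at heq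
  rw [HeightOneSpectrum.ext heq]

theorem exists_place_of_isPrime [CharZero K] (hx : Transcendental K x)
    (hfin : FiniteDimensional (IntermediateField.adjoin K {x}) F)
    (P : Ideal (intClosure K x)) (hP : P.IsPrime) (hP0 : P ≠ ⊥) :
    ∃ (v : Place K F) (h : 0 ≤ v.ord x), primeOfPlace v h = P := by
  have := isDedekindDomain_intClosure hx
  have := isFractionRing_intClosure (K := K) x
  let w : HeightOneSpectrum (intClosure K x) := ⟨P, hP, hP0⟩
  have hxB : x ∈ intClosure K x :=
    (algebraMap (polyRing K x) (intClosure K x) (genPoly K x)).2
  have h : 0 ≤ (Place.ofHeightOneSpectrum (K := K) (F := F) w).ord x :=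
    ord_nonneg_of_mem _ (algebraMap_mem_ofHeightOneSpectrum w ⟨x, hxB⟩)
  exact ⟨Place.ofHeightOneSpectrum (K := K) (F := F) w, h, primeOfPlace_ofHeightOneSpectrum w h⟩

/-- a place `v` with `B ⊆ A_v` and `m_v ∩ B ⊇ P` for a nonzero prime... : comparison criterion.
If `v, v'` are finite at `x` and every `b ∈ B` with `ord_v b > 0` has `ord_{v'} b > 0`,
then `v = v'`. -/
theorem eq_of_forall_ord_pos [CharZero K] (hx : Transcendental K x)
    (hfin : FiniteDimensional (IntermediateField.adjoin K {x}) F)
    {v v' : Place K F} (h : 0 ≤ v.ord x) (h' : 0 ≤ v'.ord x)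
    (hle : ∀ b : intClosure K x, 0 < v.ord (b : F) → 0 < v'.ord (b : F)) : v = v' := by
  apply primeOfPlace_injective hx hfin h h'
  apply (primeOfPlace_isMaximal hx hfin v h).eq_of_le (primeOfPlace_isPrime v' h').ne_top
  intro b hb
  rw [mem_primeOfPlace] at hb ⊢
  exact hb.imp id (hle b)

end DictionaryIntClosure

end Fermat.Agent.S24.Zeros
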