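import Fermat.Agent.S24.Basic
import Fermat.Agent.S24.ZerosCore

set_option autoImplicit false

namespace Fermat.Agent.S24

open AlgebraicCurve IntermediateField

variable {K F : Type} [Field K] [Field F] [Algebra K F]

/-- PIECE A1. Every place of a function field over an algebraically closed field has degree 1. -/
theorem place_deg_eq_one [IsAlgClosed K] [CharZero K] (x : F) (hx : Transcendental K x)
    [FiniteDimensional K⟮x⟯ F] (v : Place K F) : v.deg = 1 :=
  Zeros.deg_eq_one hx inferInstance v

/-- PIECE A2 (zeros theorem). -/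
theorem exists_zeros_finset [IsAlgClosed K] [CharZero K] (x : F) (hx : Transcendental K x)
    [FiniteDimensional K⟮x⟯ F] :
    ∃ Z : Finset (Place K F), (∀ v, v ∈ Z ↔ 0 < v.ord x) ∧
      ∑ v ∈ Z, v.ord x = (Module.finrank K⟮x⟯ F : ℤ) := by
  have hfin := Zeros.finite_zeros hx (inferInstance : FiniteDimensional K⟮x⟯ F)
  refine ⟨hfin.toFinset, fun v => by simp, ?_⟩
  rw [← Zeros.sum_ord_zeros hx (inferInstance : FiniteDimensional K⟮x⟯ F),
    finsum_mem_eq_finite_toFinset_sum _ hfin]

/-- PIECE A3. In a function field every nonconstant element is a separating variable. -/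
theorem finiteDimensional_adjoin_of_transcendental [IsAlgClosed K] [CharZero K] (x : F)
    (hx : Transcendental K x) [FiniteDimensional K⟮x⟯ F] (f : F) (hf : Transcendental K f) :
    FiniteDimensional K⟮f⟯ F :=
  Zeros.finiteDimensional_adjoin_of_transcendental (inferInstance : FiniteDimensional K⟮x⟯ F) hf

/-- PIECE A4. Principal divisors have degree zero. -/
theorem degree_eq_zero_of_forall_ord [IsAlgClosed K] [CharZero K] (x : F) (hx : Transcendental K x)
    [FiniteDimensional K⟮x⟯ F] (f : F) (hf : f ≠ 0) (D : Divisor K F)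
    (hD : ∀ v, D v = v.ord f) : Divisor.degree D = 0 := by
  have hfin : FiniteDimensional K⟮x⟯ F := inferInstance
  have : D = Zeros.divOf hfin f := by
    ext v
    rw [hD, Zeros.divOf_apply]
  rw [this]
  exact Zeros.degree_divOf hx hfin f

/-- PIECE A4'. -/
theorem hasPrincipalDivisors [IsAlgClosed K] [CharZero K] (x : F) (hx : Transcendental K x)
    [FiniteDimensional K⟮x⟯ F] : AlgebraicCurve.HasPrincipalDivisors K F :=
  Zeros.hasPrincipalDivisors hx inferInstance

/-- PIECE A5. Every place is a zero of `x - c` for a unique `c`, or a zero of `x⁻¹`. -/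
theorem exists_center [IsAlgClosed K] [CharZero K] (x : F) (hx : Transcendental K x)
    [FiniteDimensional K⟮x⟯ F] (v : Place K F) :
    0 < v.ord x⁻¹ ∨ ∃ c : K, 0 < v.ord (x - algebraMap K F c) := by
  rcases lt_or_ge (v.ord x) 0 with h | h
  · left
    rw [v.ord_inv]
    omega
  · right
    have hmem : x ∈ v.toValuationSubring := Zeros.mem_of_ord_nonneg v h
    obtain ⟨c, hc⟩ := (Zeros.residueField_bijective hx (inferInstance : FiniteDimensional K⟮x⟯ F)
      v).2 (IsLocalRing.residue _ ⟨x, hmem⟩)
    refine ⟨c, ?_⟩
    have hc' : IsLocalRing.residue v.toValuationSubring (algebraMap K v.toValuationSubring c)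
        = IsLocalRing.residue _ ⟨x, hmem⟩ := hc
    rw [eq_comm, ← sub_eq_zero, ← map_sub, IsLocalRing.residue_eq_zero_iff,
      Zeros.mem_maximalIdeal_iff] at hc'
    rcases hc' with h0 | h0
    · exfalso
      have h1 : x - algebraMap K F c = 0 := congrArg Subtype.val h0
      exact Zeros.transcendental_sub_const hx c (h1 ▸ isAlgebraic_zero)
    · exact h0

end Fermat.Agent.S24
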