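import Fermat.Agent.S24.Conj
import Fermat.Agent.S24.LevelOne

set_option autoImplicit false

namespace Fermat.Agent.S24

open UpperHalfPlane Function
open scoped Manifold MatrixGroups Topology

local notation "𝕢" => Periodic.qParam


/-- The Moebius map on `ℂ`. -/
noncomputable def localMob (γ : SL(2, ℤ)) (z : ℂ) : ℂ :=
  (((γ 0 0 : ℤ) : ℂ) * z + ((γ 0 1 : ℤ) : ℂ)) / (((γ 1 0 : ℤ) : ℂ) * z + ((γ 1 1 : ℤ) : ℂ))

theorem local_coe_smul (γ : SL(2, ℤ)) (τ : ℍ) : ((γ • τ : ℍ) : ℂ) = localMob γ τ := by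
  rw [coe_specialLinearGroup_apply]
  simp [localMob]

theorem local_denom_ne_zero (γ : SL(2, ℤ)) (τ : ℍ) :
    ((γ 1 0 : ℤ) : ℂ) * τ + ((γ 1 1 : ℤ) : ℂ) ≠ 0 := by
  have := UpperHalfPlane.denom_ne_zero (γ : GL (Fin 2) ℝ) τ
  simpa [UpperHalfPlane.denom] using this

theorem local_hasDerivAt_mob (γ : SL(2, ℤ)) (τ : ℍ) :
    HasDerivAt (localMob γ) (1 / (((γ 1 0 : ℤ) : ℂ) * τ + ((γ 1 1 : ℤ) : ℂ)) ^ 2) (τ : ℂ) := by
  have hd := local_denom_ne_zero γ τ
  have h1 : HasDerivAt (fun z : ℂ => ((γ 0 0 : ℤ) : ℂ) * z + ((γ 0 1 : ℤ) : ℂ)) ((γ 0 0 : ℤ) : ℂ) τ := by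
    simpa using ((hasDerivAt_id (τ : ℂ)).const_mul ((γ 0 0 : ℤ) : ℂ)).add_const ((γ 0 1 : ℤ) : ℂ)
  have h2 : HasDerivAt (fun z : ℂ => ((γ 1 0 : ℤ) : ℂ) * z + ((γ 1 1 : ℤ) : ℂ)) ((γ 1 0 : ℤ) : ℂ) τ := by
    simpa using ((hasDerivAt_id (τ : ℂ)).const_mul ((γ 1 0 : ℤ) : ℂ)).add_const ((γ 1 1 : ℤ) : ℂ)
  have h := h1.div h2 hd
  have hdet : ((γ 0 0 : ℤ) : ℂ) * ((γ 1 1 : ℤ) : ℂ) - ((γ 0 1 : ℤ) : ℂ) * ((γ 1 0 : ℤ) : ℂ) = 1 := by
    have := γ.det_coe
    rw [Matrix.det_fin_two] at this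
    exact_mod_cast this
  have he : (1 : ℂ) / (((γ 1 0 : ℤ) : ℂ) * τ + ((γ 1 1 : ℤ) : ℂ)) ^ 2 =
      (((γ 0 0 : ℤ) : ℂ) * (((γ 1 0 : ℤ) : ℂ) * τ + ((γ 1 1 : ℤ) : ℂ)) -
        (((γ 0 0 : ℤ) : ℂ) * τ + ((γ 0 1 : ℤ) : ℂ)) * ((γ 1 0 : ℤ) : ℂ)) /
        (((γ 1 0 : ℤ) : ℂ) * τ + ((γ 1 1 : ℤ) : ℂ)) ^ 2 := by
    congr 1
    linear_combination (-1 : ℂ) * hdet
  rw [he]
  exact h

theorem local_analyticAt_mob (γ : SL(2, ℤ)) (τ : ℍ) : AnalyticAt ℂ (localMob γ) (τ : ℂ) := by
  have hd := local_denom_ne_zero γ τ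
  unfold localMob
  fun_prop (disch := exact hd)

theorem local_comp_eventuallyEq (γ : SL(2, ℤ)) (τ : ℍ) (f : ℍ → ℂ) :
    ((fun σ : ℍ => f (γ • σ)) ∘ ofComplex) =ᶠ[𝓝 (τ : ℂ)] (f ∘ ofComplex) ∘ localMob γ := by
  filter_upwards [UpperHalfPlane.isOpen_upperHalfPlaneSet.mem_nhds τ.im_pos] with z hz
  simp only [Function.comp_apply]
  rw [ofComplex_apply_of_im_pos hz]
  have := local_coe_smul γ ⟨z, hz⟩
  rw [show localMob γ z = ((γ • (⟨z, hz⟩ : ℍ) : ℍ) : ℂ) from this.symm, ofComplex_apply]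

theorem order_taylorHom_compHom (τ : ℍ) (γ : SL(2, ℤ)) (hγ : γ • τ = τ) (f : Hol) :
    (taylorHom τ (compHom γ f)).order = (taylorHom τ f).order := by
  rw [order_taylorHom, order_taylorHom]
  have h1 : (((compHom γ f : Hol) : ℍ → ℂ) ∘ ofComplex) =ᶠ[𝓝 (τ : ℂ)]
      ((f : ℍ → ℂ) ∘ ofComplex) ∘ localMob γ := local_comp_eventuallyEq γ τ f
  rw [analyticOrderAt_congr h1,
    analyticOrderAt_comp_of_deriv_ne_zero (local_analyticAt_mob γ τ)]
  · rw [← local_coe_smul, hγ]
  · rw [(local_hasDerivAt_mob γ τ).deriv]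
    exact one_div_ne_zero (pow_ne_zero _ (local_denom_ne_zero γ τ))

theorem local_pow_eq_one {F h : ℂ → ℂ} {z0 ζ : ℂ} {n : ℕ} (hF : AnalyticAt ℂ F z0)
    (hn : analyticOrderAt F z0 = n) (hh : HasDerivAt h ζ z0) (hz : h z0 = z0)
    (hinv : F ∘ h =ᶠ[𝓝 z0] F) : ζ ^ n = 1 := by
  obtain ⟨g, hg, hg0, hFg⟩ := (hF.analyticOrderAt_eq_natCast).mp hn
  have hcont : Filter.Tendsto h (𝓝 z0) (𝓝 z0) := by
    have := hh.continuousAt.tendsto
    rwa [hz] at this
  have hFg' : ∀ᶠ z in 𝓝 z0, F (h z) = (h z - z0) ^ n • g (h z) := hcont.eventually hFg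
  have hslope : Filter.Tendsto (slope h z0) (𝓝[≠] z0) (𝓝 ζ) := hasDerivAt_iff_tendsto_slope.mp hh
  have hev : ∀ᶠ z in 𝓝[≠] z0, g z = (slope h z0 z) ^ n * g (h z) := by
    have h1 : ∀ᶠ z in 𝓝[≠] z0, F z = (z - z0) ^ n • g z := hFg.filter_mono nhdsWithin_le_nhds
    have h2 : ∀ᶠ z in 𝓝[≠] z0, F (h z) = (h z - z0) ^ n • g (h z) :=
      hFg'.filter_mono nhdsWithin_le_nhds
    have h3 : ∀ᶠ z in 𝓝[≠] z0, F (h z) = F z := hinv.filter_mono nhdsWithin_le_nhds
    filter_upwards [h1, h2, h3, self_mem_nhdsWithin] with z e1 e2 e3 hne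
    have hne' : z - z0 ≠ 0 := sub_ne_zero.mpr hne
    have hs : slope h z0 z = (h z - z0) / (z - z0) := by
      rw [slope_def_field, hz]
    rw [hs, div_pow]
    have : (z - z0) ^ n * g z = (h z - z0) ^ n * g (h z) := by
      rw [← smul_eq_mul, ← smul_eq_mul, ← e1, ← e2, e3]
    field_simp
    linear_combination this
  have hl1 : Filter.Tendsto g (𝓝[≠] z0) (𝓝 (g z0)) :=
    hg.continuousAt.tendsto.mono_left nhdsWithin_le_nhds
  have hl2 : Filter.Tendsto (fun z => (slope h z0 z) ^ n * g (h z)) (𝓝[≠] z0)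
      (𝓝 (ζ ^ n * g z0)) := by
    refine (hslope.pow n).mul ?_
    exact (hg.continuousAt.tendsto.comp hcont).mono_left nhdsWithin_le_nhds
  have heq : g z0 = ζ ^ n * g z0 := tendsto_nhds_unique hl1 (hl2.congr' (hev.mono fun _ h => h.symm))
  have : (ζ ^ n - 1) * g z0 = 0 := by linear_combination -heq
  rcases mul_eq_zero.mp this with h | h
  · linear_combination h
  · exact absurd h hg0

theorem local_analyticAt (f : Hol) (τ : ℍ) : AnalyticAt ℂ ((f : ℍ → ℂ) ∘ ofComplex) (τ : ℂ) := by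
  have h : MDiff (f : ℍ → ℂ) := f.2
  rw [UpperHalfPlane.mdifferentiable_iff] at h
  exact h.analyticAt (UpperHalfPlane.isOpen_upperHalfPlaneSet.mem_nhds τ.im_pos)

theorem local_order_ne_top (τ : ℍ) (f : Hol) (hf : f ≠ 0) : (taylorHom τ f).order ≠ ⊤ := by
  intro h
  rw [PowerSeries.order_eq_top] at h
  exact hf (taylorHom_injective τ (by rw [h, map_zero]))

/-- Invariance under `γ` fixing `τ` forces `ζ ^ order = 1` for the multiplier `ζ`. -/
theorem local_multiplier_pow (τ : ℍ) (γ : SL(2, ℤ)) (hγ : γ • τ = τ) (f : Hol) (hf : f ≠ 0)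
    (h : compHom γ f = f) :
    (1 / (((γ 1 0 : ℤ) : ℂ) * τ + ((γ 1 1 : ℤ) : ℂ)) ^ 2) ^ (taylorHom τ f).order.toNat = 1 := by
  have hn : analyticOrderAt ((f : ℍ → ℂ) ∘ ofComplex) (τ : ℂ) =
      ((taylorHom τ f).order.toNat : ℕ∞) := by
    rw [← order_taylorHom, ENat.natCast_toNat (local_order_ne_top τ f hf)]
  refine local_pow_eq_one (local_analyticAt f τ) hn (local_hasDerivAt_mob γ τ) ?_ ?_
  · rw [← local_coe_smul, hγ]
  · have h1 := local_comp_eventuallyEq γ τ (f : ℍ → ℂ)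
    have h2 : (fun σ : ℍ => (f : ℍ → ℂ) (γ • σ)) = (f : ℍ → ℂ) := by
      have := congrArg (fun g : Hol => (g : ℍ → ℂ)) h
      exact this
    rw [h2] at h1
    exact h1.symm

theorem two_dvd_order_of_invariant (f : Hol) (hf : f ≠ 0) (h : compHom ModularGroup.S f = f) :
    2 ∣ (taylorHom UpperHalfPlane.I f).order.toNat := by
  have := local_multiplier_pow UpperHalfPlane.I ModularGroup.S S_smul_I f hf h
  have h2 : (1 / (((ModularGroup.S 1 0 : ℤ) : ℂ) * (UpperHalfPlane.I : ℍ) +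
      ((ModularGroup.S 1 1 : ℤ) : ℂ)) ^ 2) = -1 := by
    simp [ModularGroup.S]
  rw [h2, neg_one_pow_eq_one_iff_even (by norm_num)] at this
  exact this.two_dvd

theorem three_dvd_order_of_invariant (f : Hol) (hf : f ≠ 0)
    (h : compHom (ModularGroup.S * ModularGroup.T) f = f) :
    3 ∣ (taylorHom rhoPt f).order.toNat := by
  have := local_multiplier_pow rhoPt (ModularGroup.S * ModularGroup.T) ST_smul_rhoPt f hf h
  set n := (taylorHom rhoPt f).order.toNat with hn
  have hs3 : ((Real.sqrt 3 : ℝ) : ℂ) ^ 2 = 3 := by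
    rw [← Complex.ofReal_pow, Real.sq_sqrt (by norm_num)]; norm_num
  have hρ : ((rhoPt : ℍ) : ℂ) = -1 / 2 + ((Real.sqrt 3 / 2 : ℝ) : ℂ) * Complex.I := rfl
  have h2 : ((((ModularGroup.S * ModularGroup.T) 1 0 : ℤ) : ℂ) * (rhoPt : ℍ) +
      (((ModularGroup.S * ModularGroup.T) 1 1 : ℤ) : ℂ)) ^ 2 = (rhoPt : ℍ) := by
    have e10 : (ModularGroup.S * ModularGroup.T) 1 0 = 1 := by
      rw [Matrix.SpecialLinearGroup.coe_mul, Matrix.mul_apply, Fin.sum_univ_two]
      simp [ModularGroup.S, ModularGroup.T]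
    have e11 : (ModularGroup.S * ModularGroup.T) 1 1 = 1 := by
      rw [Matrix.SpecialLinearGroup.coe_mul, Matrix.mul_apply, Fin.sum_univ_two]
      simp [ModularGroup.S, ModularGroup.T]
    rw [e10, e11, hρ]
    push_cast
    linear_combination (Complex.I ^ 2 / 4) * hs3 + (3 / 4 : ℂ) * Complex.I_sq
  rw [h2, one_div, inv_pow, inv_eq_one] at this
  have h3 : ((rhoPt : ℍ) : ℂ) ^ 3 = 1 := by
    rw [hρ]
    push_cast
    have hI3 : Complex.I ^ 3 = -Complex.I := by rw [pow_succ, Complex.I_sq]; ring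
    have hs33 : ((Real.sqrt 3 : ℝ) : ℂ) ^ 3 = 3 * ((Real.sqrt 3 : ℝ) : ℂ) := by
      rw [pow_succ, hs3]
    ring_nf
    rw [hI3, hs33, hs3, Complex.I_sq]
    ring
  have hne : ((rhoPt : ℍ) : ℂ) ≠ 1 := by
    intro h1
    have := congrArg Complex.re h1
    rw [hρ] at this
    simp at this
    norm_num at this
  have hmod : ((rhoPt : ℍ) : ℂ) ^ (n % 3) = 1 := by
    have : ((rhoPt : ℍ) : ℂ) ^ n = ((rhoPt : ℍ) : ℂ) ^ (n % 3) := by
      conv_lhs => rw [← Nat.div_add_mod n 3, pow_add, pow_mul, h3, one_pow, one_mul]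
    rw [← this]; assumption
  have hlt : n % 3 < 3 := Nat.mod_lt _ (by norm_num)
  rw [Nat.dvd_iff_mod_eq_zero]
  interval_cases hr : n % 3
  · rfl
  · exact absurd (by simpa using hmod) hne
  · exfalso
    apply hne
    have : ((rhoPt : ℍ) : ℂ) ^ 3 = ((rhoPt : ℍ) : ℂ) ^ 2 * (rhoPt : ℍ) := pow_succ _ _
    rw [h3, hmod, one_mul] at this
    exact this.symm


theorem local_exists_bound (L : LaurentSeries ℂ) :
    ∃ m : ℕ, ∀ k : ℤ, k < -(m : ℤ) → L.coeff k = 0 := by
  refine ⟨(-L.order).toNat, fun k hk => HahnSeries.coeff_eq_zero_of_lt_order ?_⟩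
  have := Int.self_le_toNat (-L.order)
  omega

/-- Twisting the coefficients of a Laurent series. -/
noncomputable def localTwist (c : ℤ → ℂ) (L : LaurentSeries ℂ) : LaurentSeries ℂ :=
  ⟨fun k => c k * L.coeff k, L.isPWO_support.mono (by
    intro k hk
    simp only [Function.mem_support, ne_eq] at hk ⊢
    exact fun h => hk (by rw [h, mul_zero]))⟩

@[simp] theorem localTwist_coeff (c : ℤ → ℂ) (L : LaurentSeries ℂ) (k : ℤ) :
    (localTwist c L).coeff k = c k * L.coeff k := rfl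

theorem local_qParam_T (N : ℕ) [NeZero N] (w : ℤ) (τ : ℍ) :
    𝕢 (N : ℝ) ((ModularGroup.T ^ w • τ : ℍ) : ℂ) =
      Complex.exp (2 * Real.pi * Complex.I * w / N) * 𝕢 (N : ℝ) (τ : ℂ) := by
  rw [modular_T_zpow_smul, coe_vadd, Periodic.qParam, Periodic.qParam, ← Complex.exp_add]
  congr 1
  push_cast
  ring

theorem coeff_laurentHom_compHom_T (N : ℕ) [NeZero N] (f : Hol) (hf : (f : ℍ → ℂ) ∈ MerInf N)
    (w : ℤ) (hfw : ((compHom (ModularGroup.T ^ w) f : Hol) : ℍ → ℂ) ∈ MerInf N) (n : ℤ) :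
    (laurentHom N ⟨_, hfw⟩).coeff n =
      Complex.exp (2 * Real.pi * Complex.I * w * n / N) * (laurentHom N ⟨_, hf⟩).coeff n := by
  obtain ⟨m, hm⟩ := local_exists_bound (laurentHom N ⟨_, hf⟩)
  have key : laurentHom N ⟨_, hfw⟩ =
      localTwist (fun k => Complex.exp (2 * Real.pi * Complex.I * w * k / N))
        (laurentHom N ⟨_, hf⟩) := by
    refine laurentHom_eq_of_hasSum N _ _ m (fun k hk => by simp [hm k hk]) (fun τ => ?_)
    have h := hasSum_laurentHom N ⟨_, hf⟩ m hm (ModularGroup.T ^ w • τ)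
    rw [local_qParam_T] at h
    set ζ := Complex.exp (2 * Real.pi * Complex.I * w / N) with hζ
    have hζ0 : ζ ≠ 0 := Complex.exp_ne_zero _
    have h' := h.mul_left ((ζ ^ m)⁻¹)
    have e1 : (fun k : ℕ => (localTwist (fun k => Complex.exp (2 * Real.pi * Complex.I * w * k / N))
        (laurentHom N ⟨_, hf⟩)).coeff ((k : ℤ) - m) * 𝕢 (N : ℝ) τ ^ k) =
        fun i : ℕ => (ζ ^ m)⁻¹ * ((laurentHom N ⟨_, hf⟩).coeff ((i : ℤ) - m) *
          (ζ * 𝕢 (N : ℝ) τ) ^ i) := by
      funext k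
      simp only [localTwist_coeff]
      have : Complex.exp (2 * Real.pi * Complex.I * w * ((k : ℤ) - (m : ℤ) : ℤ) / N) =
          (ζ ^ m)⁻¹ * ζ ^ k := by
        rw [hζ, ← Complex.exp_nat_mul, ← Complex.exp_nat_mul, ← Complex.exp_neg, ← Complex.exp_add]
        congr 1
        push_cast
        ring
      rw [this, mul_pow]
      ring
    have e2 : (f : ℍ → ℂ) (ModularGroup.T ^ w • τ) * 𝕢 (N : ℝ) τ ^ m =
        (ζ ^ m)⁻¹ * ((f : ℍ → ℂ) (ModularGroup.T ^ w • τ) * (ζ * 𝕢 (N : ℝ) τ) ^ m) := by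
      rw [mul_pow]
      field_simp
    rw [e1]
    show HasSum _ ((f : ℍ → ℂ) (ModularGroup.T ^ w • τ) * 𝕢 (N : ℝ) τ ^ m)
    rw [e2]
    exact h'
  rw [key, localTwist_coeff]

theorem local_qParam_pow (N : ℕ) [NeZero N] (z : ℂ) :
    𝕢 ((1 : ℕ) : ℝ) z = 𝕢 (N : ℝ) z ^ N := by
  have hN : (N : ℂ) ≠ 0 := by exact_mod_cast NeZero.ne N
  rw [Periodic.qParam, Periodic.qParam, ← Complex.exp_nat_mul]
  congr 1
  push_cast
  field_simp

theorem laurentHom_of_MerInf_one (N : ℕ) [NeZero N] (f : ℍ → ℂ) (h1 : f ∈ MerInf 1)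
    (hN : f ∈ MerInf N) :
    laurentHom N ⟨f, hN⟩ = ModularCurve.qExpand ℂ N (laurentHom 1 ⟨f, h1⟩) := by
  obtain ⟨m, hm⟩ := local_exists_bound (laurentHom 1 ⟨f, h1⟩)
  have hNpos : 0 < N := Nat.pos_of_ne_zero (NeZero.ne N)
  refine laurentHom_eq_of_hasSum N ⟨f, hN⟩ _ (N * m) (fun k hk => ?_) (fun τ => ?_)
  · by_cases hd : (N : ℤ) ∣ k
    · obtain ⟨k', rfl⟩ := hd
      rw [ModularCurve.qExpand_coeff_mul]
      apply hm
      have hNz : (0 : ℤ) < N := by exact_mod_cast hNpos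
      push_cast at hk
      nlinarith
    · exact ModularCurve.qExpand_coeff_of_not_dvd N _ hd
  · have h := hasSum_laurentHom 1 ⟨f, h1⟩ m hm τ
    rw [local_qParam_pow N] at h
    have hinj : Function.Injective (fun n : ℕ => N * n) := fun a b hab =>
      Nat.eq_of_mul_eq_mul_left hNpos hab
    rw [← hinj.hasSum_iff]
    · have e1 : ((fun n : ℕ => (ModularCurve.qExpand ℂ N (laurentHom 1 ⟨f, h1⟩)).coeff
          ((n : ℤ) - ((N * m : ℕ) : ℤ)) * 𝕢 (N : ℝ) τ ^ n) ∘ fun n : ℕ => N * n) =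
          fun n : ℕ => (laurentHom 1 ⟨f, h1⟩).coeff ((n : ℤ) - m) * (𝕢 (N : ℝ) τ ^ N) ^ n := by
        funext n
        simp only [Function.comp_apply]
        rw [show (((N * n : ℕ) : ℤ) - ((N * m : ℕ) : ℤ)) = (N : ℤ) * ((n : ℤ) - m) by
          push_cast; ring, ModularCurve.qExpand_coeff_mul, pow_mul]
      rw [e1, pow_mul]
      exact h
    · intro n hn
      have hd : ¬ (N : ℤ) ∣ ((n : ℤ) - ((N * m : ℕ) : ℤ)) := by
        intro hd
        apply hn
        have : (N : ℤ) ∣ (n : ℤ) := by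
          have h2 : (N : ℤ) ∣ ((N * m : ℕ) : ℤ) := by push_cast; exact dvd_mul_right _ _
          have := dvd_add hd h2
          simpa using this
        obtain ⟨c, hc⟩ := Int.natCast_dvd_natCast.mp this
        exact ⟨c, hc.symm⟩
      rw [ModularCurve.qExpand_coeff_of_not_dvd N _ hd, zero_mul]


theorem local_order_eq {L : LaurentSeries ℂ} {n : ℤ} (h1 : L.coeff n ≠ 0)
    (h2 : ∀ k < n, L.coeff k = 0) : L.order = n := by
  refine le_antisymm (HahnSeries.order_le_of_coeff_ne_zero h1) ?_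
  by_contra hlt
  push Not at hlt
  have h0 : L = 0 := HahnSeries.coeff_order_eq_zero.mp (h2 _ hlt)
  exact h1 (by rw [h0]; rfl)

theorem local_order_ofPowerSeries (P : PowerSeries ℂ) :
    (HahnSeries.ofPowerSeries ℤ ℂ P).order = (P.order.toNat : ℤ) := by
  by_cases hP : P = 0
  · subst hP
    simp
  · have htop : P.order ≠ ⊤ := by rwa [Ne, PowerSeries.order_eq_top]
    have hn : (P.order.toNat : ℕ∞) = P.order := ENat.natCast_toNat htop
    refine local_order_eq ?_ ?_
    · rw [HahnSeries.ofPowerSeries_apply_coeff]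
      exact PowerSeries.coeff_order hP
    · intro k hk
      by_cases hk0 : k < 0
      · exact ModularCurve.ofPowerSeries_coeff_of_neg _ hk0
      · push Not at hk0
        obtain ⟨k', rfl⟩ := Int.eq_ofNat_of_zero_le hk0
        rw [HahnSeries.ofPowerSeries_apply_coeff]
        apply PowerSeries.coeff_of_lt_order
        rw [← hn]
        exact_mod_cast hk

theorem local_order_eq_of_coeff (L L' : LaurentSeries ℂ) (c : ℤ → ℂ) (hc : ∀ k, c k ≠ 0)
    (h : ∀ k, L'.coeff k = c k * L.coeff k) : L'.order = L.order := by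
  by_cases hL : L = 0
  · have : L' = 0 := by
      ext k
      rw [h k, hL]
      simp
    rw [this, hL]
  · refine local_order_eq ?_ ?_
    · rw [h]
      exact mul_ne_zero (hc _) (fun h0 => hL (HahnSeries.coeff_order_eq_zero.mp h0))
    · intro k hk
      rw [h, HahnSeries.coeff_eq_zero_of_lt_order hk, mul_zero]

/-- The stabiliser of a holomorphic function. -/
def localStab (F : Hol) : Subgroup SL(2, ℤ) where
  carrier := {γ | compHom γ F = F}
  mul_mem' := by
    intro a b ha hb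
    simp only [Set.mem_ofPred_eq] at ha hb ⊢
    rw [compHom_mul, ha, hb]
  one_mem' := compHom_one F
  inv_mem' := by
    intro a ha
    simp only [Set.mem_ofPred_eq] at ha ⊢
    conv_lhs => rw [← ha]
    rw [← compHom_mul, mul_inv_cancel, compHom_one]

theorem mem_localStab {F : Hol} {γ : SL(2, ℤ)} : γ ∈ localStab F ↔ compHom γ F = F := Iff.rfl

theorem local_neg_one_mem (F : Hol) : (-1 : SL(2, ℤ)) ∈ localStab F := by
  rw [mem_localStab]
  ext τ
  rw [compHom_apply, ModularGroup.SL_neg_smul, one_smul]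

theorem local_permOf_pow (N : ℕ) (γ : SL(2, ℤ)) (w : ℕ) (x : Cosets N) :
    (permOf N γ ^ w) x = γ ^ w • x := by
  induction w generalizing x with
  | zero => simp
  | succ n ih =>
    rw [pow_succ, Equiv.Perm.mul_apply, ih, pow_succ, mul_smul]
    rfl

theorem local_pow_mem_stab (N : ℕ) [NeZero N] (γ : SL(2, ℤ)) (x : Cosets N) (a : A1 N) (w : ℕ)
    (h : (permOf N γ ^ w) x = x) : γ ^ w ∈ localStab (conjHom N x a) := by
  rw [local_permOf_pow] at h
  have h1 := conjHom_smul N (γ ^ w) x a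
  rw [h] at h1
  have : (γ ^ w)⁻¹ ∈ localStab (conjHom N x a) := mem_localStab.mpr h1.symm
  simpa using (localStab (conjHom N x a)).inv_mem this

theorem local_mem_of_coprime {G : Type*} [Group G] (H : Subgroup G) (γ : G) (w e : ℕ)
    (hw : γ ^ w ∈ H) (he : γ ^ e ∈ H) (hc : Nat.Coprime w e) : γ ∈ H := by
  have hb := Nat.gcd_eq_gcd_ab w e
  rw [hc.gcd_eq_one] at hb
  have : γ = (γ ^ w) ^ (Nat.gcdA w e) * (γ ^ e) ^ (Nat.gcdB w e) := by
    rw [← zpow_natCast γ w, ← zpow_natCast γ e, ← zpow_mul, ← zpow_mul, ← zpow_add, ← hb]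
    simp
  rw [this]
  exact H.mul_mem (H.zpow_mem hw _) (H.zpow_mem he _)

theorem local_S_sq : ModularGroup.S ^ 2 = (-1 : SL(2, ℤ)) := by
  decide

theorem local_ST_cube : (ModularGroup.S * ModularGroup.T) ^ 3 = (-1 : SL(2, ℤ)) := by
  decide


/-- Taylor expansions of the conjugates at `τ`. -/
noncomputable def localPsi (N : ℕ) [NeZero N] (τ : ℍ) (x : Cosets N) :
    A1 N →+* LaurentSeries ℂ :=
  (HahnSeries.ofPowerSeries ℤ ℂ).comp ((taylorHom τ).comp (conjHom N x))

theorem localPsi_apply (N : ℕ) [NeZero N] (τ : ℍ) (x : Cosets N) (a : A1 N) :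
    localPsi N τ x a = HahnSeries.ofPowerSeries ℤ ℂ (taylorHom τ (conjHom N x a)) := rfl

theorem localPsi_injective (N : ℕ) [NeZero N] (τ : ℍ) (x : Cosets N) :
    Function.Injective (localPsi N τ x) := by
  intro a b h
  rw [localPsi_apply, localPsi_apply] at h
  exact conjHom_injective N x (taylorHom_injective τ (HahnSeries.ofPowerSeries_injective h))

theorem localPsi_const (N : ℕ) [NeZero N] (τ : ℍ) (x : Cosets N) (c : Kbar) :
    localPsi N τ x (algebraMap Kbar (A1 N) c) = HahnSeries.C (iotaC c) := by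
  rw [localPsi_apply, conjHom_algebraMap, taylorHom_constHol, HahnSeries.ofPowerSeries_C]

theorem localPsi_jA (N : ℕ) [NeZero N] (τ : ℍ) (x : Cosets N) :
    localPsi N τ x (jA N) = HahnSeries.ofPowerSeries ℤ ℂ (taylorHom τ jHol) := by
  rw [localPsi_apply, conjHom_jA]

theorem localPsi_index_injective (N : ℕ) [NeZero N] (τ : ℍ) :
    Function.Injective (localPsi N τ) := by
  intro x y h
  apply conjHom_index_injective N
  ext1 a
  have := congrArg (fun φ : A1 N →+* LaurentSeries ℂ => φ a) h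
  simp only [localPsi_apply] at this
  exact taylorHom_injective τ (HahnSeries.ofPowerSeries_injective this)

theorem localPsi_order (N : ℕ) [NeZero N] (τ : ℍ) (x : Cosets N) (a : A1 N) :
    (localPsi N τ x a).order = ((taylorHom τ (conjHom N x a)).order.toNat : ℤ) := by
  rw [localPsi_apply, local_order_ofPowerSeries]

theorem localPsi_order_sub (N : ℕ) [NeZero N] (τ : ℍ) (x : Cosets N) (c : Kbar) :
    (localPsi N τ x (jA N - algebraMap Kbar (A1 N) c)).order =
      ((taylorHom τ (jHol - constHol (iotaC c))).order.toNat : ℤ) := by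
  rw [localPsi_order, map_sub, conjHom_jA, conjHom_algebraMap]

theorem localPsi_order_perm (N : ℕ) [NeZero N] (τ : ℍ) (γ : SL(2, ℤ)) (hγ : γ • τ = τ)
    (x : Cosets N) (a : A1 N) :
    (localPsi N τ (permOf N γ x) a).order = (localPsi N τ x a).order := by
  rw [localPsi_order, localPsi_order]
  have h1 : permOf N γ x = γ • x := rfl
  rw [h1, conjHom_smul, order_taylorHom_compHom]
  rw [inv_smul_eq_iff, hγ]

theorem localPsi_order_dvd (N : ℕ) [NeZero N] (τ : ℍ) (γ : SL(2, ℤ)) (e : ℕ) (he : e.Prime)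
    (hpow : γ ^ e = -1)
    (hdvd : ∀ f : Hol, f ≠ 0 → compHom γ f = f → e ∣ (taylorHom τ f).order.toNat)
    (x : Cosets N) (w : ℕ) (hw : (permOf N γ ^ w) x = x) (a : A1 N) :
    (e : ℤ) ∣ (w : ℤ) * (localPsi N τ x a).order := by
  by_cases hew : e ∣ w
  · exact Dvd.dvd.mul_right (by exact_mod_cast hew) _
  · apply Dvd.dvd.mul_left
    by_cases ha : a = 0
    · subst ha
      simp
    · rw [localPsi_order]
      have hF : conjHom N x a ≠ 0 := by
        intro h0
        exact ha (conjHom_injective N x (by rw [h0, map_zero]))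
      have hmem : γ ∈ localStab (conjHom N x a) := by
        refine local_mem_of_coprime _ γ w e (local_pow_mem_stab N γ x a w hw) ?_ ?_
        · rw [hpow]; exact local_neg_one_mem _
        · exact ((Nat.Prime.coprime_iff_not_dvd he).mpr hew).symm
      exact_mod_cast hdvd _ hF hmem

theorem iotaC_injective : Function.Injective iotaC := iotaC.injective

theorem iotaC_1728 : iotaC 1728 = 1728 := map_ofNat iotaC 1728

theorem preUnif_generic (N : ℕ) [NeZero N] (c : Kbar) (h0 : c ≠ 0) (h1 : c ≠ 1728) :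
    Nonempty (PreUnif N c 1 1 1) := by
  obtain ⟨τ, hτ⟩ := exists_jfun_eq (iotaC c)
  refine ⟨{
    Ψ := localPsi N τ
    inj_each := localPsi_injective N τ
    map_const := localPsi_const N τ
    map_j := fun i i' => by rw [localPsi_jA, localPsi_jA]
    inj := localPsi_index_injective N τ
    e0_pos := one_pos
    order_x := fun i => ?_
    order_perm := fun i a => rfl
    order_dvd := fun i w _ a => by simp }⟩
  rw [localPsi_order_sub, ← hτ, order_taylorHom_generic τ]
  · rfl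
  · rw [hτ]
    intro h
    exact h0 (iotaC_injective (by rw [h, map_zero]))
  · rw [hτ]
    intro h
    apply h1
    apply iotaC_injective
    rw [h, iotaC_1728]

theorem preUnif_zero (N : ℕ) [NeZero N] :
    Nonempty (PreUnif N 0 3 3 (permOf N (ModularGroup.S * ModularGroup.T))) := by
  refine ⟨{
    Ψ := localPsi N rhoPt
    inj_each := localPsi_injective N rhoPt
    map_const := localPsi_const N rhoPt
    map_j := fun i i' => by rw [localPsi_jA, localPsi_jA]
    inj := localPsi_index_injective N rhoPt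
    e0_pos := by norm_num
    order_x := fun i => ?_
    order_perm := fun i a => localPsi_order_perm N rhoPt _ ST_smul_rhoPt i a
    order_dvd := fun i w hw a => localPsi_order_dvd N rhoPt _ 3 Nat.prime_three local_ST_cube
      three_dvd_order_of_invariant i w hw a }⟩
  rw [localPsi_order_sub, map_zero, map_zero, sub_zero, order_taylorHom_rhoPt]
  rfl

theorem preUnif_1728 (N : ℕ) [NeZero N] :
    Nonempty (PreUnif N 1728 2 2 (permOf N ModularGroup.S)) := by
  refine ⟨{
    Ψ := localPsi N UpperHalfPlane.I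
    inj_each := localPsi_injective N UpperHalfPlane.I
    map_const := localPsi_const N UpperHalfPlane.I
    map_j := fun i i' => by rw [localPsi_jA, localPsi_jA]
    inj := localPsi_index_injective N UpperHalfPlane.I
    e0_pos := by norm_num
    order_x := fun i => ?_
    order_perm := fun i a => localPsi_order_perm N UpperHalfPlane.I _ S_smul_I i a
    order_dvd := fun i w hw a => localPsi_order_dvd N UpperHalfPlane.I _ 2 Nat.prime_two local_S_sq
      two_dvd_order_of_invariant i w hw a }⟩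
  rw [localPsi_order_sub]
  rw [iotaC_1728, order_taylorHom_I]
  rfl


/-- `q_N`-expansions of the conjugates. -/
noncomputable def localPsiInf (N : ℕ) [NeZero N] (x : Cosets N) : A1 N →+* LaurentSeries ℂ :=
  (laurentHom N).comp
    ((Hol.subtype.comp (conjHom N x)).codRestrict (MerInf N) (conjHom_mem_MerInf N x))

theorem localPsiInf_apply (N : ℕ) [NeZero N] (x : Cosets N) (a : A1 N) :
    localPsiInf N x a = laurentHom N ⟨_, conjHom_mem_MerInf N x a⟩ := rfl

theorem local_laurentHom_congr (N : ℕ) [NeZero N] {f g : ℍ → ℂ} (hf : f ∈ MerInf N)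
    (hg : g ∈ MerInf N) (h : f = g) : laurentHom N ⟨f, hf⟩ = laurentHom N ⟨g, hg⟩ := by
  subst h; rfl

theorem localPsiInf_injective (N : ℕ) [NeZero N] (x : Cosets N) :
    Function.Injective (localPsiInf N x) := by
  intro a b h
  rw [localPsiInf_apply, localPsiInf_apply] at h
  have h1 := laurentHom_injective N h
  apply conjHom_injective N x
  exact Subtype.ext (congrArg (fun g : MerInf N => (g : ℍ → ℂ)) h1)

theorem localPsiInf_const (N : ℕ) [NeZero N] (x : Cosets N) (c : Kbar) :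
    localPsiInf N x (algebraMap Kbar (A1 N) c) = HahnSeries.C (iotaC c) := by
  rw [localPsiInf_apply]
  refine laurentHom_eq_of_hasSum N _ _ 0 (fun k hk => ?_) (fun τ => ?_)
  · rw [HahnSeries.C_apply, HahnSeries.coeff_single_of_ne]
    simp at hk
    omega
  · show HasSum _ (((conjHom N x (algebraMap Kbar (A1 N) c) : Hol) : ℍ → ℂ) τ * _)
    rw [conjHom_algebraMap, constHol_apply, pow_zero, mul_one]
    convert hasSum_single (f := fun n : ℕ => (HahnSeries.C (iotaC c) : LaurentSeries ℂ).coeff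
      ((n : ℤ) - ((0 : ℕ) : ℤ)) * 𝕢 (N : ℝ) τ ^ n) 0 ?_ using 1
    · simp [HahnSeries.C_apply]
    · intro n hn
      rw [HahnSeries.C_apply, HahnSeries.coeff_single_of_ne, zero_mul]
      simp only [Nat.cast_zero, sub_zero]
      exact_mod_cast hn

theorem localPsiInf_jA (N : ℕ) [NeZero N] (x : Cosets N) :
    localPsiInf N x (jA N) = ModularCurve.qExpand ℂ N (ModularCurve.jqModC ℂ) := by
  rw [localPsiInf_apply]
  have hfun : ((conjHom N x (jA N) : Hol) : ℍ → ℂ) = jfun := by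
    rw [conjHom_jA]; rfl
  have hmem : jfun ∈ MerInf N := hfun ▸ conjHom_mem_MerInf N x (jA N)
  rw [local_laurentHom_congr N _ hmem hfun, laurentHom_of_MerInf_one N jfun jfun_mem_MerInf hmem,
    laurentHom_jfun]

theorem localPsiInf_index_injective (N : ℕ) [NeZero N] : Function.Injective (localPsiInf N) := by
  intro x y h
  apply conjHom_index_injective N
  ext1 a
  have := congrArg (fun φ : A1 N →+* LaurentSeries ℂ => φ a) h
  simp only [localPsiInf_apply] at this
  exact Subtype.ext (congrArg (fun g : MerInf N => (g : ℍ → ℂ)) (laurentHom_injective N this))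

theorem local_coeff_jqModC_neg_one : (ModularCurve.jqModC ℂ).coeff (-1) = 1 := by
  rw [ModularCurve.jqModC, HahnSeries.coeff_single_mul, one_mul, sub_neg_eq_add, neg_add_cancel,
    show (0 : ℤ) = ((0 : ℕ) : ℤ) from rfl, HahnSeries.ofPowerSeries_apply_coeff,
    PowerSeries.coeff_map, PowerSeries.coeff_zero_eq_constantCoeff, ModularCurve.constantCoeff_jNum]
  simp

theorem local_coeff_jqModC_of_lt {k : ℤ} (hk : k < -1) : (ModularCurve.jqModC ℂ).coeff k = 0 := by
  rw [ModularCurve.jqModC, HahnSeries.coeff_single_mul, one_mul]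
  exact ModularCurve.ofPowerSeries_coeff_of_neg _ (by omega)

theorem local_order_qExpand_jq (N : ℕ) [NeZero N] :
    (ModularCurve.qExpand ℂ N (ModularCurve.jqModC ℂ)).order = -(N : ℤ) := by
  have hNpos : (0 : ℤ) < N := by exact_mod_cast Nat.pos_of_ne_zero (NeZero.ne N)
  refine local_order_eq ?_ ?_
  · rw [show -(N : ℤ) = (N : ℤ) * (-1) by ring, ModularCurve.qExpand_coeff_mul,
      local_coeff_jqModC_neg_one]
    exact one_ne_zero
  · intro k hk
    by_cases hd : (N : ℤ) ∣ k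
    · obtain ⟨k', rfl⟩ := hd
      rw [ModularCurve.qExpand_coeff_mul]
      apply local_coeff_jqModC_of_lt
      nlinarith
    · exact ModularCurve.qExpand_coeff_of_not_dvd N _ hd

theorem localPsiInf_order_perm (N : ℕ) [NeZero N] (x : Cosets N) (a : A1 N) :
    (localPsiInf N (permOf N ModularGroup.T x) a).order = (localPsiInf N x a).order := by
  rw [localPsiInf_apply, localPsiInf_apply]
  have h1 : permOf N ModularGroup.T x = ModularGroup.T • x := rfl
  have hfun : ((conjHom N (permOf N ModularGroup.T x) a : Hol) : ℍ → ℂ) =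
      ((compHom (ModularGroup.T ^ (-1 : ℤ)) (conjHom N x a) : Hol) : ℍ → ℂ) := by
    rw [h1, conjHom_smul, zpow_neg_one]
  have hmem : ((compHom (ModularGroup.T ^ (-1 : ℤ)) (conjHom N x a) : Hol) : ℍ → ℂ) ∈ MerInf N :=
    hfun ▸ conjHom_mem_MerInf N _ a
  rw [local_laurentHom_congr N _ hmem hfun]
  exact local_order_eq_of_coeff _ _ _ (fun k => Complex.exp_ne_zero _)
    (coeff_laurentHom_compHom_T N (conjHom N x a) (conjHom_mem_MerInf N x a) (-1) hmem)

theorem localPsiInf_order_dvd (N : ℕ) [NeZero N] (x : Cosets N) (w : ℕ)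
    (hw : (permOf N ModularGroup.T ^ w) x = x) (a : A1 N) :
    (N : ℤ) ∣ (w : ℤ) * (localPsiInf N x a).order := by
  by_cases ha : a = 0
  · subst ha
    simp
  have hL : localPsiInf N x a ≠ 0 := by
    intro h0
    exact ha (localPsiInf_injective N x (by rw [h0, map_zero]))
  have hstab := local_pow_mem_stab N ModularGroup.T x a w hw
  rw [mem_localStab] at hstab
  have hfun : ((compHom (ModularGroup.T ^ (w : ℤ)) (conjHom N x a) : Hol) : ℍ → ℂ) =
      ((conjHom N x a : Hol) : ℍ → ℂ) := by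
    rw [zpow_natCast, hstab]
  have hmem : ((compHom (ModularGroup.T ^ (w : ℤ)) (conjHom N x a) : Hol) : ℍ → ℂ) ∈ MerInf N :=
    hfun.symm ▸ conjHom_mem_MerInf N x a
  have hc := coeff_laurentHom_compHom_T N (conjHom N x a) (conjHom_mem_MerInf N x a) w hmem
    (localPsiInf N x a).order
  rw [local_laurentHom_congr N hmem (conjHom_mem_MerInf N x a) hfun, ← localPsiInf_apply] at hc
  have hne : (localPsiInf N x a).coeff (localPsiInf N x a).order ≠ 0 := fun h0 =>
    hL (HahnSeries.coeff_order_eq_zero.mp h0)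
  have hexp : Complex.exp (2 * Real.pi * Complex.I * ((w : ℤ) : ℂ) *
      ((localPsiInf N x a).order : ℂ) / N) = 1 := by
    have h4 : (1 : ℂ) * (localPsiInf N x a).coeff (localPsiInf N x a).order =
        Complex.exp (2 * Real.pi * Complex.I * ((w : ℤ) : ℂ) *
          ((localPsiInf N x a).order : ℂ) / N) *
          (localPsiInf N x a).coeff (localPsiInf N x a).order := by
      rw [one_mul]; exact hc
    exact (mul_right_cancel₀ hne h4).symm
  rw [Complex.exp_eq_one_iff] at hexp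
  obtain ⟨k, hk⟩ := hexp
  have hN : (N : ℂ) ≠ 0 := by exact_mod_cast NeZero.ne N
  have hpi : (2 * Real.pi * Complex.I : ℂ) ≠ 0 := Complex.two_pi_I_ne_zero
  have h2 : ((w : ℤ) : ℂ) * ((localPsiInf N x a).order : ℂ) = (N : ℂ) * k := by
    field_simp at hk
    have h3 : (2 * Real.pi * Complex.I : ℂ) * (((w : ℤ) : ℂ) * ((localPsiInf N x a).order : ℂ)) =
        (2 * Real.pi * Complex.I : ℂ) * ((N : ℂ) * k) := by
      linear_combination (2 * Real.pi * Complex.I : ℂ) * hk
    exact mul_left_cancel₀ hpi h3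
  refine ⟨k, ?_⟩
  exact_mod_cast h2

theorem preUnif_infty (N : ℕ) [NeZero N] :
    Nonempty (PreUnif N 0 (-(N : ℤ)) N (permOf N ModularGroup.T)) := by
  refine ⟨{
    Ψ := localPsiInf N
    inj_each := localPsiInf_injective N
    map_const := localPsiInf_const N
    map_j := fun i i' => by rw [localPsiInf_jA, localPsiInf_jA]
    inj := localPsiInf_index_injective N
    e0_pos := Nat.pos_of_ne_zero (NeZero.ne N)
    order_x := fun i => ?_
    order_perm := localPsiInf_order_perm N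
    order_dvd := fun i w hw a => localPsiInf_order_dvd N i w hw a }⟩
  rw [map_zero, sub_zero, localPsiInf_jA, local_order_qExpand_jq]

end Fermat.Agent.S24
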