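import Mathlib
import Fermat.Prelude.Def_AlgebraicCurve_CanonicalDivisor
import Fermat.Agent.S24.Differential

/-!
# Riemann–Hurwitz bookkeeping for a function field `F/K` and `x ∈ F` (piece (E3)+(RH) of S24)
-/

set_option autoImplicit false

namespace Fermat.Agent.S24

open AlgebraicCurve KaehlerDifferential

variable {K F : Type*} [Field K] [Field F] [Algebra K F]

namespace OrdAux

theorem surjective_of_deg_eq_one (v : Place K F) (h : v.deg = 1) :
    Function.Surjective (algebraMap K v.ResidueField) := by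
  have h1 : (⊥ : Subalgebra K v.ResidueField) = ⊤ := Subalgebra.bot_eq_top_of_finrank_eq_one h
  intro y
  have : y ∈ (⊥ : Subalgebra K v.ResidueField) := h1 ▸ Algebra.mem_top
  exact Algebra.mem_bot.mp this

theorem deg_eq_one_of_surjective (v : Place K F)
    (h : Function.Surjective (algebraMap K v.ResidueField)) : v.deg = 1 := by
  have hb : Function.Bijective (Algebra.linearMap K v.ResidueField) :=
    ⟨(algebraMap K v.ResidueField).injective, h⟩
  have := (LinearEquiv.ofBijective _ hb).finrank_eq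
  rw [Module.finrank_self] at this
  exact this.symm

variable {v : Place K F} (hres : Function.Surjective (algebraMap K v.ResidueField))

include hres

theorem exists_hom : ∃ φ : F →+* LaurentSeries K,
    (∀ a : K, φ (algebraMap K F a) = HahnSeries.C a) ∧ ∀ f : F, (φ f).order = v.ord f := by
  obtain ⟨φ, h1, h2⟩ := exists_formal_embedding v hres
  refine ⟨φ, h1, fun f => ?_⟩
  rcases eq_or_ne f 0 with rfl | hf
  · simp
  · exact h2 f hf

theorem ord_add_ge {f g : F} (h : f + g ≠ 0) : min (v.ord f) (v.ord g) ≤ v.ord (f + g) := by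
  obtain ⟨φ, -, h2⟩ := exists_hom hres
  rw [← h2, ← h2, ← h2, map_add]
  apply HahnSeries.min_order_le_order_add
  rw [← map_add]
  exact (map_ne_zero φ).mpr h

theorem ord_sub_ge {f g : F} (h : f - g ≠ 0) : min (v.ord f) (v.ord g) ≤ v.ord (f - g) := by
  obtain ⟨φ, -, h2⟩ := exists_hom hres
  rw [← h2, ← h2, ← h2, map_sub, sub_eq_add_neg, ← HahnSeries.order_neg (f := φ g)]
  apply HahnSeries.min_order_le_order_add
  rw [← sub_eq_add_neg, ← map_sub]
  exact (map_ne_zero φ).mpr h

theorem ord_algebraMap (c : K) : v.ord (algebraMap K F c) = 0 := by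
  obtain ⟨φ, h1, h2⟩ := exists_hom hres
  rw [← h2, h1, HahnSeries.order_C]

theorem exists_const {x : F} (hx : 0 ≤ v.ord x) (hxK : ∀ c : K, x ≠ algebraMap K F c) :
    ∃ c : K, 0 < v.ord (x - algebraMap K F c) := by
  obtain ⟨φ, h1, h2⟩ := exists_hom hres
  refine ⟨(φ x).coeff 0, ?_⟩
  have hne : φ (x - algebraMap K F ((φ x).coeff 0)) ≠ 0 :=
    (map_ne_zero φ).mpr (sub_ne_zero.mpr (hxK _))
  rw [← h2, ← Int.add_one_le_iff, zero_add, HahnSeries.le_order_iff_forall hne]
  intro j hj
  rw [map_sub, h1, HahnSeries.coeff_sub, HahnSeries.C_apply]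
  rcases eq_or_lt_of_le (show j ≤ 0 by omega) with rfl | hj0
  · simp
  · rw [HahnSeries.coeff_single_of_ne hj0.ne, sub_zero]
    exact HahnSeries.coeff_eq_zero_of_lt_order (by rw [h2]; omega)

end OrdAux

section

variable [CharZero K]

omit [CharZero K] in
theorem differentialCoeff_ne_zero (v : Place K F) [v.DCoordGenerates] {ω : Ω[F⁄K]} (hω : ω ≠ 0) :
    v.differentialCoeff ω ≠ 0 := by
  intro h
  have := v.differentialCoeff_smul_dCoord ω
  rw [h, zero_smul] at this
  exact hω this.symm

/-- **E3.** The degree of the divisor of a nonzero differential does not depend on it. -/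
theorem degree_canonicalDivisorOf_eq [HasCanonicalDivisor (K := K) (F := F)]
    [HasPrincipalDivisors K F]
    (hres : ∀ v : Place K F, Function.Surjective (algebraMap K v.ResidueField))
    (hspan : ∃ x : F, Submodule.span F {D K F x} = ⊤)
    {ω ω' : Ω[F⁄K]} (hω : ω ≠ 0) (hω' : ω' ≠ 0) :
    Divisor.degree (canonicalDivisorOf hω') = Divisor.degree (canonicalDivisorOf hω) := by
  have h1 : ω' ∈ Submodule.span F {ω} := (span_eq_top_of_ne_zero hω hspan) ▸ Submodule.mem_top
  obtain ⟨c, rfl⟩ := Submodule.mem_span_singleton.mp h1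
  have hc : c ≠ 0 := by
    rintro rfl
    exact hω' (zero_smul _ _)
  obtain ⟨Dc, hDc, hdeg⟩ := HasPrincipalDivisors.exists_divisor (K := K) c hc
  have : canonicalDivisorOf hω' = Dc + canonicalDivisorOf hω := by
    ext v
    have := dCoordGenerates v (hres v) hspan
    have : Nontrivial Ω[F⁄K] := ⟨⟨ω, 0, hω⟩⟩
    rw [Finsupp.add_apply, canonicalDivisorOf_apply, canonicalDivisorOf_apply, hDc,
      v.ordDifferential_smul hc (differentialCoeff_ne_zero v hω)]
  rw [this, map_add, hdeg, zero_add]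

omit [CharZero K] in
theorem degree_eq_sum_of_support_subset
    (hres : ∀ v : Place K F, Function.Surjective (algebraMap K v.ResidueField))
    (E : Divisor K F) (U : Finset (Place K F)) (hU : E.support ⊆ U) :
    Divisor.degree E = ∑ v ∈ U, E v := by
  unfold Divisor.degree
  rw [Finsupp.liftAddHom_apply, Finsupp.sum_of_support_subset E hU _ (fun i _ => by simp)]
  refine Finset.sum_congr rfl fun v _ => ?_
  simp [OrdAux.deg_eq_one_of_surjective v (hres v)]

/-- **Riemann–Hurwitz bookkeeping.** -/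
theorem degree_canonicalDivisorOf_D [HasCanonicalDivisor (K := K) (F := F)]
    (hres : ∀ v : Place K F, Function.Surjective (algebraMap K v.ResidueField))
    (x : F) (hspan : Submodule.span F {D K F x} = ⊤) (hx : D K F x ≠ 0) (n : ℤ)
    (Z : K → Finset (Place K F))
    (hZ : ∀ c v, v ∈ Z c ↔ 0 < v.ord (x - algebraMap K F c))
    (hZsum : ∀ c, ∑ v ∈ Z c, v.ord (x - algebraMap K F c) = n)
    (P : Finset (Place K F)) (hP : ∀ v, v ∈ P ↔ v.ord x < 0)
    (hPsum : ∑ v ∈ P, v.ord x = -n)
    (B : Finset K) (hunr : ∀ c, c ∉ B → ∀ v ∈ Z c, v.ord (x - algebraMap K F c) = 1) :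
    Divisor.degree (canonicalDivisorOf hx)
      = ∑ c ∈ B, (n - ((Z c).card : ℤ)) - n - (P.card : ℤ) := by
  classical
  have hxK : ∀ c : K, x ≠ algebraMap K F c := by
    rintro c rfl
    exact hx (Derivation.map_algebraMap _ c)
  have hDsub : ∀ c : K, D K F (x - algebraMap K F c) = D K F x := by
    intro c
    rw [map_sub, Derivation.map_algebraMap, sub_zero]
  have hval : ∀ c, ∀ v ∈ Z c,
      canonicalDivisorOf hx v = v.ord (x - algebraMap K F c) - 1 := by
    intro c v hv
    rw [canonicalDivisorOf_apply, ← hDsub c]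
    exact ordDifferential_D v (hres v) ⟨x, hspan⟩ _ ((hZ c v).mp hv).ne'
  have hvalP : ∀ v ∈ P, canonicalDivisorOf hx v = v.ord x - 1 := by
    intro v hv
    rw [canonicalDivisorOf_apply]
    exact ordDifferential_D v (hres v) ⟨x, hspan⟩ _ ((hP v).mp hv).ne
  have hsupp : (canonicalDivisorOf hx).support ⊆ P ∪ B.biUnion Z := by
    intro v hv
    by_contra hvU
    rw [Finset.mem_union, not_or, Finset.mem_biUnion] at hvU
    obtain ⟨h1, h2⟩ := hvU
    rw [hP, not_lt] at h1
    obtain ⟨c, hc⟩ := OrdAux.exists_const (hres v) h1 hxK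
    have hvZ : v ∈ Z c := (hZ c v).mpr hc
    have hcB : c ∉ B := fun hcB => h2 ⟨c, hcB, hvZ⟩
    rw [Finsupp.mem_support_iff, hval c v hvZ, hunr c hcB v hvZ] at hv
    exact hv (sub_self _)
  have hdisj1 : Disjoint P (B.biUnion Z) := by
    rw [Finset.disjoint_left]
    intro v hvP hvB
    rw [Finset.mem_biUnion] at hvB
    obtain ⟨c, -, hvZ⟩ := hvB
    rw [hP] at hvP
    rw [hZ] at hvZ
    have hx0 : (x - algebraMap K F c) + algebraMap K F c ≠ 0 := by
      rw [sub_add_cancel]
      intro h
      exact hxK 0 (by rw [h, map_zero])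
    have := OrdAux.ord_add_ge (hres v) hx0
    rw [sub_add_cancel, OrdAux.ord_algebraMap (hres v)] at this
    have h2 : (0 : ℤ) ≤ min (v.ord (x - algebraMap K F c)) 0 := le_min hvZ.le le_rfl
    omega
  have hdisj2 : (B : Set K).PairwiseDisjoint Z := by
    intro c _ c' _ hcc
    rw [Function.onFun, Finset.disjoint_left]
    intro v hv hv'
    rw [hZ] at hv hv'
    have hne : (x - algebraMap K F c') - (x - algebraMap K F c) ≠ 0 := by
      rw [sub_sub_sub_cancel_left, ← map_sub]
      exact (map_ne_zero _).mpr (sub_ne_zero.mpr hcc)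
    have := OrdAux.ord_sub_ge (hres v) hne
    rw [sub_sub_sub_cancel_left, ← map_sub, OrdAux.ord_algebraMap (hres v)] at this
    have h2 : (0 : ℤ) < min (v.ord (x - algebraMap K F c')) (v.ord (x - algebraMap K F c)) :=
      lt_min hv' hv
    omega
  rw [degree_eq_sum_of_support_subset hres _ _ hsupp, Finset.sum_union hdisj1,
    Finset.sum_biUnion hdisj2, Finset.sum_congr rfl hvalP]
  have h3 : ∀ c ∈ B, ∑ v ∈ Z c, canonicalDivisorOf hx v = n - ((Z c).card : ℤ) := by
    intro c _
    rw [Finset.sum_congr rfl (hval c), Finset.sum_sub_distrib, hZsum]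
    simp
  rw [Finset.sum_congr rfl h3, Finset.sum_sub_distrib, hPsum]
  simp
  ring

/-- The genus in terms of the ramification data of `x`. -/
theorem genus_eq_of_ramification [HasCanonicalDivisor (K := K) (F := F)]
    [HasPrincipalDivisors K F]
    (hres : ∀ v : Place K F, Function.Surjective (algebraMap K v.ResidueField))
    (x : F) (hspan : Submodule.span F {D K F x} = ⊤) (hx : D K F x ≠ 0) (n : ℤ)
    (Z : K → Finset (Place K F))
    (hZ : ∀ c v, v ∈ Z c ↔ 0 < v.ord (x - algebraMap K F c))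
    (hZsum : ∀ c, ∑ v ∈ Z c, v.ord (x - algebraMap K F c) = n)
    (P : Finset (Place K F)) (hP : ∀ v, v ∈ P ↔ v.ord x < 0)
    (hPsum : ∑ v ∈ P, v.ord x = -n)
    (B : Finset K) (hunr : ∀ c, c ∉ B → ∀ v ∈ Z c, v.ord (x - algebraMap K F c) = 1) :
    genus K F = (∑ c ∈ B, (n - ((Z c).card : ℤ)) - n - (P.card : ℤ) + 2).toNat / 2 := by
  have hex : ∃ ω : Ω[F⁄K], ω ≠ 0 := ⟨_, hx⟩
  unfold genus
  rw [dif_pos hex, degree_canonicalDivisorOf_eq hres ⟨x, hspan⟩ hx hex.choose_spec,
    degree_canonicalDivisorOf_D hres x hspan hx n Z hZ hZsum P hP hPsum B hunr]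

end

end Fermat.Agent.S24
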