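import Fermat.Agent.S24.Count
import Fermat.Agent.S24.RiemannHurwitz

set_option autoImplicit false

namespace Fermat.Agent.S24

open AlgebraicCurve IntermediateField KaehlerDifferential

variable {K F : Type} [Field K] [Field F] [Algebra K F]

theorem adjoin_sub_algebraMap (x : F) (c : K) : K⟮x - algebraMap K F c⟯ = K⟮x⟯ := by
  apply le_antisymm
  · rw [adjoin_simple_le_iff]
    exact sub_mem (mem_adjoin_simple_self K x) (IntermediateField.algebraMap_mem _ c)
  · rw [adjoin_simple_le_iff]
    have h : x = (x - algebraMap K F c) + algebraMap K F c := by ring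
    have h2 : (x - algebraMap K F c) + algebraMap K F c ∈ K⟮x - algebraMap K F c⟯ :=
      add_mem (mem_adjoin_simple_self K _) (IntermediateField.algebraMap_mem _ c)
    rwa [← h] at h2

theorem adjoin_inv (x : F) : K⟮x⁻¹⟯ = K⟮x⟯ := by
  apply le_antisymm
  · rw [adjoin_simple_le_iff]
    exact inv_mem (mem_adjoin_simple_self K x)
  · rw [adjoin_simple_le_iff]
    have h2 : (x⁻¹)⁻¹ ∈ K⟮x⁻¹⟯ := inv_mem (mem_adjoin_simple_self K _)
    rwa [inv_inv] at h2

theorem finrank_eq_of_eq {E₁ E₂ : IntermediateField K F} (h : E₁ = E₂) :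
    Module.finrank E₁ F = Module.finrank E₂ F := by
  subst h; rfl

theorem finiteDimensional_of_eq {E₁ E₂ : IntermediateField K F} (h : E₁ = E₂)
    [FiniteDimensional E₂ F] : FiniteDimensional E₁ F := by
  subst h; infer_instance

theorem transcendental_sub_algebraMap {x : F} (hx : Transcendental K x) (c : K) :
    Transcendental K (x - algebraMap K F c) := by
  intro h
  apply hx
  have h2 : x = (x - algebraMap K F c) + algebraMap K F c := by ring
  rw [h2]
  exact h.add (isAlgebraic_algebraMap c)

theorem transcendental_inv {x : F} (hx : Transcendental K x) : Transcendental K x⁻¹ := by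
  intro h
  apply hx
  have := h.inv
  rwa [inv_inv] at this

theorem orbitCount_one (X : Type) : orbitCount (1 : Equiv.Perm X) = Nat.card X := by
  unfold orbitCount
  refine Nat.card_congr (Equiv.symm (Equiv.ofBijective (fun i => Quotient.mk'' i) ⟨?_, ?_⟩))
  · intro a b hab
    have := Quotient.exact' hab
    obtain ⟨⟨σ, n, hn⟩, h⟩ := this
    have hσ : σ = 1 := by rw [← hn]; simp
    subst hσ
    exact h.symm
  · intro q
    induction q using Quotient.inductionOn' with
    | h i => exact ⟨i, rfl⟩

/-- PIECE R (assembly of the genus from uniformisation data). -/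
theorem genus_eq_of_unifData [IsAlgClosed K] [CharZero K] [HasCanonicalDivisor (K := K) (F := F)]
    {X : Type} [Finite X] [Nonempty X] (j : F)
    (hj : Transcendental K j) [FiniteDimensional K⟮j⟯ F]
    (hn : Nat.card X = Module.finrank K⟮j⟯ F)
    (gS gU gT : Equiv.Perm X) (N : ℕ)
    (U0 : UnifData K F X j 3 gU)
    (U1 : UnifData K F X (j - algebraMap K F 1728) 2 gS)
    (Uinf : UnifData K F X j⁻¹ N gT)
    (Ugen : ∀ c : K, c ≠ 0 → c ≠ 1728 → Nonempty (UnifData K F X (j - algebraMap K F c) 1 1)) :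
    genus K F = ((Nat.card X : ℤ) - orbitCount gS - orbitCount gU - orbitCount gT + 2).toNat / 2 := by
  classical
  haveI := hasPrincipalDivisors (K := K) j hj
  have hres : ∀ v : Place K F, Function.Surjective (algebraMap K v.ResidueField) := fun v =>
    OrdAux.surjective_of_deg_eq_one v (place_deg_eq_one j hj v)
  have hspan : Submodule.span F {D K F j} = ⊤ := span_D_eq_top_of_isAlgebraic j
  have hD : D K F j ≠ 0 := by
    obtain ⟨i⟩ := ‹Nonempty X›
    refine D_ne_zero_of_hom (U0.φ i) (fun a => ⟨_, U0.map_const i a⟩) ?_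
    rw [U0.order_x]; norm_num
  -- zeros of `j - c`
  have hfd : ∀ c : K, FiniteDimensional K⟮j - algebraMap K F c⟯ F := fun c =>
    finiteDimensional_of_eq (adjoin_sub_algebraMap j c)
  have hfr : ∀ c : K, Nat.card X = Module.finrank K⟮j - algebraMap K F c⟯ F := fun c => by
    rw [hn, finrank_eq_of_eq (adjoin_sub_algebraMap j c)]
  have hex : ∀ c : K, ∃ Z : Finset (Place K F), (∀ v, v ∈ Z ↔ 0 < v.ord (j - algebraMap K F c)) ∧
      ∑ v ∈ Z, v.ord (j - algebraMap K F c) = (Nat.card X : ℤ) := by
    intro c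
    haveI := hfd c
    obtain ⟨Z, h1, h2⟩ := exists_zeros_finset (K := K) _ (transcendental_sub_algebraMap hj c)
    exact ⟨Z, h1, by rw [h2, hfr c]⟩
  choose Z hZ hZsum using hex
  -- poles of `j`
  haveI hfdi : FiniteDimensional K⟮j⁻¹⟯ F := finiteDimensional_of_eq (adjoin_inv j)
  have hfri : Nat.card X = Module.finrank K⟮j⁻¹⟯ F := by
    rw [hn, finrank_eq_of_eq (adjoin_inv j)]
  obtain ⟨P, hP, hPsum⟩ := exists_zeros_finset (K := K) _ (transcendental_inv hj)
  have hcardP : P.card = orbitCount gT := Uinf.card_zeros (transcendental_inv hj) hfri P hP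
  have hcard0 : (Z 0).card = orbitCount gU := by
    refine U0.card_zeros hj hn (Z 0) fun v => ?_
    rw [hZ]; simp
  have hcard1 : (Z 1728).card = orbitCount gS := by
    haveI := hfd 1728
    exact U1.card_zeros (transcendental_sub_algebraMap hj _) (hfr _) (Z 1728) (hZ 1728)
  have hunr : ∀ c, c ∉ ({0, 1728} : Finset K) → ∀ v ∈ Z c, v.ord (j - algebraMap K F c) = 1 := by
    intro c hc
    simp only [Finset.mem_insert, Finset.mem_singleton, not_or] at hc
    obtain ⟨U⟩ := Ugen c hc.1 hc.2
    haveI := hfd c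
    have hcard : (Z c).card = Nat.card X := by
      rw [U.card_zeros (transcendental_sub_algebraMap hj _) (hfr _) (Z c) (hZ c), orbitCount_one]
    have hle : ∀ v ∈ Z c, (1 : ℤ) ≤ v.ord (j - algebraMap K F c) := fun v hv => (hZ c v).1 hv
    have hsum : ∑ v ∈ Z c, (1 : ℤ) = ∑ v ∈ Z c, v.ord (j - algebraMap K F c) := by
      rw [hZsum c, ← hcard]; simp
    intro v hv
    exact ((Finset.sum_eq_sum_iff_of_le hle).1 hsum v hv).symm
  have key := genus_eq_of_ramification (K := K) (F := F) hres j hspan hD (Nat.card X : ℤ) Z hZ hZsum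
    P (fun v => by rw [hP, v.ord_inv]; omega)
    (by
      have : ∑ v ∈ P, v.ord j = - ∑ v ∈ P, v.ord j⁻¹ := by
        rw [← Finset.sum_neg_distrib]
        exact Finset.sum_congr rfl fun v _ => by rw [v.ord_inv]; ring
      rw [this, hPsum, hfri])
    {0, 1728} hunr
  rw [key]
  have h01 : (0 : K) ≠ 1728 := by norm_num
  rw [Finset.sum_pair h01, hcard0, hcard1, hcardP]
  congr 2
  ring

end Fermat.Agent.S24
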