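import Fermat.Agent.S24.Ev

set_option autoImplicit false

namespace Fermat.Agent.S24

open UpperHalfPlane Function
open scoped Manifold MatrixGroups

local notation "𝕢" => Periodic.qParam

/-- The matrix identity `diag(d,1) γ = δ [[a,b],[0,e]]` in terms of the action on `ℍ`. -/
theorem Conj.mulPos_smul_eq (d : ℕ) [NeZero d] (γ δ : SL(2, ℤ)) (a e : ℕ) (b : ℤ) (he : 0 < e)
    (h00 : (d : ℤ) * γ 0 0 = δ 0 0 * a) (h01 : (d : ℤ) * γ 0 1 = δ 0 0 * b + δ 0 1 * e)
    (h10 : γ 1 0 = δ 1 0 * a) (h11 : γ 1 1 = δ 1 0 * b + δ 1 1 * e)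
    (τ τ' : ℍ) (hτ : (τ' : ℂ) = ((a : ℂ) * τ + b) / e) : mulPos d (γ • τ) = δ • τ' := by
  apply UpperHalfPlane.ext
  rw [coe_mulPos, coe_specialLinearGroup_apply, coe_specialLinearGroup_apply, hτ]
  have heC : (e : ℂ) ≠ 0 := by exact_mod_cast he.ne'
  simp only [algebraMap_int_eq, Int.coe_castRingHom, Complex.ofReal_intCast]
  have c00 : (d : ℂ) * ((γ 0 0 : ℤ) : ℂ) = ((δ 0 0 : ℤ) : ℂ) * a := by exact_mod_cast h00
  have c01 : (d : ℂ) * ((γ 0 1 : ℤ) : ℂ) = ((δ 0 0 : ℤ) : ℂ) * b + ((δ 0 1 : ℤ) : ℂ) * e := by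
    exact_mod_cast h01
  have c10 : ((γ 1 0 : ℤ) : ℂ) = ((δ 1 0 : ℤ) : ℂ) * a := by exact_mod_cast h10
  have c11 : ((γ 1 1 : ℤ) : ℂ) = ((δ 1 0 : ℤ) : ℂ) * b + ((δ 1 1 : ℤ) : ℂ) * e := by
    exact_mod_cast h11
  have hnum : ((δ 0 0 : ℤ) : ℂ) * (((a : ℂ) * τ + b) / e) + ((δ 0 1 : ℤ) : ℂ) =
      ((d : ℂ) * (((γ 0 0 : ℤ) : ℂ) * τ + ((γ 0 1 : ℤ) : ℂ))) / e := by
    field_simp
    linear_combination (-(τ : ℂ)) * c00 - c01
  have hden : ((δ 1 0 : ℤ) : ℂ) * (((a : ℂ) * τ + b) / e) + ((δ 1 1 : ℤ) : ℂ) =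
      (((γ 1 0 : ℤ) : ℂ) * τ + ((γ 1 1 : ℤ) : ℂ)) / e := by
    field_simp
    linear_combination (-(τ : ℂ)) * c10 - c11
  rw [hnum, hden, div_div_div_cancel_right₀ heC, mul_div_assoc]

/-- PIECE W1 (Hermite normal form, in terms of the action on `ℍ`). For `d ≥ 1`, `γ ∈ SL₂(ℤ)` there
are `δ ∈ SL₂(ℤ)` and integers `a, e > 0`, `b` with `a e = d` and `d (γ τ) = δ ((a τ + b)/e)`;
moreover if `e = 1` then `γ ∈ Γ₀(d)`. -/
theorem exists_hermite (d : ℕ) [NeZero d] (γ : SL(2, ℤ)) :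
    ∃ (δ : SL(2, ℤ)) (a e : ℕ) (b : ℤ), 0 < a ∧ 0 < e ∧ a * e = d ∧
      (e = 1 → γ ∈ CongruenceSubgroup.Gamma0 d) ∧
      ∀ (τ τ' : ℍ), (τ' : ℂ) = ((a : ℂ) * τ + b) / e → mulPos d (γ • τ) = δ • τ' := by
  have hd : 0 < d := Nat.pos_of_ne_zero (NeZero.ne d)
  set p := γ 0 0 with hp
  set q := γ 0 1 with hq
  set r := γ 1 0 with hr
  set s := γ 1 1 with hs
  have hdet : p * s - q * r = 1 := by
    have := γ.det_coe
    rw [Matrix.det_fin_two] at this
    exact this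
  -- `a = gcd(d, r)`
  set a : ℕ := Int.gcd d r with ha
  have ha_pos : 0 < a := Int.gcd_pos_of_ne_zero_left _ (by exact_mod_cast hd.ne')
  obtain ⟨e', he'⟩ : (a : ℤ) ∣ (d : ℤ) := Int.gcd_dvd_left _ _
  obtain ⟨r', hr'⟩ : (a : ℤ) ∣ r := Int.gcd_dvd_right _ _
  have he'_pos : 0 < e' := by
    have h1 : (0 : ℤ) < a * e' := by rw [← he']; exact_mod_cast hd
    exact (pos_iff_pos_of_mul_pos h1).mp (by exact_mod_cast ha_pos)
  obtain ⟨e, rfl⟩ : ∃ e : ℕ, e' = e := ⟨e'.toNat, (Int.toNat_of_nonneg he'_pos.le).symm⟩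
  have he_pos : 0 < e := by exact_mod_cast he'_pos
  have hcop : IsCoprime r' (e : ℤ) := by
    have h1 : Int.gcd (d : ℤ) r = a := rfl
    have h2 := Int.isCoprime_iff_gcd_eq_one.mpr
      (Int.gcd_div_gcd_div_gcd (i := (d : ℤ)) (j := r) (by rw [h1]; exact ha_pos))
    rw [h1] at h2
    have haZ : (a : ℤ) ≠ 0 := by exact_mod_cast ha_pos.ne'
    rw [he', hr', Int.mul_ediv_cancel_left _ haZ, Int.mul_ediv_cancel_left _ haZ] at h2
    exact h2.symm
  obtain ⟨u, v, huv⟩ := hcop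
  -- `u * r' + v * e = 1`
  refine ⟨⟨!![p * e, q * a - p * (s * u); r', s * v], ?_⟩, a, e, s * u, ha_pos, he_pos, ?_, ?_, ?_⟩
  · rw [Matrix.det_fin_two_of]
    have : q * r = q * (a * r') := by rw [← hr']
    linear_combination (p * s) * huv + hdet + this
  · exact_mod_cast he'.symm
  · intro he1
    rw [CongruenceSubgroup.Gamma0_mem]
    rw [he1] at he'
    rw [← hr, hr', (ZMod.intCast_zmod_eq_zero_iff_dvd _ _)]
    rw [he']
    simp
  · intro τ τ' hτ
    refine Conj.mulPos_smul_eq d γ _ a e (s * u) he_pos ?_ ?_ ?_ ?_ τ τ' hτ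
    · show (d : ℤ) * p = p * e * a
      rw [he']; ring
    · show (d : ℤ) * q = p * e * (s * u) + (q * a - p * (s * u)) * e
      rw [he']; ring
    · show r = r' * a
      rw [hr']; ring
    · show s = r' * (s * u) + s * v * e
      linear_combination (-s) * huv

/-- PIECE W2. -/
theorem jdfun_smul_of_mem_Gamma0 (N d : ℕ) [NeZero d] (hd : d ∣ N) (γ : SL(2, ℤ))
    (hγ : γ ∈ CongruenceSubgroup.Gamma0 N) (τ : ℍ) : jdfun d (γ • τ) = jdfun d τ := by
  rw [CongruenceSubgroup.Gamma0_mem, ZMod.intCast_zmod_eq_zero_iff_dvd] at hγ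
  obtain ⟨r', hr'⟩ : (d : ℤ) ∣ γ 1 0 := (Int.natCast_dvd_natCast.mpr hd).trans hγ
  have hdet : γ 0 0 * γ 1 1 - γ 0 1 * γ 1 0 = 1 := by
    have := γ.det_coe
    rw [Matrix.det_fin_two] at this
    exact this
  have hdet' : (!![γ 0 0, d * γ 0 1; r', γ 1 1] : Matrix (Fin 2) (Fin 2) ℤ).det = 1 := by
    rw [Matrix.det_fin_two_of]
    rw [hr'] at hdet
    linear_combination hdet
  let δ : SL(2, ℤ) := ⟨!![γ 0 0, d * γ 0 1; r', γ 1 1], hdet'⟩
  have key : mulPos d (γ • τ) = δ • mulPos d τ := by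
    refine Conj.mulPos_smul_eq d γ δ d 1 0 one_pos ?_ ?_ ?_ ?_ τ (mulPos d τ) (by simp)
    · show (d : ℤ) * γ 0 0 = γ 0 0 * d
      ring
    · show (d : ℤ) * γ 0 1 = γ 0 0 * 0 + d * γ 0 1 * (1 : ℕ)
      simp
    · show γ 1 0 = r' * d
      rw [hr']; ring
    · show γ 1 1 = r' * 0 + γ 1 1 * (1 : ℕ)
      simp
  rw [jdfun, key, jfun_smul, jdfun]

theorem compHom_evA_of_mem_Gamma0 (N : ℕ) [NeZero N] (γ : SL(2, ℤ))
    (hγ : γ ∈ CongruenceSubgroup.Gamma0 N) (a : A1 N) : compHom γ (evA N a) = evA N a := by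
  induction a using A1_induction with
  | hgen d _ hd =>
    ext τ
    rw [compHom_apply, evA_jdA, evA_jdA, jdfun_smul_of_mem_Gamma0 N d hd γ hγ]
  | hconst c => rw [evA_algebraMap, compHom_constHol]
  | hadd a b ha hb => rw [map_add, map_add, ha, hb]
  | hmul a b ha hb => rw [map_mul, map_mul, ha, hb]

/-- The point `(a τ + b) / e` of the upper half plane. -/
noncomputable def Conj.affPt (a e : ℕ) (b : ℤ) (ha : 0 < a) (he : 0 < e) (τ : ℍ) : ℍ :=
  ⟨((a : ℂ) * τ + b) / e, by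
    have h1 : (((a : ℂ) * τ + b) / e).im = a * τ.im / e := by
      simp [Complex.div_natCast_im]
    rw [h1]
    have := τ.im_pos
    positivity⟩

theorem Conj.coe_affPt (a e : ℕ) (b : ℤ) (ha : 0 < a) (he : 0 < e) (τ : ℍ) :
    ((Conj.affPt a e b ha he τ : ℍ) : ℂ) = ((a : ℂ) * τ + b) / e := rfl

theorem Conj.im_affPt (a e : ℕ) (b : ℤ) (ha : 0 < a) (he : 0 < e) (τ : ℍ) :
    (Conj.affPt a e b ha he τ).im = a / e * τ.im := by
  have h1 : (((a : ℂ) * τ + b) / e).im = a * τ.im / e := by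
    simp [Complex.div_natCast_im]
  show (((a : ℂ) * τ + b) / e).im = _
  rw [h1]; ring

theorem Conj.tendsto_affPt (a e : ℕ) (b : ℤ) (ha : 0 < a) (he : 0 < e) :
    Filter.Tendsto (Conj.affPt a e b ha he) atImInfty atImInfty := by
  rw [atImInfty, Filter.tendsto_comap_iff]
  have h1 : (UpperHalfPlane.im ∘ Conj.affPt a e b ha he) = fun τ : ℍ => (a / e : ℝ) * τ.im := by
    funext τ
    exact Conj.im_affPt a e b ha he τ
  rw [h1]
  exact Filter.Tendsto.const_mul_atTop (by positivity) Filter.tendsto_comap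

theorem Conj.tendsto_jfun_affPt (a e : ℕ) (b : ℤ) (ha : 0 < a) (he : 0 < e) :
    Filter.Tendsto (fun τ : ℍ => jfun (Conj.affPt a e b ha he τ) * 𝕢 1 (Conj.affPt a e b ha he τ))
      atImInfty (nhds 1) :=
  tendsto_jfun_mul_q.comp (Conj.tendsto_affPt a e b ha he)

theorem Conj.mulPos_eq_affPt (d : ℕ) [NeZero d] (τ : ℍ) :
    mulPos d τ = Conj.affPt d 1 0 (Nat.pos_of_ne_zero (NeZero.ne d)) one_pos τ := by
  apply UpperHalfPlane.ext
  rw [coe_mulPos, Conj.coe_affPt]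
  simp

/-- PIECE W3. If `j_N ∘ γ = j_N` then `γ ∈ Γ₀(N)`. -/
theorem mem_Gamma0_of_jdfun_smul (N : ℕ) [NeZero N] (γ : SL(2, ℤ))
    (h : ∀ τ : ℍ, jdfun N (γ • τ) = jdfun N τ) : γ ∈ CongruenceSubgroup.Gamma0 N := by
  obtain ⟨δ, a, e, b, ha, he, hae, he1, hact⟩ := exists_hermite N γ
  by_contra hγ
  have he2 : 2 ≤ e := by
    rcases Nat.lt_or_ge e 2 with h2 | h2
    · exact absurd (he1 (by omega)) hγ
    · exact h2
  have hN : 0 < N := Nat.pos_of_ne_zero (NeZero.ne N)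
  -- the two functions agree
  have hj : ∀ τ : ℍ, jfun (Conj.affPt a e b ha he τ) = jfun (Conj.affPt N 1 0 hN one_pos τ) := by
    intro τ
    have h1 := hact τ (Conj.affPt a e b ha he τ) rfl
    have h2 := h τ
    rw [jdfun, h1, jfun_smul, jdfun, Conj.mulPos_eq_affPt] at h2
    exact h2
  have hF := Conj.tendsto_jfun_affPt a e b ha he
  have hG := Conj.tendsto_jfun_affPt N 1 0 hN one_pos
  -- the ratio of the `q`-parameters tends to zero
  have hR : Filter.Tendsto (fun τ : ℍ => 𝕢 1 (Conj.affPt N 1 0 hN one_pos τ) /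
      𝕢 1 (Conj.affPt a e b ha he τ)) atImInfty (nhds 0) := by
    rw [tendsto_zero_iff_norm_tendsto_zero]
    have hc : (0 : ℝ) < 2 * Real.pi * ((N : ℝ) - a / e) := by
      have h1 : (a : ℝ) / e < N := by
        have h2 : (N : ℝ) = a * e := by exact_mod_cast hae.symm
        have ha' : (0 : ℝ) < a := by exact_mod_cast ha
        have he' : (2 : ℝ) ≤ e := by exact_mod_cast he2
        rw [h2, div_lt_iff₀ (by linarith)]
        nlinarith
      have := Real.pi_pos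
      have h3 : (0 : ℝ) < (N : ℝ) - a / e := by linarith
      positivity
    have hnorm : (fun τ : ℍ => ‖𝕢 1 (Conj.affPt N 1 0 hN one_pos τ) /
        𝕢 1 (Conj.affPt a e b ha he τ)‖) =
        fun τ : ℍ => Real.exp (-(2 * Real.pi * ((N : ℝ) - a / e) * τ.im)) := by
      funext τ
      rw [norm_div, Periodic.norm_qParam, Periodic.norm_qParam, ← Real.exp_sub]
      congr 1
      have e1 : ((Conj.affPt N 1 0 hN one_pos τ : ℍ) : ℂ).im = (N : ℝ) / (1 : ℕ) * τ.im :=
        Conj.im_affPt N 1 0 hN one_pos τ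
      have e2 : ((Conj.affPt a e b ha he τ : ℍ) : ℂ).im = (a : ℝ) / e * τ.im :=
        Conj.im_affPt a e b ha he τ
      rw [e1, e2]
      push_cast
      ring
    rw [hnorm]
    refine Real.tendsto_exp_atBot.comp (Filter.tendsto_neg_atTop_atBot.comp ?_)
    exact Filter.Tendsto.const_mul_atTop hc Filter.tendsto_comap
  have hFR := hF.mul hR
  rw [mul_zero] at hFR
  have heq : (fun τ : ℍ => jfun (Conj.affPt a e b ha he τ) * 𝕢 1 (Conj.affPt a e b ha he τ) *
      (𝕢 1 (Conj.affPt N 1 0 hN one_pos τ) / 𝕢 1 (Conj.affPt a e b ha he τ))) =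
      fun τ : ℍ => jfun (Conj.affPt N 1 0 hN one_pos τ) * 𝕢 1 (Conj.affPt N 1 0 hN one_pos τ) := by
    funext τ
    rw [hj τ]
    have := Periodic.qParam_ne_zero (h := 1) ((Conj.affPt a e b ha he τ : ℍ) : ℂ)
    field_simp
  rw [heq] at hFR
  exact zero_ne_one (tendsto_nhds_unique hFR hG)

/-- The conjugate embeddings `a ↦ ev(a) ∘ g⁻¹` indexed by cosets `gΓ₀(N)`. -/
noncomputable def conjHom (N : ℕ) [NeZero N] (x : Cosets N) : A1 N →+* Hol :=
  (compHom (x.out)⁻¹).comp (evA N)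

/-- PIECE W4. -/
theorem conjHom_mk (N : ℕ) [NeZero N] (γ : SL(2, ℤ)) (a : A1 N) :
    conjHom N (QuotientGroup.mk γ) a = compHom γ⁻¹ (evA N a) := by
  obtain ⟨h, hh⟩ := QuotientGroup.mk_out_eq_mul (CongruenceSubgroup.Gamma0 N) γ
  show compHom ((QuotientGroup.mk γ : Cosets N).out)⁻¹ (evA N a) = _
  rw [hh, mul_inv_rev, compHom_mul,
    compHom_evA_of_mem_Gamma0 N _ ((CongruenceSubgroup.Gamma0 N).inv_mem h.2)]

theorem conjHom_smul (N : ℕ) [NeZero N] (γ : SL(2, ℤ)) (x : Cosets N) (a : A1 N) :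
    conjHom N (γ • x) a = compHom γ⁻¹ (conjHom N x a) := by
  induction x using QuotientGroup.induction_on with
  | H g =>
    have h1 : γ • (QuotientGroup.mk g : Cosets N) = QuotientGroup.mk (γ * g) := rfl
    rw [h1, conjHom_mk, conjHom_mk, mul_inv_rev, compHom_mul]

theorem Conj.compHom_injective (γ : SL(2, ℤ)) : Function.Injective (compHom γ) := by
  intro f g hfg
  have h1 := congrArg (compHom γ⁻¹) hfg
  rwa [← compHom_mul, ← compHom_mul, mul_inv_cancel, compHom_one, compHom_one] at h1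

theorem conjHom_injective (N : ℕ) [NeZero N] (x : Cosets N) : Function.Injective (conjHom N x) :=
  (Conj.compHom_injective _).comp (evA_injective N)

/-- PIECE W5. -/
theorem conjHom_index_injective (N : ℕ) [NeZero N] : Function.Injective (conjHom N) := by
  intro x y hxy
  induction x using QuotientGroup.induction_on with
  | H g =>
  induction y using QuotientGroup.induction_on with
  | H g' =>
    rw [QuotientGroup.eq]
    apply mem_Gamma0_of_jdfun_smul
    intro τ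
    have h1 := congrArg (fun F : A1 N →+* Hol => ((F (jdA N N dvd_rfl) : Hol) : ℍ → ℂ) (g' • τ)) hxy
    simp only [conjHom_mk, compHom_apply, evA_jdA] at h1
    rw [inv_smul_smul, ← mul_smul] at h1
    exact h1

theorem conjHom_algebraMap (N : ℕ) [NeZero N] (x : Cosets N) (c : Kbar) :
    conjHom N x (algebraMap Kbar (A1 N) c) = constHol (iotaC c) := by
  show compHom _ (evA N _) = _
  rw [evA_algebraMap, compHom_constHol]

theorem conjHom_jA (N : ℕ) [NeZero N] (x : Cosets N) : conjHom N x (jA N) = jHol := by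
  show compHom _ (evA N _) = _
  rw [evA_jA, compHom_jHol]

theorem Conj.periodic_comp_ofComplex {f : ℍ → ℂ} (h : ℝ) (hf : ∀ τ : ℍ, f (h +ᵥ τ) = f τ) :
    Periodic (f ∘ ofComplex) (h : ℂ) := by
  intro w
  by_cases hw : 0 < Complex.im w
  · have h2 : 0 < Complex.im (w + h) := by simp [hw]
    simp only [comp_apply, ofComplex_apply_of_im_pos h2, ofComplex_apply_of_im_pos hw]
    rw [← hf ⟨w, hw⟩]
    congr 1
    ext
    simp [add_comm]
  · have hw' : Complex.im w ≤ 0 := not_lt.mp hw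
    have h2 : Complex.im (w + h) ≤ 0 := by simpa using hw'
    simp [ofComplex_apply_of_im_nonpos h2, ofComplex_apply_of_im_nonpos hw']

theorem Conj.constHol_mem_MerInf (N : ℕ) (c : ℂ) : ((constHol c : Hol) : ℍ → ℂ) ∈ MerInf N := by
  refine mem_MerInf.mpr ⟨(constHol c).2, fun w => rfl, 0, ?_⟩
  simp only [pow_zero, mul_one]
  exact Filter.const_boundedAtFilter _ c

/-- `τ ↦ j((a τ + b)/e)` is `N`-periodic and meromorphic at `i∞` if `e ∣ N`. -/
theorem Conj.jfun_affPt_mem_MerInf (N : ℕ) [NeZero N] (a e : ℕ) (b : ℤ) (ha : 0 < a) (he : 0 < e)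
    (heN : e ∣ N) (hmd : MDiff (fun τ : ℍ => jfun (Conj.affPt a e b ha he τ))) :
    (fun τ : ℍ => jfun (Conj.affPt a e b ha he τ)) ∈ MerInf N := by
  obtain ⟨n, hn⟩ := heN
  have heC : (e : ℂ) ≠ 0 := by exact_mod_cast he.ne'
  have hNC : (N : ℂ) ≠ 0 := by exact_mod_cast NeZero.ne N
  refine mem_MerInf.mpr ⟨hmd, Conj.periodic_comp_ofComplex (N : ℝ) fun τ => ?_, a * n, ?_⟩
  · have h1 : Conj.affPt a e b ha he ((N : ℝ) +ᵥ τ) =
        ModularGroup.T ^ ((a * n : ℕ) : ℤ) • Conj.affPt a e b ha he τ := by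
      rw [modular_T_zpow_smul]
      apply UpperHalfPlane.ext
      rw [coe_vadd, Conj.coe_affPt, Conj.coe_affPt, coe_vadd, hn]
      push_cast
      field_simp
      ring
    show jfun _ = jfun _
    rw [h1, jfun_smul]
  · have h1 : (fun τ : ℍ => jfun (Conj.affPt a e b ha he τ) * 𝕢 (N : ℝ) τ ^ (a * n)) =
        fun τ : ℍ => (jfun (Conj.affPt a e b ha he τ) * 𝕢 1 (Conj.affPt a e b ha he τ)) *
          Complex.exp (-(2 * Real.pi * Complex.I * b / e)) := by
      funext τ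
      rw [mul_assoc]
      congr 1
      rw [Periodic.qParam, Periodic.qParam, ← Complex.exp_nat_mul, ← Complex.exp_add,
        Conj.coe_affPt]
      congr 1
      rw [hn]
      push_cast
      have hnC : (n : ℂ) ≠ 0 := by
        intro h0
        apply hNC
        rw [hn]
        push_cast
        rw [h0, mul_zero]
      field_simp
      ring
    rw [h1]
    exact Filter.BoundedAtFilter.mul (l := atImInfty)
      ((Conj.tendsto_jfun_affPt a e b ha he).isBigO_one ℝ)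
      (Filter.const_boundedAtFilter _ (Complex.exp (-(2 * Real.pi * Complex.I * b / e))))

/-- PIECE W6. The conjugates are `N`-periodic and meromorphic at `i∞`. -/
theorem conjHom_mem_MerInf (N : ℕ) [NeZero N] (x : Cosets N) (a : A1 N) :
    ((conjHom N x a : Hol) : ℍ → ℂ) ∈ MerInf N := by
  induction a using A1_induction with
  | hgen d _ hd =>
    obtain ⟨δ, a, e, b, ha, he, hae, -, hact⟩ := exists_hermite d (x.out)⁻¹
    have h1 : ((conjHom N x (jdA N d hd) : Hol) : ℍ → ℂ) =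
        fun τ : ℍ => jfun (Conj.affPt a e b ha he τ) := by
      funext τ
      show ((compHom _ (evA N _) : Hol) : ℍ → ℂ) τ = _
      rw [compHom_apply, evA_jdA, jdfun, hact τ (Conj.affPt a e b ha he τ) rfl, jfun_smul]
    have h2 : MDiff (fun τ : ℍ => jfun (Conj.affPt a e b ha he τ)) := by
      rw [← h1]
      exact (conjHom N x (jdA N d hd)).2
    rw [h1]
    exact Conj.jfun_affPt_mem_MerInf N a e b ha he ((Dvd.intro_left a hae).trans hd) h2
  | hconst c =>
    rw [conjHom_algebraMap]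
    exact Conj.constHol_mem_MerInf N _
  | hadd a b ha hb =>
    rw [map_add]
    exact (MerInf N).add_mem ha hb
  | hmul a b ha hb =>
    rw [map_mul]
    exact (MerInf N).mul_mem ha hb

end Fermat.Agent.S24
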