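import Fermat.Agent.S24.Basic

set_option autoImplicit false

namespace Fermat.Agent.S24

open UpperHalfPlane Function
open scoped Manifold MatrixGroups

local notation "𝕢" => Periodic.qParam

/-- The ring of holomorphic functions on the upper half plane. -/
def Hol : Subring (ℍ → ℂ) where
  carrier := {f | MDiff f}
  mul_mem' := fun hf hg => hf.mul hg
  one_mem' := mdifferentiable_const
  add_mem' := fun hf hg => hf.add hg
  zero_mem' := mdifferentiable_const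
  neg_mem' := fun hf => hf.neg

theorem mem_Hol {f : ℍ → ℂ} : f ∈ Hol ↔ MDiff f := Iff.rfl

/-- Constant functions. -/
def constHol : ℂ →+* Hol where
  toFun c := ⟨fun _ => c, mdifferentiable_const⟩
  map_one' := rfl
  map_mul' _ _ := rfl
  map_zero' := rfl
  map_add' _ _ := rfl

@[simp] theorem constHol_apply (c : ℂ) (τ : ℍ) : (constHol c : ℍ → ℂ) τ = c := rfl

theorem Hol_mdiff_comp_smul {f : ℍ → ℂ} (hf : MDiff f) (γ : SL(2, ℤ)) :
    MDiff (fun τ : ℍ => f (γ • τ)) := by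
  have h1 : MDiff (fun τ : ℍ => γ • τ) := by
    have := UpperHalfPlane.mdifferentiable_smul (g := (γ : GL (Fin 2) ℝ)) (by simp)
    exact this
  exact hf.comp h1

/-- PIECE H1. Precomposition with an element of `SL₂(ℤ)`. -/
noncomputable def compHom (γ : SL(2, ℤ)) : Hol →+* Hol where
  toFun f := ⟨fun τ => (f : ℍ → ℂ) (γ • τ), Hol_mdiff_comp_smul f.2 γ⟩
  map_one' := rfl
  map_mul' _ _ := rfl
  map_zero' := rfl
  map_add' _ _ := rfl

@[simp] theorem compHom_apply (γ : SL(2, ℤ)) (f : Hol) (τ : ℍ) :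
    (compHom γ f : ℍ → ℂ) τ = (f : ℍ → ℂ) (γ • τ) := rfl

theorem compHom_mul (γ δ : SL(2, ℤ)) (f : Hol) :
    compHom (γ * δ) f = compHom δ (compHom γ f) := by
  ext τ; simp [mul_smul]

@[simp] theorem compHom_one (f : Hol) : compHom 1 f = f := by
  ext τ; simp

@[simp] theorem compHom_constHol (γ : SL(2, ℤ)) (c : ℂ) : compHom γ (constHol c) = constHol c := rfl

theorem Hol_analyticAt {f : ℍ → ℂ} (hf : MDiff f) (τ : ℍ) :
    AnalyticAt ℂ (f ∘ ofComplex) (τ : ℂ) :=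
  (UpperHalfPlane.mdifferentiable_iff.mp hf).analyticAt (isOpen_upperHalfPlaneSet.mem_nhds τ.im_pos)

theorem Hol_analyticAt' (f : Hol) (τ : ℍ) :
    AnalyticAt ℂ ((f : ℍ → ℂ) ∘ ofComplex) (τ : ℂ) := Hol_analyticAt f.2 τ

/-- PIECE H2. Taylor expansion at `τ`, as a ring homomorphism. -/
noncomputable def taylorHom (τ : ℍ) : Hol →+* PowerSeries ℂ where
  toFun f := PowerSeries.mk fun n =>
    ((n.factorial : ℂ))⁻¹ * iteratedDeriv n ((f : ℍ → ℂ) ∘ ofComplex) (τ : ℂ)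
  map_one' := by
    ext m
    have h1 : (((1 : Hol) : ℍ → ℂ) ∘ ofComplex) = fun _ => (1 : ℂ) := rfl
    rw [h1, PowerSeries.coeff_mk, iteratedDeriv_const, PowerSeries.coeff_one]
    split_ifs with h <;> simp [h]
  map_mul' := by
    intro f g
    ext m
    have h1 : (((f * g : Hol) : ℍ → ℂ) ∘ ofComplex) =
      ((f : ℍ → ℂ) ∘ ofComplex) * ((g : ℍ → ℂ) ∘ ofComplex) := rfl
    simp only [h1, PowerSeries.coeff_mk,
      iteratedDeriv_mul (Hol_analyticAt' f τ).contDiffAt (Hol_analyticAt' g τ).contDiffAt,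
      Finset.mul_sum, PowerSeries.coeff_mul,
      Finset.Nat.sum_antidiagonal_eq_sum_range_succ_mk, Nat.succ_eq_add_one]
    refine Finset.sum_congr rfl fun i hi ↦ ?_
    rw [Nat.cast_choose _ (by grind)]
    field_simp [Nat.factorial_ne_zero]
  map_zero' := by
    ext m
    have h1 : (((0 : Hol) : ℍ → ℂ) ∘ ofComplex) = fun _ => (0 : ℂ) := rfl
    rw [h1, PowerSeries.coeff_mk, iteratedDeriv_const]
    simp
  map_add' := by
    intro f g
    ext m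
    have h1 : (((f + g : Hol) : ℍ → ℂ) ∘ ofComplex) =
      ((f : ℍ → ℂ) ∘ ofComplex) + ((g : ℍ → ℂ) ∘ ofComplex) := rfl
    simp only [h1, PowerSeries.coeff_mk, map_add,
      iteratedDeriv_add (Hol_analyticAt' f τ).contDiffAt (Hol_analyticAt' g τ).contDiffAt, mul_add]

theorem coeff_taylorHom (τ : ℍ) (f : Hol) (n : ℕ) :
    PowerSeries.coeff n (taylorHom τ f) =
      ((n.factorial : ℂ))⁻¹ * iteratedDeriv n ((f : ℍ → ℂ) ∘ ofComplex) (τ : ℂ) := by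
  simp [taylorHom]

/-- PIECE H6. The order of the Taylor series is the analytic order. -/
theorem order_taylorHom (τ : ℍ) (f : Hol) :
    (taylorHom τ f).order = analyticOrderAt ((f : ℍ → ℂ) ∘ ofComplex) (τ : ℂ) := by
  refine ENat.eq_of_forall_natCast_le_iff fun n => ?_
  rw [natCast_le_analyticOrderAt_iff_iteratedDeriv_eq_zero (Hol_analyticAt' f τ)]
  constructor
  · intro h i hi
    have := PowerSeries.coeff_of_lt_order i (lt_of_lt_of_le (by exact_mod_cast hi) h)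
    rw [coeff_taylorHom] at this
    simpa [Nat.factorial_ne_zero] using this
  · intro h
    refine PowerSeries.nat_le_order _ _ fun i hi => ?_
    rw [coeff_taylorHom, h i hi, mul_zero]

/-- PIECE H3 (identity theorem). -/
theorem taylorHom_injective (τ : ℍ) : Function.Injective (taylorHom τ) := by
  rw [injective_iff_map_eq_zero]
  intro f hf
  have h1 : analyticOrderAt ((f : ℍ → ℂ) ∘ ofComplex) (τ : ℂ) = ⊤ := by
    rw [← order_taylorHom, hf, PowerSeries.order_zero]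
  rw [analyticOrderAt_eq_top] at h1
  have h2 : (f : ℍ → ℂ) = 0 := by
    refine eq_zero_of_frequently f.2 (τ := τ) ?_
    apply Filter.Eventually.frequently
    apply Filter.Eventually.filter_mono nhdsWithin_le_nhds
    rw [← isOpenEmbedding_coe.map_nhds_eq, Filter.eventually_map] at h1
    filter_upwards [h1] with a ha
    simpa using ha
  exact Subtype.ext h2

/-- PIECE H4. -/
theorem taylorHom_constHol (τ : ℍ) (c : ℂ) : taylorHom τ (constHol c) = PowerSeries.C c := by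
  ext m
  have h1 : (((constHol c : Hol) : ℍ → ℂ) ∘ ofComplex) = fun _ => c := rfl
  rw [coeff_taylorHom, h1, iteratedDeriv_const, PowerSeries.coeff_C]
  split_ifs with h <;> simp [h]

theorem constantCoeff_taylorHom (τ : ℍ) (f : Hol) :
    PowerSeries.constantCoeff (taylorHom τ f) = (f : ℍ → ℂ) τ := by
  rw [← PowerSeries.coeff_zero_eq_constantCoeff_apply, coeff_taylorHom]
  simp

theorem Hol_mdiff_deriv {f : ℍ → ℂ} (hf : MDiff f) :
    MDiff (fun τ : ℍ => deriv (f ∘ ofComplex) (τ : ℂ)) := by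
  rw [UpperHalfPlane.mdifferentiable_iff]
  have h1 : DifferentiableOn ℂ (deriv (f ∘ ofComplex)) {z | 0 < z.im} :=
    (UpperHalfPlane.mdifferentiable_iff.mp hf).deriv isOpen_upperHalfPlaneSet
  refine h1.congr fun z hz => ?_
  simp [ofComplex_apply_of_im_pos hz]

/-- The derivative of a holomorphic function. -/
noncomputable def derivHol (f : Hol) : Hol :=
  ⟨fun τ => deriv ((f : ℍ → ℂ) ∘ ofComplex) (τ : ℂ), Hol_mdiff_deriv f.2⟩

/-- PIECE H5. Taylor expansion commutes with derivatives. -/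
theorem taylorHom_derivHol (τ : ℍ) (f : Hol) :
    taylorHom τ (derivHol f) = PowerSeries.derivative ℂ (taylorHom τ f) := by
  ext n
  rw [coeff_taylorHom, PowerSeries.coeff_derivative, coeff_taylorHom, iteratedDeriv_succ']
  have h1 : ((derivHol f : Hol) : ℍ → ℂ) ∘ ofComplex =ᶠ[nhds (τ : ℂ)]
      deriv ((f : ℍ → ℂ) ∘ ofComplex) := by
    filter_upwards [isOpen_upperHalfPlaneSet.mem_nhds τ.im_pos] with z hz
    simp [derivHol, ofComplex_apply_of_im_pos hz]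
  rw [h1.iteratedDeriv_eq n, Nat.factorial_succ]
  push_cast
  field_simp

/-! ### Part 2: Laurent `q_h`-expansions -/

theorem Hol_qParam_add_period (h : ℕ) (z : ℂ) :
    𝕢 (h : ℝ) (z + ((h : ℝ) : ℂ)) = 𝕢 (h : ℝ) z := by
  rcases Nat.eq_zero_or_pos h with rfl | hh
  · simp
  · have hh' : ((h : ℝ) : ℂ) ≠ 0 := by
      exact_mod_cast hh.ne'
    unfold Periodic.qParam
    have : 2 * (Real.pi : ℂ) * Complex.I * (z + ((h : ℝ) : ℂ)) / ((h : ℝ) : ℂ) =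
        2 * (Real.pi : ℂ) * Complex.I * z / ((h : ℝ) : ℂ) + 2 * (Real.pi : ℂ) * Complex.I := by
      field_simp
    rw [this, Complex.exp_periodic]

theorem Hol_norm_qParam_le_one (h : ℕ) (τ : ℍ) : ‖𝕢 (h : ℝ) τ‖ ≤ 1 := by
  rw [Periodic.norm_qParam, Real.exp_le_one_iff]
  have h1 : 0 ≤ 2 * Real.pi * (τ : ℂ).im / (h : ℝ) := by
    have := τ.im_pos
    have h2 : 0 < (τ : ℂ).im := this
    positivity
  have h3 : -2 * Real.pi * (τ : ℂ).im / (h : ℝ) = -(2 * Real.pi * (τ : ℂ).im / (h : ℝ)) := by ring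
  rw [h3]
  linarith

theorem Hol_periodic_of_forall {f : ℍ → ℂ} (h : ℕ)
    (hf : ∀ τ τ' : ℍ, (τ' : ℂ) = τ + ((h : ℝ) : ℂ) → f τ' = f τ) :
    Periodic (f ∘ ofComplex) ((h : ℝ) : ℂ) := by
  intro w
  by_cases hw : 0 < w.im
  · have h2 : 0 < (w + ((h : ℝ) : ℂ)).im := by simpa using hw
    simp only [comp_apply, ofComplex_apply_of_im_pos h2, ofComplex_apply_of_im_pos hw]
    exact hf _ _ rfl
  · have hw' : w.im ≤ 0 := not_lt.mp hw
    have h2 : (w + ((h : ℝ) : ℂ)).im ≤ 0 := by simpa using hw'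
    simp only [comp_apply, ofComplex_apply_of_im_nonpos h2, ofComplex_apply_of_im_nonpos hw']

theorem Hol_forall_of_periodic {f : ℍ → ℂ} {h : ℕ}
    (hf : Periodic (f ∘ ofComplex) ((h : ℝ) : ℂ)) (τ τ' : ℍ)
    (hτ : (τ' : ℂ) = τ + ((h : ℝ) : ℂ)) : f τ' = f τ := by
  have := hf (τ : ℂ)
  rw [← hτ] at this
  simpa using this

theorem Hol_qpow_mdiff (h k : ℕ) : MDiff (fun τ : ℍ => 𝕢 (h : ℝ) τ ^ k) := by
  rw [UpperHalfPlane.mdifferentiable_iff]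
  have h1 : DifferentiableOn ℂ (fun z : ℂ => 𝕢 (h : ℝ) z ^ k) {z | 0 < z.im} :=
    (Periodic.differentiable_qParam.pow k).differentiableOn
  refine h1.congr fun z hz => ?_
  simp [ofComplex_apply_of_im_pos hz]

theorem Hol_qpow_periodic (h k : ℕ) :
    Periodic ((fun τ : ℍ => 𝕢 (h : ℝ) τ ^ k) ∘ ofComplex) ((h : ℝ) : ℂ) := by
  refine Hol_periodic_of_forall h fun τ τ' hτ => ?_
  simp only [hτ, Hol_qParam_add_period]

theorem Hol_qpow_bdd (h k : ℕ) : IsBoundedAtImInfty (fun τ : ℍ => 𝕢 (h : ℝ) τ ^ k) := by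
  rw [isBoundedAtImInfty_iff]
  refine ⟨1, 0, fun τ _ => ?_⟩
  rw [norm_pow]
  exact pow_le_one₀ (norm_nonneg _) (Hol_norm_qParam_le_one h τ)

theorem Hol_bdd_mul_qpow {h : ℕ} {g : ℍ → ℂ} (hg : IsBoundedAtImInfty g) (k : ℕ) :
    IsBoundedAtImInfty (fun τ : ℍ => g τ * 𝕢 (h : ℝ) τ ^ k) :=
  Filter.BoundedAtFilter.mul hg (Hol_qpow_bdd h k)

theorem Hol_bdd_add {h : ℕ} {f : ℍ → ℂ} {m : ℕ}
    (hm : IsBoundedAtImInfty (fun τ : ℍ => f τ * 𝕢 (h : ℝ) τ ^ m)) (k : ℕ) :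
    IsBoundedAtImInfty (fun τ : ℍ => f τ * 𝕢 (h : ℝ) τ ^ (m + k)) := by
  have h1 := Hol_bdd_mul_qpow (h := h) hm k
  have h2 : (fun τ : ℍ => f τ * 𝕢 (h : ℝ) τ ^ (m + k)) =
      fun τ : ℍ => f τ * 𝕢 (h : ℝ) τ ^ m * 𝕢 (h : ℝ) τ ^ k := by
    funext τ; rw [pow_add, mul_assoc]
  rw [h2]; exact h1

theorem Hol_bdd_of_le {h : ℕ} {f : ℍ → ℂ} {m m' : ℕ} (hmm : m ≤ m')
    (hm : IsBoundedAtImInfty (fun τ : ℍ => f τ * 𝕢 (h : ℝ) τ ^ m)) :
    IsBoundedAtImInfty (fun τ : ℍ => f τ * 𝕢 (h : ℝ) τ ^ m') := by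
  obtain ⟨k, rfl⟩ := Nat.exists_eq_add_of_le hmm
  exact Hol_bdd_add hm k

theorem Hol_mul_qpow_mdiff {f : ℍ → ℂ} (hf : MDiff f) (h m : ℕ) :
    MDiff (fun τ : ℍ => f τ * 𝕢 (h : ℝ) τ ^ m) := hf.mul (Hol_qpow_mdiff h m)

theorem Hol_mul_qpow_periodic {f : ℍ → ℂ} {h : ℕ}
    (hf : Periodic (f ∘ ofComplex) ((h : ℝ) : ℂ)) (m : ℕ) :
    Periodic ((fun τ : ℍ => f τ * 𝕢 (h : ℝ) τ ^ m) ∘ ofComplex) ((h : ℝ) : ℂ) :=
  hf.mul (Hol_qpow_periodic h m)

/-- `h`-periodic holomorphic functions on `ℍ` which are meromorphic at `i∞`. -/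
def MerInf (h : ℕ) : Subring (ℍ → ℂ) where
  carrier := {f | MDiff f ∧ Periodic (f ∘ ofComplex) ((h : ℝ) : ℂ) ∧
    ∃ m : ℕ, IsBoundedAtImInfty (fun τ : ℍ => f τ * 𝕢 (h : ℝ) τ ^ m)}
  mul_mem' := by
    rintro f g ⟨hf1, hf2, m1, hf3⟩ ⟨hg1, hg2, m2, hg3⟩
    refine ⟨hf1.mul hg1, hf2.mul hg2, m1 + m2, ?_⟩
    have h1 := Filter.BoundedAtFilter.mul hf3 hg3
    have h2 : (fun τ : ℍ => (f * g) τ * 𝕢 (h : ℝ) τ ^ (m1 + m2)) =
        (fun τ : ℍ => f τ * 𝕢 (h : ℝ) τ ^ m1) * (fun τ : ℍ => g τ * 𝕢 (h : ℝ) τ ^ m2) := by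
      funext τ; simp only [Pi.mul_apply, pow_add]; ring
    rw [h2]; exact h1
  one_mem' := by
    refine ⟨mdifferentiable_const, fun _ => rfl, 0, ?_⟩
    simpa using! Filter.const_boundedAtFilter atImInfty (1 : ℂ)
  add_mem' := by
    rintro f g ⟨hf1, hf2, m1, hf3⟩ ⟨hg1, hg2, m2, hg3⟩
    refine ⟨hf1.add hg1, hf2.add hg2, m1 + m2, ?_⟩
    have h1 := Filter.BoundedAtFilter.add (Hol_bdd_of_le (Nat.le_add_right m1 m2) hf3)
      (Hol_bdd_of_le (Nat.le_add_left m2 m1) hg3)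
    have h2 : (fun τ : ℍ => (f + g) τ * 𝕢 (h : ℝ) τ ^ (m1 + m2)) =
        (fun τ : ℍ => f τ * 𝕢 (h : ℝ) τ ^ (m1 + m2)) +
          (fun τ : ℍ => g τ * 𝕢 (h : ℝ) τ ^ (m1 + m2)) := by
      funext τ; simp only [Pi.add_apply]; ring
    rw [h2]; exact h1
  zero_mem' := by
    refine ⟨mdifferentiable_const, fun _ => rfl, 0, ?_⟩
    simpa using! Filter.const_boundedAtFilter atImInfty (0 : ℂ)
  neg_mem' := by
    rintro f ⟨hf1, hf2, m1, hf3⟩
    refine ⟨hf1.neg, fun w => congrArg Neg.neg (hf2 w), m1, ?_⟩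
    have h1 := Filter.BoundedAtFilter.neg hf3
    have h2 : (fun τ : ℍ => (-f) τ * 𝕢 (h : ℝ) τ ^ m1) =
        -(fun τ : ℍ => f τ * 𝕢 (h : ℝ) τ ^ m1) := by
      funext τ; simp only [Pi.neg_apply]; ring
    rw [h2]; exact h1

theorem mem_MerInf {h : ℕ} {f : ℍ → ℂ} : f ∈ MerInf h ↔
    MDiff f ∧ Periodic (f ∘ ofComplex) ((h : ℝ) : ℂ) ∧
    ∃ m : ℕ, IsBoundedAtImInfty (fun τ : ℍ => f τ * 𝕢 (h : ℝ) τ ^ m) := Iff.rfl

theorem Hol_pos (h : ℕ) [NeZero h] : (0 : ℝ) < (h : ℝ) := by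
  exact_mod_cast Nat.pos_of_ne_zero (NeZero.ne h)

theorem Hol_analytic_cusp (h : ℕ) [NeZero h] {g : ℍ → ℂ} (h1 : MDiff g)
    (h2 : Periodic (g ∘ ofComplex) ((h : ℝ) : ℂ)) (h3 : IsBoundedAtImInfty g) :
    AnalyticAt ℂ (cuspFunction (h : ℝ) g) 0 :=
  analyticAt_cuspFunction_zero (Hol_pos h) h2 h1 h3

theorem Hol_qExpansion_coeff_unique {h : ℝ} {f : ℍ → ℂ} {c : ℕ → ℂ} (hh : 0 < h)
    (hfanalytic : AnalyticAt ℂ (cuspFunction h f) 0)
    (hf : ∀ τ : ℍ, HasSum (fun m ↦ c m • 𝕢 h τ ^ m) (f τ)) (m : ℕ) :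
    c m = (qExpansion h f).coeff m := by
  have h1 := (hasFPowerSeriesOnBall_cuspFunction hh hfanalytic hf).hasFPowerSeriesAt
  have h2 : HasFPowerSeriesAt (cuspFunction h f)
      (.ofScalars ℂ fun m => (qExpansion h f).coeff m) 0 := by
    simpa [qExpansion_coeff, div_eq_mul_inv, mul_comm] using hfanalytic.hasFPowerSeriesAt
  simpa [FormalMultilinearSeries.coeff_ofScalars] using
    congr_arg (FormalMultilinearSeries.coeff · m) (h1.eq_formalMultilinearSeries h2)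

theorem Hol_qExpansion_qpow (h : ℕ) [NeZero h] (k : ℕ) :
    qExpansion (h : ℝ) (fun τ : ℍ => 𝕢 (h : ℝ) τ ^ k) = PowerSeries.X ^ k := by
  ext n
  have := Hol_qExpansion_coeff_unique (h := (h : ℝ)) (f := fun τ : ℍ => 𝕢 (h : ℝ) τ ^ k)
    (c := fun m => if m = k then 1 else 0) (Hol_pos h)
    (Hol_analytic_cusp h (Hol_qpow_mdiff h k) (Hol_qpow_periodic h k) (Hol_qpow_bdd h k))
    (fun τ => by
      have h1 := hasSum_ite_eq k (𝕢 (h : ℝ) τ ^ k)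
      convert h1 using 2 with m
      split_ifs with hm <;> simp [hm]) n
  rw [← this, PowerSeries.coeff_X_pow]

/-- Auxiliary Laurent expansion w.r.t. a given pole bound. -/
noncomputable def Hol_laurentAux (h : ℕ) (f : ℍ → ℂ) (m : ℕ) : LaurentSeries ℂ :=
  HahnSeries.single (-(m : ℤ)) 1 *
    HahnSeries.ofPowerSeries ℤ ℂ (qExpansion (h : ℝ) (fun τ : ℍ => f τ * 𝕢 (h : ℝ) τ ^ m))

theorem Hol_laurentAux_add (h : ℕ) [NeZero h] {f : ℍ → ℂ} (hf1 : MDiff f)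
    (hf2 : Periodic (f ∘ ofComplex) ((h : ℝ) : ℂ)) {m : ℕ}
    (hm : IsBoundedAtImInfty (fun τ : ℍ => f τ * 𝕢 (h : ℝ) τ ^ m)) (k : ℕ) :
    Hol_laurentAux h f (m + k) = Hol_laurentAux h f m := by
  unfold Hol_laurentAux
  have h2 : (fun τ : ℍ => f τ * 𝕢 (h : ℝ) τ ^ (m + k)) =
      (fun τ : ℍ => f τ * 𝕢 (h : ℝ) τ ^ m) * (fun τ : ℍ => 𝕢 (h : ℝ) τ ^ k) := by
    funext τ; simp only [Pi.mul_apply]; rw [pow_add, mul_assoc]
  rw [h2, qExpansion_mul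
    (Hol_analytic_cusp h (Hol_mul_qpow_mdiff hf1 h m) (Hol_mul_qpow_periodic hf2 m) hm)
    (Hol_analytic_cusp h (Hol_qpow_mdiff h k) (Hol_qpow_periodic h k) (Hol_qpow_bdd h k)),
    Hol_qExpansion_qpow, map_mul, HahnSeries.ofPowerSeries_X_pow]
  have h3 : (HahnSeries.single (-((m + k : ℕ) : ℤ)) (1 : ℂ)) * HahnSeries.single (k : ℤ) (1 : ℂ) =
      HahnSeries.single (-(m : ℤ)) (1 : ℂ) := by
    have h4 : (-((m + k : ℕ) : ℤ)) + (k : ℤ) = -(m : ℤ) := by push_cast; ring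
    rw [HahnSeries.single_mul_single, mul_one, h4]
  rw [← h3]
  ring

theorem Hol_laurentAux_indep (h : ℕ) [NeZero h] {f : ℍ → ℂ} (hf1 : MDiff f)
    (hf2 : Periodic (f ∘ ofComplex) ((h : ℝ) : ℂ)) {m m' : ℕ}
    (hm : IsBoundedAtImInfty (fun τ : ℍ => f τ * 𝕢 (h : ℝ) τ ^ m))
    (hm' : IsBoundedAtImInfty (fun τ : ℍ => f τ * 𝕢 (h : ℝ) τ ^ m')) :
    Hol_laurentAux h f m = Hol_laurentAux h f m' := by
  rw [← Hol_laurentAux_add h hf1 hf2 hm m', ← Hol_laurentAux_add h hf1 hf2 hm' m, add_comm]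

theorem Hol_laurentAux_mul (h : ℕ) [NeZero h] {f g : ℍ → ℂ} (hf1 : MDiff f)
    (hf2 : Periodic (f ∘ ofComplex) ((h : ℝ) : ℂ)) (hg1 : MDiff g)
    (hg2 : Periodic (g ∘ ofComplex) ((h : ℝ) : ℂ)) {m m' : ℕ}
    (hm : IsBoundedAtImInfty (fun τ : ℍ => f τ * 𝕢 (h : ℝ) τ ^ m))
    (hm' : IsBoundedAtImInfty (fun τ : ℍ => g τ * 𝕢 (h : ℝ) τ ^ m')) :
    Hol_laurentAux h (f * g) (m + m') = Hol_laurentAux h f m * Hol_laurentAux h g m' := by
  unfold Hol_laurentAux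
  have h2 : (fun τ : ℍ => (f * g) τ * 𝕢 (h : ℝ) τ ^ (m + m')) =
      (fun τ : ℍ => f τ * 𝕢 (h : ℝ) τ ^ m) * (fun τ : ℍ => g τ * 𝕢 (h : ℝ) τ ^ m') := by
    funext τ; simp only [Pi.mul_apply, pow_add]; ring
  rw [h2, qExpansion_mul
    (Hol_analytic_cusp h (Hol_mul_qpow_mdiff hf1 h m) (Hol_mul_qpow_periodic hf2 m) hm)
    (Hol_analytic_cusp h (Hol_mul_qpow_mdiff hg1 h m') (Hol_mul_qpow_periodic hg2 m') hm'),
    map_mul]
  have h3 : (HahnSeries.single (-((m + m' : ℕ) : ℤ)) (1 : ℂ)) =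
      HahnSeries.single (-(m : ℤ)) (1 : ℂ) * HahnSeries.single (-(m' : ℤ)) (1 : ℂ) := by
    have h4 : (-((m + m' : ℕ) : ℤ)) = -(m : ℤ) + -(m' : ℤ) := by push_cast; ring
    rw [HahnSeries.single_mul_single, mul_one, h4]
  rw [h3]
  ring

theorem Hol_laurentAux_add_fun (h : ℕ) [NeZero h] {f g : ℍ → ℂ} (hf1 : MDiff f)
    (hf2 : Periodic (f ∘ ofComplex) ((h : ℝ) : ℂ)) (hg1 : MDiff g)
    (hg2 : Periodic (g ∘ ofComplex) ((h : ℝ) : ℂ)) {m : ℕ}
    (hm : IsBoundedAtImInfty (fun τ : ℍ => f τ * 𝕢 (h : ℝ) τ ^ m))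
    (hm' : IsBoundedAtImInfty (fun τ : ℍ => g τ * 𝕢 (h : ℝ) τ ^ m)) :
    Hol_laurentAux h (f + g) m = Hol_laurentAux h f m + Hol_laurentAux h g m := by
  unfold Hol_laurentAux
  have h2 : (fun τ : ℍ => (f + g) τ * 𝕢 (h : ℝ) τ ^ m) =
      (fun τ : ℍ => f τ * 𝕢 (h : ℝ) τ ^ m) + (fun τ : ℍ => g τ * 𝕢 (h : ℝ) τ ^ m) := by
    funext τ; simp only [Pi.add_apply]; ring
  rw [h2, qExpansion_add
    (Hol_analytic_cusp h (Hol_mul_qpow_mdiff hf1 h m) (Hol_mul_qpow_periodic hf2 m) hm)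
    (Hol_analytic_cusp h (Hol_mul_qpow_mdiff hg1 h m) (Hol_mul_qpow_periodic hg2 m) hm'),
    map_add, mul_add]

theorem Hol_laurentAux_choose (h : ℕ) [NeZero h] (f : MerInf h) {m : ℕ}
    (hm : IsBoundedAtImInfty (fun τ : ℍ => (f : ℍ → ℂ) τ * 𝕢 (h : ℝ) τ ^ m)) :
    Hol_laurentAux h f f.2.2.2.choose = Hol_laurentAux h f m :=
  Hol_laurentAux_indep h f.2.1 f.2.2.1 f.2.2.2.choose_spec hm

/-- PIECE H7. The Laurent `q_h`-expansion, as a ring homomorphism. -/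
noncomputable def laurentHom (h : ℕ) [NeZero h] : MerInf h →+* LaurentSeries ℂ where
  toFun f := HahnSeries.single (-(f.2.2.2.choose : ℤ)) 1 *
    HahnSeries.ofPowerSeries ℤ ℂ
      (qExpansion (h : ℝ) (fun τ : ℍ => (f : ℍ → ℂ) τ * 𝕢 (h : ℝ) τ ^ f.2.2.2.choose))
  map_one' := by
    have hb : IsBoundedAtImInfty
        (fun τ : ℍ => ((1 : MerInf h) : ℍ → ℂ) τ * 𝕢 (h : ℝ) τ ^ 0) := by
      simpa using! Filter.const_boundedAtFilter atImInfty (1 : ℂ)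
    refine (Hol_laurentAux_choose h 1 hb).trans ?_
    unfold Hol_laurentAux
    have h2 : (fun τ : ℍ => ((1 : MerInf h) : ℍ → ℂ) τ * 𝕢 (h : ℝ) τ ^ 0) = 1 := by
      funext τ; simp
    rw [h2, qExpansion_one]
    simp
  map_mul' := by
    intro f g
    have hb := Hol_laurentAux_mul h f.2.1 f.2.2.1 g.2.1 g.2.2.1
      f.2.2.2.choose_spec g.2.2.2.choose_spec
    refine Eq.trans ?_ hb
    refine Hol_laurentAux_choose h (f * g) ?_
    have h1 := Filter.BoundedAtFilter.mul f.2.2.2.choose_spec g.2.2.2.choose_spec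
    have h2 : (fun τ : ℍ => ((f * g : MerInf h) : ℍ → ℂ) τ *
        𝕢 (h : ℝ) τ ^ (f.2.2.2.choose + g.2.2.2.choose)) =
        (fun τ : ℍ => (f : ℍ → ℂ) τ * 𝕢 (h : ℝ) τ ^ f.2.2.2.choose) *
          (fun τ : ℍ => (g : ℍ → ℂ) τ * 𝕢 (h : ℝ) τ ^ g.2.2.2.choose) := by
      funext τ; simp only [Subring.coe_mul, Pi.mul_apply, pow_add]; ring
    rw [h2]; exact h1
  map_zero' := by
    have hb : IsBoundedAtImInfty
        (fun τ : ℍ => ((0 : MerInf h) : ℍ → ℂ) τ * 𝕢 (h : ℝ) τ ^ 0) := by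
      simpa using! Filter.const_boundedAtFilter atImInfty (0 : ℂ)
    refine (Hol_laurentAux_choose h 0 hb).trans ?_
    unfold Hol_laurentAux
    have h2 : (fun τ : ℍ => ((0 : MerInf h) : ℍ → ℂ) τ * 𝕢 (h : ℝ) τ ^ 0) = 0 := by
      funext τ; simp
    rw [h2, qExpansion_zero]
    simp
  map_add' := by
    intro f g
    have hf := Hol_bdd_of_le (Nat.le_add_right f.2.2.2.choose g.2.2.2.choose) f.2.2.2.choose_spec
    have hg := Hol_bdd_of_le (Nat.le_add_left g.2.2.2.choose f.2.2.2.choose) g.2.2.2.choose_spec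
    have hb := Hol_laurentAux_add_fun h f.2.1 f.2.2.1 g.2.1 g.2.2.1 hf hg
    rw [← Hol_laurentAux_choose h f hf, ← Hol_laurentAux_choose h g hg] at hb
    refine Eq.trans ?_ hb
    refine Hol_laurentAux_choose h (f + g) ?_
    have h1 := Filter.BoundedAtFilter.add hf hg
    have h2 : (fun τ : ℍ => ((f + g : MerInf h) : ℍ → ℂ) τ *
        𝕢 (h : ℝ) τ ^ (f.2.2.2.choose + g.2.2.2.choose)) =
        (fun τ : ℍ => (f : ℍ → ℂ) τ * 𝕢 (h : ℝ) τ ^ (f.2.2.2.choose + g.2.2.2.choose)) +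
          (fun τ : ℍ => (g : ℍ → ℂ) τ * 𝕢 (h : ℝ) τ ^ (f.2.2.2.choose + g.2.2.2.choose)) := by
      funext τ; simp only [Subring.coe_add, Pi.add_apply]; ring
    rw [h2]; exact h1

/-- PIECE H8. Independence of the pole bound. -/
theorem laurentHom_eq (h : ℕ) [NeZero h] (f : MerInf h) (m : ℕ)
    (hm : IsBoundedAtImInfty (fun τ : ℍ => (f : ℍ → ℂ) τ * 𝕢 (h : ℝ) τ ^ m)) :
    laurentHom h f = HahnSeries.single (-(m : ℤ)) 1 *
      HahnSeries.ofPowerSeries ℤ ℂ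
        (qExpansion (h : ℝ) (fun τ : ℍ => (f : ℍ → ℂ) τ * 𝕢 (h : ℝ) τ ^ m)) :=
  Hol_laurentAux_choose h f hm

theorem Hol_coeff_laurentAux (h : ℕ) (f : ℍ → ℂ) (m : ℕ) (n : ℕ) :
    (Hol_laurentAux h f m).coeff ((n : ℤ) - m) =
      (qExpansion (h : ℝ) (fun τ : ℍ => f τ * 𝕢 (h : ℝ) τ ^ m)).coeff n := by
  unfold Hol_laurentAux
  rw [HahnSeries.coeff_single_mul, one_mul]
  have : ((n : ℤ) - m - -(m : ℤ)) = (n : ℤ) := by ring
  rw [this]
  exact HahnSeries.ofPowerSeries_apply_coeff _ n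

theorem Hol_coeff_laurentAux_of_lt (h : ℕ) (f : ℍ → ℂ) (m : ℕ) (k : ℤ) (hk : k < -(m : ℤ)) :
    (Hol_laurentAux h f m).coeff k = 0 := by
  unfold Hol_laurentAux
  rw [HahnSeries.coeff_single_mul, one_mul]
  have h1 := PowerSeries.coeff_coe
    (qExpansion (h : ℝ) (fun τ : ℍ => f τ * 𝕢 (h : ℝ) τ ^ m)) (k - -(m : ℤ))
  rw [if_pos (by omega)] at h1
  exact h1

/-- PIECE H9. -/
theorem laurentHom_injective (h : ℕ) [NeZero h] : Function.Injective (laurentHom h) := by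
  rw [injective_iff_map_eq_zero]
  intro f hf
  obtain ⟨m, hm⟩ := f.2.2.2
  rw [laurentHom_eq h f m hm] at hf
  have h1 : HahnSeries.single (-(m : ℤ)) (1 : ℂ) ≠ 0 := by
    simp
  have h2 := (mul_eq_zero.mp hf).resolve_left h1
  rw [map_eq_zero_iff _ HahnSeries.ofPowerSeries_injective,
    qExpansion_eq_zero_iff (Hol_pos h) (Hol_mul_qpow_periodic f.2.2.1 m)
      (Hol_mul_qpow_mdiff f.2.1 h m) hm] at h2
  apply Subtype.ext
  funext τ
  have h3 := congrFun h2 τ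
  simp only [Pi.zero_apply, mul_eq_zero] at h3
  rcases h3 with h3 | h3
  · simpa using h3
  · exact absurd h3 (pow_ne_zero _ (Periodic.qParam_ne_zero _))

/-- PIECE H10 (characterisation by convergent sums). -/
theorem laurentHom_eq_of_hasSum (h : ℕ) [NeZero h] (f : MerInf h) (s : LaurentSeries ℂ) (m : ℕ)
    (hs : ∀ k : ℤ, k < -(m : ℤ) → s.coeff k = 0)
    (hsum : ∀ τ : ℍ, HasSum (fun n : ℕ => s.coeff ((n : ℤ) - m) * 𝕢 (h : ℝ) τ ^ n)
      ((f : ℍ → ℂ) τ * 𝕢 (h : ℝ) τ ^ m)) :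
    laurentHom h f = s := by
  have hb : IsBoundedAtImInfty (fun τ : ℍ => (f : ℍ → ℂ) τ * 𝕢 (h : ℝ) τ ^ m) :=
    isBoundedAtImInfty_of_hasSum_qExpansion (c := fun n : ℕ => s.coeff ((n : ℤ) - m))
      (Hol_pos h) hsum
  have h1 : laurentHom h f = Hol_laurentAux h f m := laurentHom_eq h f m hb
  rw [h1]
  ext k
  by_cases hk : k < -(m : ℤ)
  · rw [hs k hk, Hol_coeff_laurentAux_of_lt h f m k hk]
  · obtain ⟨n, hn⟩ : ∃ n : ℕ, k = (n : ℤ) - m := ⟨(k + m).toNat, by omega⟩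
    rw [hn, Hol_coeff_laurentAux]
    exact (Hol_qExpansion_coeff_unique (Hol_pos h)
      (Hol_analytic_cusp h (Hol_mul_qpow_mdiff f.2.1 h m) (Hol_mul_qpow_periodic f.2.2.1 m) hb)
      hsum n).symm

/-- PIECE H11 (converse). -/
theorem hasSum_laurentHom (h : ℕ) [NeZero h] (f : MerInf h) (m : ℕ)
    (hs : ∀ k : ℤ, k < -(m : ℤ) → (laurentHom h f).coeff k = 0) (τ : ℍ) :
    HasSum (fun n : ℕ => (laurentHom h f).coeff ((n : ℤ) - m) * 𝕢 (h : ℝ) τ ^ n)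
      ((f : ℍ → ℂ) τ * 𝕢 (h : ℝ) τ ^ m) := by
  obtain ⟨m0, hm0⟩ := f.2.2.2
  have hb : IsBoundedAtImInfty (fun τ : ℍ => (f : ℍ → ℂ) τ * 𝕢 (h : ℝ) τ ^ (m + m0)) :=
    Hol_bdd_of_le (Nat.le_add_left m0 m) hm0
  have h1 : laurentHom h f = Hol_laurentAux h f (m + m0) := laurentHom_eq h f (m + m0) hb
  have h2 := hasSum_qExpansion (Hol_pos h) (Hol_mul_qpow_periodic f.2.2.1 (m + m0))
    (Hol_mul_qpow_mdiff f.2.1 h (m + m0)) hb τ
  simp only [← Hol_coeff_laurentAux, ← h1, smul_eq_mul] at h2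
  rw [← hasSum_nat_add_iff' m0] at h2
  have h3 : ∑ i ∈ Finset.range m0,
      (laurentHom h f).coeff ((i : ℤ) - ((m + m0 : ℕ) : ℤ)) * 𝕢 (h : ℝ) τ ^ i = 0 := by
    refine Finset.sum_eq_zero fun i hi => ?_
    rw [hs _ (by have := Finset.mem_range.mp hi; push_cast; omega), zero_mul]
  rw [h3, sub_zero] at h2
  have hq : 𝕢 (h : ℝ) τ ^ m0 ≠ 0 := pow_ne_zero _ (Periodic.qParam_ne_zero _)
  have h4 := h2.mul_right (𝕢 (h : ℝ) τ ^ m0)⁻¹
  have e1 : (fun n : ℕ => (laurentHom h f).coeff ((n : ℤ) - m) * 𝕢 (h : ℝ) τ ^ n) =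
      fun i : ℕ => (laurentHom h f).coeff (((i + m0 : ℕ) : ℤ) - ((m + m0 : ℕ) : ℤ)) *
        𝕢 (h : ℝ) τ ^ (i + m0) * (𝕢 (h : ℝ) τ ^ m0)⁻¹ := by
    funext n
    have : (((n + m0 : ℕ) : ℤ) - ((m + m0 : ℕ) : ℤ)) = (n : ℤ) - m := by push_cast; ring
    rw [this, pow_add]
    field_simp
  have e2 : (f : ℍ → ℂ) τ * 𝕢 (h : ℝ) τ ^ m =
      (f : ℍ → ℂ) τ * 𝕢 (h : ℝ) τ ^ (m + m0) * (𝕢 (h : ℝ) τ ^ m0)⁻¹ := by
    rw [pow_add]
    field_simp
  rw [e1, e2]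
  exact h4

theorem Hol_hasSum_punctured {h : ℝ} {f : ℍ → ℂ} (hh : 0 < h) {c : ℕ → ℂ}
    (hf : ∀ (τ : ℍ), HasSum (fun m ↦ c m • 𝕢 h τ ^ m) (f τ)) {q : ℂ} (hq : ‖q‖ < 1)
    (hq1 : q ≠ 0) : HasSum (fun m ↦ c m • q ^ m) (cuspFunction h f q) := by
  have h1 := Periodic.im_invQParam_pos_of_norm_lt_one hh hq hq1
  let τ : ℍ := ⟨Periodic.invQParam h q, h1⟩
  have h2 := (Periodic.cuspFunction_eq_of_nonzero h (f ∘ ofComplex) hq1)
  have : cuspFunction h f q = f τ := by simpa [UpperHalfPlane.ofComplex_apply_of_im_pos h1]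
    using! h2
  grind [hf τ, Periodic.qParam_right_inv]

theorem Hol_hasFPowerSeriesOnBall_update {h : ℝ} {f : ℍ → ℂ} (hh : 0 < h) {c : ℕ → ℂ}
    (hf : ∀ τ : ℍ, HasSum (fun m : ℕ ↦ (c m) • 𝕢 h τ ^ m) (f τ)) :
    HasFPowerSeriesOnBall (update (cuspFunction h f) 0 (c 0)) (.ofScalars ℂ c) 0 1 := by
  constructor
  · refine le_of_forall_lt_imp_le_of_dense fun r hr ↦ ?_
    rcases eq_or_ne r 0 with rfl | hr'
    · simp
    · lift r to NNReal using hr.ne_top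
      let : FiniteDimensional ℝ ℂ := Complex.basisOneI.finiteDimensional_of_finite
      apply FormalMultilinearSeries.le_radius_of_summable
      simpa [smul_eq_mul, norm_mul, mul_comm, mul_left_comm, mul_assoc] using
        (Hol_hasSum_punctured hh hf (q := r) (by simpa using hr)
          (mod_cast hr')).summable.norm
  · simp
  · intro y hy
    rw [← ENNReal.coe_one, Metric.eball_coe, NNReal.coe_one, mem_ball_zero_iff] at hy
    rcases eq_or_ne y 0 with rfl | hy'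
    · simpa +contextual [zero_pow_eq] using hasSum_ite_eq 0 (c 0)
    · simpa [update_of_ne hy', mul_comm]
        using Hol_hasSum_punctured hh hf hy hy'

theorem Hol_mdiff_of_hasSum {h : ℝ} {g : ℍ → ℂ} (hh : 0 < h) {c : ℕ → ℂ}
    (hg : ∀ τ : ℍ, HasSum (fun m : ℕ ↦ (c m) • 𝕢 h τ ^ m) (g τ)) : MDiff g := by
  have hgeq : ∀ τ : ℍ, g τ = update (cuspFunction h g) 0 (c 0) (𝕢 h τ) := by
    intro τ
    rw [update_of_ne (Periodic.qParam_ne_zero _)]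
    exact (hg τ).unique (Hol_hasSum_punctured hh hg
      (Periodic.norm_qParam_lt_one hh τ.im_pos) (Complex.exp_ne_zero _))
  have hF := (Hol_hasFPowerSeriesOnBall_update hh hg).differentiableOn
  rw [UpperHalfPlane.mdifferentiable_iff]
  have h1 : DifferentiableOn ℂ (update (cuspFunction h g) 0 (c 0) ∘ 𝕢 h) {z | 0 < z.im} := by
    refine hF.comp Periodic.differentiable_qParam.differentiableOn ?_
    intro z hz
    rw [← ENNReal.coe_one, Metric.eball_coe, NNReal.coe_one, mem_ball_zero_iff]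
    exact Periodic.norm_qParam_lt_one hh hz
  refine h1.congr fun z hz => ?_
  simp only [comp_apply, ofComplex_apply_of_im_pos hz]
  exact hgeq ⟨z, hz⟩

/-- PIECE H12. A function with a convergent Laurent expansion is in `MerInf`. -/
theorem mem_MerInf_of_hasSum (h : ℕ) [NeZero h] (f : ℍ → ℂ) (s : LaurentSeries ℂ) (m : ℕ)
    (hsum : ∀ τ : ℍ, HasSum (fun n : ℕ => s.coeff ((n : ℤ) - m) * 𝕢 (h : ℝ) τ ^ n)
      (f τ * 𝕢 (h : ℝ) τ ^ m)) :
    f ∈ MerInf h := by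
  have hq : ∀ z : ℂ, 𝕢 (h : ℝ) z ^ m ≠ 0 := fun z => pow_ne_zero _ (Periodic.qParam_ne_zero _)
  have hb : IsBoundedAtImInfty (fun τ : ℍ => f τ * 𝕢 (h : ℝ) τ ^ m) :=
    isBoundedAtImInfty_of_hasSum_qExpansion (c := fun n : ℕ => s.coeff ((n : ℤ) - m))
      (Hol_pos h) hsum
  have hd : MDiff (fun τ : ℍ => f τ * 𝕢 (h : ℝ) τ ^ m) :=
    Hol_mdiff_of_hasSum (c := fun n : ℕ => s.coeff ((n : ℤ) - m)) (Hol_pos h) hsum
  refine ⟨?_, ?_, m, hb⟩
  · rw [UpperHalfPlane.mdifferentiable_iff] at hd ⊢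
    have h1 : DifferentiableOn ℂ (fun z : ℂ => 𝕢 (h : ℝ) z ^ m) {z | 0 < z.im} :=
      (Periodic.differentiable_qParam.pow m).differentiableOn
    have h2 := hd.div h1 (fun z _ => hq z)
    refine h2.congr fun z hz => ?_
    simp only [comp_apply, ofComplex_apply_of_im_pos hz, Pi.div_apply]
    rw [eq_div_iff (hq z)]
  · refine Hol_periodic_of_forall h fun τ τ' hτ => ?_
    have h1 := hsum τ'
    rw [hτ, Hol_qParam_add_period] at h1
    have h2 := h1.unique (hsum τ)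
    exact mul_right_cancel₀ (hq _) h2

end Fermat.Agent.S24
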