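import Fermat.Agent.S24.Basic

/-!
# S24, pieces C1 and C2: places induced by embeddings in `ℂ((t))`

All auxiliary names carry the prefix `induced_` (except `orderSubring`).
-/

set_option autoImplicit false

namespace Fermat.Agent.S24

open AlgebraicCurve IntermediateField IsDedekindDomain
open scoped IntermediateField.algebraAdjoinAdjoin

section General

theorem induced_norm_eq_prod {k F L X : Type*} [Field k] [Field F] [Field L] [Algebra k F]
    [FiniteDimensional k F] [Algebra.IsSeparable k F] [Fintype X]
    (φ : X → F →+* L)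
    (hagree : ∀ i i' (r : k), φ i (algebraMap k F r) = φ i' (algebraMap k F r))
    (hinj : Function.Injective φ) (hn : Fintype.card X = Module.finrank k F) (i0 : X) (f : F) :
    φ i0 (algebraMap k F (Algebra.norm k f)) = ∏ i, φ i f := by
  classical
  let E := AlgebraicClosure L
  let _ : Algebra k E := ((algebraMap L E).comp ((φ i0).comp (algebraMap k F))).toAlgebra
  let σ : X → (F →ₐ[k] E) := fun i =>
    { toRingHom := (algebraMap L E).comp (φ i)
      commutes' := fun r => by
        show algebraMap L E (φ i (algebraMap k F r)) = algebraMap L E (φ i0 (algebraMap k F r))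
        rw [hagree i i0] }
  have hσ : Function.Injective σ := by
    intro i i' h
    apply hinj
    ext f
    have := DFunLike.congr_fun h f
    exact (algebraMap L E).injective this
  have hcard : Fintype.card (F →ₐ[k] E) = Module.finrank k F := AlgHom.card k F E
  have hbij : Function.Bijective σ :=
    (Fintype.bijective_iff_injective_and_card σ).2 ⟨hσ, by rw [hn, hcard]⟩
  have h := Algebra.norm_eq_prod_embeddings k E f
  apply (algebraMap L E).injective
  rw [map_prod]
  calc algebraMap L E (φ i0 (algebraMap k F (Algebra.norm k f)))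
      = algebraMap k E (Algebra.norm k f) := rfl
    _ = ∏ τ : F →ₐ[k] E, τ f := h
    _ = ∏ i, σ i f := (hbij.prod_comp (fun τ : F →ₐ[k] E => τ f)).symm
    _ = ∏ i, algebraMap L E (φ i f) := rfl

variable {F : Type} [Field F]

theorem induced_exists_heightOne {R : Type*} [CommRing R] [IsDedekindDomain R] [Algebra R F]
    [IsFractionRing R F] (O : ValuationSubring F) (hR : ∀ r : R, algebraMap R F r ∈ O)
    (hO : O ≠ ⊤) :
    ∃ w : HeightOneSpectrum R, (w.valuation F).valuationSubring = O ∧
      ∀ r : R, r ∈ w.asIdeal ↔ O.valuation (algebraMap R F r) < 1 := by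
  let j : R →+* O := (algebraMap R F).codRestrict O.toSubring hR
  let P : Ideal R := (IsLocalRing.maximalIdeal O).comap j
  have hPmem : ∀ r : R, r ∈ P ↔ O.valuation (algebraMap R F r) < 1 := by
    intro r
    rw [Ideal.mem_comap]
    exact (O.valuation_lt_one_iff (j r))
  have hPprime : P.IsPrime := Ideal.comap_isPrime j _
  have hPne : P ≠ ⊥ := by
    intro hbot
    apply hO
    rw [eq_top_iff]
    intro f _
    obtain ⟨a, s, hs, rfl⟩ := IsFractionRing.div_surjective (A := R) f
    have hs0 : s ≠ 0 := nonZeroDivisors.ne_zero hs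
    have hsP : s ∉ P := by rw [hbot]; simpa using hs0
    rw [hPmem, not_lt] at hsP
    have h1 : O.valuation (algebraMap R F s) = 1 :=
      le_antisymm ((O.valuation_le_one_iff _).2 (hR s)) hsP
    rw [← O.valuation_le_one_iff, map_div₀, h1, div_one, O.valuation_le_one_iff]
    exact hR a
  let w : HeightOneSpectrum R := ⟨P, hPprime, hPne⟩
  refine ⟨w, ?_, hPmem⟩
  rw [← HeightOneSpectrum.valuationSubringAtPrime_eq_valuationSubring]
  refine ValuationSubring.eq_of_le_of_ne_top _ ?_ hO
  rw [HeightOneSpectrum.valuationSubringAtPrime_eq_valuationSubring]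
  intro f hf
  obtain ⟨n, d, hnd⟩ := w.exists_primeCompl_mul_eq_of_integer f hf
  have hdP : (d : R) ∉ P := d.2
  rw [hPmem, not_lt] at hdP
  have h1 : O.valuation (algebraMap R F d) = 1 :=
    le_antisymm ((O.valuation_le_one_iff _).2 (hR d)) hdP
  rw [← O.valuation_le_one_iff]
  have : O.valuation (f * algebraMap R F d) = O.valuation f := by rw [map_mul, h1, mul_one]
  rw [← this, hnd, O.valuation_le_one_iff]
  exact hR n

theorem induced_order_mul (φ : F →+* LaurentSeries ℂ) {a b : F} (ha : a ≠ 0) (hb : b ≠ 0) :
    (φ (a * b)).order = (φ a).order + (φ b).order := by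
  rw [map_mul]
  exact HahnSeries.order_mul ((map_ne_zero φ).2 ha) ((map_ne_zero φ).2 hb)

theorem induced_order_inv (φ : F →+* LaurentSeries ℂ) (a : F) :
    (φ a⁻¹).order = -(φ a).order := by
  rcases eq_or_ne a 0 with rfl | ha
  · simp
  · have h := induced_order_mul φ ha (inv_ne_zero ha)
    rw [mul_inv_cancel₀ ha, map_one, HahnSeries.order_one] at h
    omega

theorem induced_order_prod {X : Type*} (φ : X → F →+* LaurentSeries ℂ) (s : Finset X) {b : F}
    (hb : b ≠ 0) : (∏ i ∈ s, φ i b).order = ∑ i ∈ s, (φ i b).order := by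
  classical
  induction s using Finset.induction_on with
  | empty => simp
  | insert i s his ih =>
    rw [Finset.prod_insert his, Finset.sum_insert his, ← ih]
    refine HahnSeries.order_mul ((map_ne_zero (φ i)).2 hb) ?_
    exact Finset.prod_ne_zero_iff.2 fun j _ => (map_ne_zero (φ j)).2 hb

/-- The valuation subring of `F` induced by an embedding in `ℂ((t))`. -/
def orderSubring (φ : F →+* LaurentSeries ℂ) : ValuationSubring F where
  carrier := {f | 0 ≤ (φ f).order}
  mul_mem' := by
    intro a b ha hb
    simp only [Set.mem_ofPred_eq] at *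
    rcases eq_or_ne a 0 with rfl | ha0
    · simp
    rcases eq_or_ne b 0 with rfl | hb0
    · simp
    rw [induced_order_mul φ ha0 hb0]
    omega
  one_mem' := by simp
  add_mem' := by
    intro a b ha hb
    simp only [Set.mem_ofPred_eq] at *
    rcases eq_or_ne (a + b) 0 with h | h
    · rw [h]; simp
    · have h' : φ a + φ b ≠ 0 := by rw [← map_add]; exact (map_ne_zero φ).2 h
      have := HahnSeries.min_order_le_order_add h'
      rw [map_add]
      exact le_trans (le_min ha hb) this
  zero_mem' := by simp
  neg_mem' := by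
    intro a ha
    simp only [Set.mem_ofPred_eq] at *
    rw [map_neg, HahnSeries.order_neg]
    exact ha
  mem_or_inv_mem' := by
    intro a
    simp only [Set.mem_ofPred_eq]
    rw [induced_order_inv]
    omega

theorem mem_orderSubring (φ : F →+* LaurentSeries ℂ) (f : F) :
    f ∈ orderSubring φ ↔ 0 ≤ (φ f).order := Iff.rfl

theorem induced_valuation_lt_one_iff_inv (O : ValuationSubring F) {f : F} (hf : f ≠ 0) :
    O.valuation f < 1 ↔ f⁻¹ ∉ O := by
  rw [← O.valuation_le_one_iff, map_inv₀, not_le]
  have h0 : 0 < O.valuation f := zero_lt_iff.2 ((Valuation.ne_zero_iff _).2 hf)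
  rw [one_lt_inv₀ h0]

theorem induced_valuation_lt_one_iff (φ : F →+* LaurentSeries ℂ) {f : F} (hf : f ≠ 0) :
    (orderSubring φ).valuation f < 1 ↔ 0 < (φ f).order := by
  rw [induced_valuation_lt_one_iff_inv _ hf, mem_orderSubring, induced_order_inv]
  omega

end General

variable {K F : Type} [Field K] [Field F] [Algebra K F]

/-- `K[x] ⊆ O`. -/
theorem induced_adjoin_le (x : F) (O : ValuationSubring F)
    (hK : ∀ a : K, algebraMap K F a ∈ O) (hxO : x ∈ O) (a : F) (ha : a ∈ Algebra.adjoin K {x}) :
    a ∈ O := by
  induction ha using Algebra.adjoin_induction with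
  | mem y hy => rw [Set.mem_singleton_iff] at hy; rw [hy]; exact hxO
  | algebraMap r => exact hK r
  | add y z _ _ hy hz => exact O.add_mem _ _ hy hz
  | mul y z _ _ hy hz => exact O.mul_mem _ _ hy hz

/-- The integral closure of `K[x]` is contained in every valuation ring containing `K[x]`. -/
theorem induced_integralClosure_le (x : F) (O : ValuationSubring F)
    (hK : ∀ a : K, algebraMap K F a ∈ O) (hxO : x ∈ O) (b : F)
    (hb : b ∈ integralClosure (Algebra.adjoin K {x}) F) : b ∈ O := by
  obtain ⟨p, hp, hpb⟩ := hb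
  let j : Algebra.adjoin K {x} →+* O :=
    { toFun := fun a => ⟨a.1, induced_adjoin_le x O hK hxO a.1 a.2⟩
      map_one' := rfl
      map_mul' := fun _ _ => rfl
      map_zero' := rfl
      map_add' := fun _ _ => rfl }
  have hint : IsIntegral O b := by
    refine ⟨p.map j, hp.map j, ?_⟩
    rw [Polynomial.eval₂_map]
    exact hpb
  obtain ⟨y, hy⟩ := IsIntegrallyClosed.isIntegral_iff.mp hint
  rw [← hy]
  exact y.2

theorem induced_isPrincipalIdealRing (x : F) (hx : Transcendental K x) :
    IsPrincipalIdealRing (Algebra.adjoin K {x}) :=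
  IsPrincipalIdealRing.of_surjective
    (Polynomial.algEquivOfTranscendental K x hx).toRingEquiv.toRingHom
    (Polynomial.algEquivOfTranscendental K x hx).surjective

theorem induced_isDedekindDomain [CharZero K] (x : F) (hx : Transcendental K x)
    [FiniteDimensional K⟮x⟯ F] :
    IsDedekindDomain (integralClosure (Algebra.adjoin K {x}) F) := by
  have := induced_isPrincipalIdealRing x hx
  have : CharZero K⟮x⟯ := charZero_of_injective_algebraMap (algebraMap K K⟮x⟯).injective
  exact integralClosure.isDedekindDomain (Algebra.adjoin K {x}) K⟮x⟯ F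

theorem induced_isFractionRing (x : F) [FiniteDimensional K⟮x⟯ F] :
    IsFractionRing (integralClosure (Algebra.adjoin K {x}) F) F := 
  IsIntegralClosure.isFractionRing_of_finite_extension (Algebra.adjoin K {x}) K⟮x⟯ F _

theorem induced_norm_key [CharZero K] (x : F) (hx : Transcendental K x)
    [FiniteDimensional K⟮x⟯ F] (b : integralClosure (Algebra.adjoin K {x}) F) :
    ∃ a : Algebra.adjoin K {x}, algebraMap K⟮x⟯ F (Algebra.norm K⟮x⟯ (b : F)) = (a : F) ∧
      ∃ c : integralClosure (Algebra.adjoin K {x}) F, (a : F) = (b : F) * (c : F) := by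
  have := induced_isPrincipalIdealRing x hx
  have : CharZero K⟮x⟯ := charZero_of_injective_algebraMap (algebraMap K K⟮x⟯).injective
  have := induced_isDedekindDomain x hx
  have := induced_isFractionRing (K := K) x
  have : Module.Finite (Algebra.adjoin K {x}) (integralClosure (Algebra.adjoin K {x}) F) :=
    IsIntegralClosure.finite (Algebra.adjoin K {x}) K⟮x⟯ F _
  refine ⟨Algebra.intNorm (Algebra.adjoin K {x}) (integralClosure (Algebra.adjoin K {x}) F) b,
    ?_, ?_⟩
  · have h := Algebra.algebraMap_intNorm (A := Algebra.adjoin K {x}) (K := K⟮x⟯) (L := F)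
      (B := integralClosure (Algebra.adjoin K {x}) F) b
    have h2 := congrArg (algebraMap K⟮x⟯ F) h
    exact h2.symm
  · obtain ⟨c, hc⟩ := Algebra.dvd_algebraMap_intNorm_self (Algebra.adjoin K {x}) _ b
    refine ⟨c, ?_⟩
    have h2 := congrArg (algebraMap (integralClosure (Algebra.adjoin K {x}) F) F) hc
    exact h2

theorem induced_mem_iff_ord_nonneg (v : Place K F) {f : F} (hf : f ≠ 0) :
    f ∈ v.toValuationSubring ↔ 0 ≤ v.ord f := by
  obtain ⟨π, hπ⟩ := IsDiscreteValuationRing.exists_irreducible v.toValuationSubring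
  constructor
  · intro hmem
    obtain ⟨n, u, hu⟩ := IsDiscreteValuationRing.eq_unit_mul_pow_irreducible
      (x := (⟨f, hmem⟩ : v.toValuationSubring)) (by simpa [Subtype.ext_iff] using hf) hπ
    have h2 : f = ((u : v.toValuationSubring) : F) * (π : F) ^ (n : ℤ) := by
      have := congrArg Subtype.val hu
      simpa using this
    rw [h2, v.ord_unit_smul_zpow u hπ]
    omega
  · intro h
    obtain ⟨u, hu⟩ := v.exists_unit_mul_zpow hf hπ
    rw [hu]
    lift v.ord f to ℕ using h with n
    rw [zpow_natCast]
    exact v.toValuationSubring.mul_mem _ _ u.1.2 (v.toValuationSubring.pow_mem π.2 n)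

theorem induced_ord_pos_iff (v : Place K F) {f : F} (hf : f ≠ 0) :
    0 < v.ord f ↔ f⁻¹ ∉ v.toValuationSubring := by
  rw [induced_mem_iff_ord_nonneg v (inv_ne_zero hf), v.ord_inv]
  omega

/-- Every element of `K[x]` is a constant plus a multiple of `x`. -/
theorem induced_exists_const_add (x : F) (a : F) (ha : a ∈ Algebra.adjoin K {x}) :
    ∃ c : K, ∃ a' ∈ Algebra.adjoin K {x}, a = algebraMap K F c + x * a' := by
  induction ha using Algebra.adjoin_induction with
  | mem y hy =>
    rw [Set.mem_singleton_iff] at hy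
    exact ⟨0, 1, one_mem _, by rw [hy]; simp⟩
  | algebraMap r => exact ⟨r, 0, zero_mem _, by simp⟩
  | add y z _ _ hy hz =>
    obtain ⟨c, y', hy', rfl⟩ := hy
    obtain ⟨d, z', hz', rfl⟩ := hz
    exact ⟨c + d, y' + z', add_mem hy' hz', by rw [map_add]; ring⟩
  | mul y z _ _ hy hz =>
    obtain ⟨c, y', hy', rfl⟩ := hy
    obtain ⟨d, z', hz', rfl⟩ := hz
    refine ⟨c * d, algebraMap K F c * z' + algebraMap K F d * y' + x * y' * z', ?_, by
      rw [map_mul]; ring⟩
    have hxA : x ∈ Algebra.adjoin K {x} := Algebra.self_mem_adjoin_singleton K x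
    exact add_mem (add_mem (mul_mem (Subalgebra.algebraMap_mem _ c) hz')
      (mul_mem (Subalgebra.algebraMap_mem _ d) hy')) (mul_mem (mul_mem hxA hy') hz')

theorem induced_agree {X : Type} {x : F} {e0 : ℕ} {g : Equiv.Perm X}
    (U : UnifData K F X x e0 g) (i i' : X) (r : K⟮x⟯) :
    U.φ i (algebraMap K⟮x⟯ F r) = U.φ i' (algebraMap K⟮x⟯ F r) := by
  let E : IntermediateField K F :=
    { carrier := {f | U.φ i f = U.φ i' f}
      mul_mem' := by
        intro a b ha hb
        simp only [Set.mem_ofPred_eq] at *
        rw [map_mul, map_mul, ha, hb]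
      add_mem' := by
        intro a b ha hb
        simp only [Set.mem_ofPred_eq] at *
        rw [map_add, map_add, ha, hb]
      algebraMap_mem' := by
        intro a
        simp only [Set.mem_ofPred_eq]
        rw [U.map_const, U.map_const]
      inv_mem' := by
        intro a ha
        simp only [Set.mem_ofPred_eq] at *
        rw [map_inv₀, map_inv₀, ha] }
  have hle : K⟮x⟯ ≤ E := by
    rw [adjoin_le_iff]
    rintro _ rfl
    exact U.map_x i i'
  exact hle r.2

theorem induced_const_mem {X : Type} {x : F} {e0 : ℕ} {g : Equiv.Perm X}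
    (U : UnifData K F X x e0 g) (i : X) (a : K) : algebraMap K F a ∈ orderSubring (U.φ i) := by
  rw [mem_orderSubring, U.map_const, HahnSeries.order_C]

theorem induced_x_mem {X : Type} {x : F} {e0 : ℕ} {g : Equiv.Perm X}
    (U : UnifData K F X x e0 g) (i : X) : x ∈ orderSubring (U.φ i) := by
  rw [mem_orderSubring, U.order_x]
  positivity

theorem induced_ne_top {X : Type} {x : F} {e0 : ℕ} {g : Equiv.Perm X}
    (U : UnifData K F X x e0 g) (i : X) : orderSubring (U.φ i) ≠ ⊤ := by
  intro h
  have h1 : x⁻¹ ∈ orderSubring (U.φ i) := h ▸ ValuationSubring.mem_top _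
  rw [mem_orderSubring, induced_order_inv, U.order_x] at h1
  have := U.e0_pos
  omega

/-- PIECE C1 (norm + prime avoidance). Every zero of `x` is induced by one of the embeddings. -/
theorem UnifData.exists_induced [IsAlgClosed K] [CharZero K] {X : Type} [Finite X] {x : F}
    {e0 : ℕ} {g : Equiv.Perm X} (U : UnifData K F X x e0 g) (hx : Transcendental K x)
    [FiniteDimensional K⟮x⟯ F] (hn : Nat.card X = Module.finrank K⟮x⟯ F)
    (v : Place K F) (hv : 0 < v.ord x) :
    ∃ i, ∀ f : F, f ∈ v.toValuationSubring ↔ 0 ≤ (U.φ i f).order := by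
  classical
  have := Fintype.ofFinite X
  have hx0 : x ≠ 0 := by
    rintro rfl
    simp at hv
  have : CharZero K⟮x⟯ := charZero_of_injective_algebraMap (algebraMap K K⟮x⟯).injective
  have := induced_isDedekindDomain x hx
  have := induced_isFractionRing (K := K) x
  have hxv : x ∈ v.toValuationSubring := (induced_mem_iff_ord_nonneg v hx0).2 hv.le
  have hAv : ∀ a ∈ Algebra.adjoin K {x}, a ∈ v.toValuationSubring :=
    induced_adjoin_le x _ v.algebraMap_mem' hxv
  have hBv : ∀ b : integralClosure (Algebra.adjoin K {x}) F,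
      algebraMap (integralClosure (Algebra.adjoin K {x}) F) F b ∈ v.toValuationSubring :=
    fun b => induced_integralClosure_le x _ v.algebraMap_mem' hxv b b.2
  obtain ⟨wv, hwv, hwv'⟩ := induced_exists_heightOne v.toValuationSubring hBv v.ne_top'
  have hBi : ∀ i (b : integralClosure (Algebra.adjoin K {x}) F),
      algebraMap (integralClosure (Algebra.adjoin K {x}) F) F b ∈ orderSubring (U.φ i) :=
    fun i b => induced_integralClosure_le x _ (induced_const_mem U i) (induced_x_mem U i) b b.2
  choose w hw hw' using fun i =>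
    induced_exists_heightOne (orderSubring (U.φ i)) (hBi i) (induced_ne_top U i)
  by_cases hex : ∃ i, wv = w i
  · obtain ⟨i, hi⟩ := hex
    refine ⟨i, fun f => ?_⟩
    rw [← mem_orderSubring, ← hw i, ← hi, hwv]
  · exfalso
    push Not at hex
    have hcard : Fintype.card X = Module.finrank K⟮x⟯ F := by
      rw [← hn, Nat.card_eq_fintype_card]
    have hpos : 0 < Fintype.card X := by rw [hcard]; exact Module.finrank_pos
    obtain ⟨i0⟩ : Nonempty X := Fintype.card_pos_iff.1 hpos
    -- prime avoidance
    have hav : ¬ ((wv.asIdeal : Set (integralClosure (Algebra.adjoin K {x}) F)) ⊆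
        ⋃ i ∈ ((Finset.univ : Finset X) : Set X), ((w i).asIdeal : Set _)) := by
      intro hsub
      rw [Ideal.subset_union_prime i0 i0 (fun i _ _ _ => (w i).isPrime)] at hsub
      obtain ⟨i, _, hi⟩ := hsub
      apply hex i
      ext1
      exact wv.isMaximal.eq_of_le (w i).isPrime.ne_top hi
    rw [Set.not_subset] at hav
    obtain ⟨b, hbv, hbi⟩ := hav
    have hbi' : ∀ i, b ∉ (w i).asIdeal := by
      intro i hi
      apply hbi
      simp only [Set.mem_iUnion]
      exact ⟨i, by simp, hi⟩
    have hb0 : (b : F) ≠ 0 := by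
      intro h
      apply hbi' i0
      have : b = 0 := Subtype.ext h
      rw [this]
      exact zero_mem _
    obtain ⟨a, ha, c, hc⟩ := induced_norm_key x hx b
    have hprod := induced_norm_eq_prod U.φ (induced_agree U) U.inj hcard i0 (b : F)
    rw [ha] at hprod
    -- the right hand side has order zero
    have hord0 : (U.φ i0 (a : F)).order = 0 := by
      rw [hprod, induced_order_prod U.φ _ hb0]
      refine Finset.sum_eq_zero fun i _ => ?_
      have h1 : 0 ≤ (U.φ i (b : F)).order := hBi i b
      have h2 := hbi' i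
      rw [hw' i] at h2
      have h3 : ¬ 0 < (U.φ i (b : F)).order := fun h =>
        h2 ((induced_valuation_lt_one_iff (U.φ i) hb0).2 h)
      omega
    have ha0 : (a : F) ≠ 0 := by
      intro h
      rw [h, map_zero] at hprod
      exact (Finset.prod_ne_zero_iff.2 fun j _ => (map_ne_zero (U.φ j)).2 hb0) hprod.symm
    -- `a` lies in the maximal ideal of `v`
    have hav : v.toValuationSubring.valuation (a : F) < 1 := by
      have h1 : b * c ∈ wv.asIdeal := Ideal.mul_mem_right _ _ hbv
      rw [hwv'] at h1
      rw [hc]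
      exact h1
    obtain ⟨k, a', ha', hdec⟩ := induced_exists_const_add x (a : F) a.2
    have hxm : (⟨x, hxv⟩ : v.toValuationSubring) ∈ IsLocalRing.maximalIdeal v.toValuationSubring := by
      rw [ValuationSubring.valuation_lt_one_iff]
      exact (induced_valuation_lt_one_iff_inv _ hx0).2 ((induced_ord_pos_iff v hx0).1 hv)
    have ham : (⟨(a : F), hAv _ a.2⟩ : v.toValuationSubring) ∈
        IsLocalRing.maximalIdeal v.toValuationSubring := by
      rw [ValuationSubring.valuation_lt_one_iff]
      exact hav
    have hk : k = 0 := by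
      by_contra hk
      have hkm : (⟨(a : F), hAv _ a.2⟩ : v.toValuationSubring) -
          ⟨x, hxv⟩ * ⟨a', hAv _ ha'⟩ ∈ IsLocalRing.maximalIdeal v.toValuationSubring :=
        Ideal.sub_mem _ ham (Ideal.mul_mem_right _ _ hxm)
      rw [ValuationSubring.valuation_lt_one_iff] at hkm
      have hcoe : (((⟨(a : F), hAv _ a.2⟩ : v.toValuationSubring) -
          ⟨x, hxv⟩ * ⟨a', hAv _ ha'⟩ : v.toValuationSubring) : F) = algebraMap K F k := by
        push_cast
        rw [hdec]
        ring
      rw [hcoe, induced_valuation_lt_one_iff_inv _ ((map_ne_zero _).2 hk), ← map_inv₀] at hkm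
      exact hkm (v.algebraMap_mem' _)
    rw [hk, map_zero, zero_add] at hdec
    have ha'0 : a' ≠ 0 := by
      rintro rfl
      apply ha0
      rw [hdec, mul_zero]
    rw [hdec, induced_order_mul _ hx0 ha'0, U.order_x] at hord0
    have h1 : 0 ≤ (U.φ i0 a').order :=
      induced_adjoin_le x _ (induced_const_mem U i0) (induced_x_mem U i0) a' ha'
    have := U.e0_pos
    omega

/-- PIECE C2. Each embedding induces a place which is a zero of `x`. -/
theorem UnifData.exists_place [IsAlgClosed K] [CharZero K] {X : Type} [Finite X] {x : F}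
    {e0 : ℕ} {g : Equiv.Perm X} (U : UnifData K F X x e0 g) (hx : Transcendental K x)
    [FiniteDimensional K⟮x⟯ F] (i : X) :
    ∃ v : Place K F, 0 < v.ord x ∧ ∀ f : F, f ∈ v.toValuationSubring ↔ 0 ≤ (U.φ i f).order := by
  have := induced_isDedekindDomain x hx
  have := induced_isFractionRing (K := K) x
  have hBi : ∀ (b : integralClosure (Algebra.adjoin K {x}) F),
      algebraMap (integralClosure (Algebra.adjoin K {x}) F) F b ∈ orderSubring (U.φ i) :=
    fun b => induced_integralClosure_le x _ (induced_const_mem U i) (induced_x_mem U i) b b.2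
  obtain ⟨w, hw, -⟩ := induced_exists_heightOne (orderSubring (U.φ i)) hBi (induced_ne_top U i)
  have hx0 : x ≠ 0 := by
    rintro rfl
    have := U.order_x i
    have := U.e0_pos
    simp at *
    omega
  refine ⟨Place.ofHeightOneSpectrum (K := K) w, ?_, ?_⟩
  · rw [induced_ord_pos_iff _ hx0, Place.ofHeightOneSpectrum_toValuationSubring, hw,
      mem_orderSubring, induced_order_inv, U.order_x]
    have := U.e0_pos
    omega
  · intro f
    rw [Place.ofHeightOneSpectrum_toValuationSubring, hw, mem_orderSubring]

end Fermat.Agent.S24
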