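import Fermat.Agent.S24.Hol
import Fermat.Agent.Lib.JQExp
import Fermat.Prelude.Def_ModularCurve_JqCoeff

set_option autoImplicit false

namespace Fermat.Agent.S24

open UpperHalfPlane Function ModularForm EisensteinSeries
open scoped Manifold MatrixGroups

local notation "𝕢" => Periodic.qParam

/-- The analytic `j`-function `E₄³/Δ`. -/
noncomputable def jfun (τ : ℍ) : ℂ := (E₄ τ) ^ 3 / ModularForm.discriminant τ

/-- PIECE J1. -/
theorem jfun_mdiff : MDiff jfun := by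
  rw [UpperHalfPlane.mdifferentiable_iff]
  have h4 := UpperHalfPlane.mdifferentiable_iff.mp (ModularFormClass.holo E₄)
  have hD := UpperHalfPlane.mdifferentiable_iff.mp (CuspFormClass.holo CuspForm.discriminant)
  exact (h4.pow 3).div hD (fun z _ => ModularForm.discriminant_ne_zero _)

noncomputable def jHol : Hol := ⟨jfun, jfun_mdiff⟩

@[simp] theorem jHol_apply (τ : ℍ) : (jHol : ℍ → ℂ) τ = jfun τ := rfl

theorem jf_apply_smul {k : ℤ} {F : Type*} [FunLike F ℍ ℂ] [SlashInvariantFormClass F 𝒮ℒ k]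
    (f : F) (γ : SL(2, ℤ)) (τ : ℍ) : f (γ • τ) = denom γ τ ^ k * f τ :=
  SlashInvariantForm.slash_action_eqn'' (Γ := 𝒮ℒ) f
    (γ := Matrix.SpecialLinearGroup.mapGL ℝ γ) (MonoidHom.mem_range.mpr ⟨γ, rfl⟩) τ

/-- PIECE J2. -/
theorem jfun_smul (γ : SL(2, ℤ)) (τ : ℍ) : jfun (γ • τ) = jfun τ := by
  have h4 := jf_apply_smul E₄ γ τ
  have hD := jf_apply_smul CuspForm.discriminant γ τ
  rw [CuspForm.coe_discriminant] at hD
  have hd : denom γ τ ≠ 0 := denom_ne_zero γ τ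
  have hΔ := ModularForm.discriminant_ne_zero τ
  unfold jfun
  rw [h4, hD]
  generalize denom γ τ = d at *
  generalize E₄ τ = a at *
  generalize ModularForm.discriminant τ = b at *
  have e1 : (d ^ (4 : ℤ)) = d ^ 4 := zpow_natCast d 4
  have e2 : (d ^ (12 : ℤ)) = d ^ 12 := zpow_natCast d 12
  rw [e1, e2]
  field_simp

theorem compHom_jHol (γ : SL(2, ℤ)) : compHom γ jHol = jHol := by
  ext τ; exact jfun_smul γ τ

theorem jf_tendsto_E4 : Filter.Tendsto (fun τ : ℍ => E₄ τ) atImInfty (nhds 1) := by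
  have han := ModularFormClass.analyticAt_cuspFunction_zero E₄ one_pos one_mem_strictPeriods_SL
  have h := han.continuousAt.tendsto.comp (qParam_tendsto_atImInfty one_pos)
  have h0 : cuspFunction 1 E₄ 0 = 1 := by
    have := E_qExpansion_coeff_zero (k := 4) (by norm_num) ⟨2, rfl⟩
    simpa [qExpansion_coeff] using this
  rw [h0] at h
  refine h.congr fun τ => ?_
  exact SlashInvariantFormClass.eq_cuspFunction E₄ τ one_mem_strictPeriods_SL one_ne_zero

theorem jf_tprod_ne_zero (τ : ℍ) : ∏' n : ℕ, (1 - eta_q n τ) ^ 24 ≠ 0 := by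
  have := ModularForm.discriminant_ne_zero τ
  rw [ModularForm.discriminant_eq_q_prod] at this
  exact right_ne_zero_of_mul this

theorem jf_mul_q (τ : ℍ) :
    jfun τ * 𝕢 1 τ = E₄ τ ^ 3 / ∏' n : ℕ, (1 - eta_q n τ) ^ 24 := by
  have h1 := jf_tprod_ne_zero τ
  have h2 : 𝕢 1 (τ : ℂ) ≠ 0 := Periodic.qParam_ne_zero _
  unfold jfun
  rw [ModularForm.discriminant_eq_q_prod]
  field_simp

/-- PIECE J9. Asymptotics of `j` at `i∞`. -/
theorem tendsto_jfun_mul_q :
    Filter.Tendsto (fun τ : ℍ => jfun τ * 𝕢 1 τ) atImInfty (nhds 1) := by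
  have := (jf_tendsto_E4.pow 3).div ModularForm.tendsto_atImInfty_tprod_one_sub_eta_q_pow
    one_ne_zero
  simp only [one_pow, div_one] at this
  exact this.congr fun τ => (jf_mul_q τ).symm

theorem jf_periodic : Periodic (jfun ∘ ofComplex) ((1 : ℝ) : ℂ) := by
  have h4 := SlashInvariantFormClass.periodic_comp_ofComplex E₄ one_mem_strictPeriods_SL
  have hD := SlashInvariantFormClass.periodic_comp_ofComplex CuspForm.discriminant
    one_mem_strictPeriods_SL
  intro z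
  have h4' := h4 z
  have hD' := hD z
  simp only [Function.comp_apply, CuspForm.coe_discriminant] at h4' hD' ⊢
  unfold jfun
  rw [h4', hD']

/-- PIECE J3. -/
theorem jfun_mem_MerInf : jfun ∈ MerInf 1 := by
  refine mem_MerInf.mpr ⟨jfun_mdiff, ?_, 1, ?_⟩
  · simpa using jf_periodic
  · have : IsBoundedAtImInfty (fun τ : ℍ => jfun τ * 𝕢 1 τ) := tendsto_jfun_mul_q.isBigO_one ℝ
    simpa only [Nat.cast_one, pow_one] using this

/-- PIECE J4. The `q`-expansion of `E₄` is the formal series of the prelude. -/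
theorem qExpansion_E4 :
    qExpansion 1 E₄ = ModularCurve.eisenstein4.map (Int.castRingHom ℂ) :=
  Lib.JQExp.qExpansion_E4

/-- PIECE J5. The `q`-expansion of `Δ` is `q ∏ (1 - qⁿ)²⁴` as a formal series. -/
theorem qExpansion_discriminant :
    qExpansion 1 ModularForm.discriminant =
      PowerSeries.X * ModularCurve.dedekindEtaUnit.map (Int.castRingHom ℂ) :=
  Lib.JQExp.qExpansion_discriminant

theorem jf_mem_MerInf_of_bdd {f : ℍ → ℂ} (h1 : MDiff f)
    (h2 : Periodic (f ∘ ofComplex) ((1 : ℝ) : ℂ)) (h3 : IsBoundedAtImInfty f) : f ∈ MerInf 1 := by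
  refine mem_MerInf.mpr ⟨h1, ?_, 0, ?_⟩
  · simpa using h2
  · simpa only [pow_zero, mul_one] using h3

theorem jf_laurentHom_of_bdd {f : ℍ → ℂ} (hf : f ∈ MerInf 1) (h3 : IsBoundedAtImInfty f) :
    laurentHom 1 ⟨f, hf⟩ = HahnSeries.ofPowerSeries ℤ ℂ (qExpansion 1 f) := by
  have := laurentHom_eq 1 ⟨f, hf⟩ 0 (by simpa only [pow_zero, mul_one] using h3)
  rw [this]
  simp only [pow_zero, mul_one, Nat.cast_zero, neg_zero, Nat.cast_one]
  rw [show (HahnSeries.single (0 : ℤ) (1 : ℂ)) = 1 from rfl, one_mul]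

theorem jf_E4_mem : (E₄ : ℍ → ℂ) ∈ MerInf 1 :=
  jf_mem_MerInf_of_bdd (ModularFormClass.holo E₄)
    (SlashInvariantFormClass.periodic_comp_ofComplex E₄ one_mem_strictPeriods_SL)
    (ModularFormClass.bdd_at_infty E₄)

theorem jf_disc_mem : ModularForm.discriminant ∈ MerInf 1 :=
  jf_mem_MerInf_of_bdd (CuspFormClass.holo CuspForm.discriminant)
    (SlashInvariantFormClass.periodic_comp_ofComplex CuspForm.discriminant one_mem_strictPeriods_SL)
    (ModularFormClass.bdd_at_infty CuspForm.discriminant)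

theorem jf_laurentHom_E4 :
    laurentHom 1 ⟨E₄, jf_E4_mem⟩ =
      HahnSeries.ofPowerSeries ℤ ℂ (ModularCurve.eisenstein4.map (Int.castRingHom ℂ)) := by
  rw [jf_laurentHom_of_bdd _ (ModularFormClass.bdd_at_infty E₄), qExpansion_E4]

theorem jf_laurentHom_disc :
    laurentHom 1 ⟨ModularForm.discriminant, jf_disc_mem⟩ =
      HahnSeries.single (1 : ℤ) 1 *
        HahnSeries.ofPowerSeries ℤ ℂ (ModularCurve.dedekindEtaUnit.map (Int.castRingHom ℂ)) := by
  rw [jf_laurentHom_of_bdd (f := ModularForm.discriminant) _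
      (ModularFormClass.bdd_at_infty CuspForm.discriminant),
    qExpansion_discriminant, map_mul, HahnSeries.ofPowerSeries_X]

/-- PIECE J6. Analytic `j` has the formal `q`-expansion of the prelude. -/
theorem laurentHom_jfun :
    laurentHom 1 ⟨jfun, jfun_mem_MerInf⟩ = ModularCurve.jqModC ℂ := by
  have hmul : (⟨jfun, jfun_mem_MerInf⟩ : MerInf 1) * ⟨ModularForm.discriminant, jf_disc_mem⟩ =
      (⟨E₄, jf_E4_mem⟩ : MerInf 1) ^ 3 := by
    apply Subtype.ext
    funext τ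
    have hΔ := ModularForm.discriminant_ne_zero τ
    show jfun τ * ModularForm.discriminant τ = E₄ τ ^ 3
    unfold jfun
    field_simp
  have h := congrArg (laurentHom 1) hmul
  rw [map_mul, map_pow, jf_laurentHom_E4, jf_laurentHom_disc] at h
  set L := laurentHom 1 ⟨jfun, jfun_mem_MerInf⟩ with hL
  have hinv : HahnSeries.ofPowerSeries ℤ ℂ (ModularCurve.dedekindEtaUnit.map (Int.castRingHom ℂ)) *
      HahnSeries.ofPowerSeries ℤ ℂ (ModularCurve.dedekindEtaUnitInv.map (Int.castRingHom ℂ)) = 1 := by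
    rw [← map_mul, ← map_mul, ModularCurve.dedekindEtaUnit_mul_inv, map_one, map_one]
  have hs : HahnSeries.single (1 : ℤ) (1 : ℂ) * HahnSeries.single (-1 : ℤ) 1 = 1 := by
    rw [HahnSeries.single_mul_single]
    simp
  rw [ModularCurve.jqModC, ModularCurve.jNum, map_mul, map_mul, map_pow, map_pow, ← h]
  calc L = L * ((HahnSeries.single (1 : ℤ) (1 : ℂ) * HahnSeries.single (-1 : ℤ) 1) *
        (HahnSeries.ofPowerSeries ℤ ℂ (ModularCurve.dedekindEtaUnit.map (Int.castRingHom ℂ)) *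
      HahnSeries.ofPowerSeries ℤ ℂ (ModularCurve.dedekindEtaUnitInv.map (Int.castRingHom ℂ)))) := by
        rw [hinv, hs, mul_one, mul_one]
    _ = _ := by ring

/-- `τ ↦ d τ` on the upper half plane. -/
noncomputable def mulPos (d : ℕ) [NeZero d] (τ : ℍ) : ℍ :=
  ⟨(d : ℂ) * τ, by
    have hd : (0 : ℝ) < d := by exact_mod_cast Nat.pos_of_ne_zero (NeZero.ne d)
    simpa using mul_pos hd τ.im_pos⟩

@[simp] theorem coe_mulPos (d : ℕ) [NeZero d] (τ : ℍ) : ((mulPos d τ : ℍ) : ℂ) = (d : ℂ) * τ := rfl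

/-- `j_d(τ) = j(dτ)`. -/
noncomputable def jdfun (d : ℕ) [NeZero d] (τ : ℍ) : ℂ := jfun (mulPos d τ)

theorem jf_coeff_jqModC_of_lt {k : ℤ} (hk : k < -1) : (ModularCurve.jqModC ℂ).coeff k = 0 := by
  rw [ModularCurve.jqModC, HahnSeries.coeff_single_mul, one_mul]
  exact ModularCurve.ofPowerSeries_coeff_of_neg _ (by omega)

theorem jf_hasSum_jfun (τ : ℍ) :
    HasSum (fun n : ℕ => (ModularCurve.jqModC ℂ).coeff ((n : ℤ) - 1) * 𝕢 1 τ ^ n)
      (jfun τ * 𝕢 1 τ) := by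
  have := hasSum_laurentHom 1 ⟨jfun, jfun_mem_MerInf⟩ 1
    (by
      intro k hk
      rw [laurentHom_jfun]
      exact jf_coeff_jqModC_of_lt (by simpa using hk)) τ
  rw [laurentHom_jfun] at this
  simpa only [Nat.cast_one, pow_one] using this

theorem jf_qParam_mulPos (d : ℕ) [NeZero d] (τ : ℍ) :
    𝕢 1 (mulPos d τ : ℍ) = 𝕢 1 τ ^ d := by
  simp only [Periodic.qParam, coe_mulPos, ← Complex.exp_nat_mul]
  congr 1
  ring

theorem jf_coeff_qExpand_of_lt (d : ℕ) [NeZero d] {k : ℤ} (hk : k < -(d : ℤ)) :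
    (ModularCurve.qExpand ℂ d (ModularCurve.jqModC ℂ)).coeff k = 0 := by
  by_cases hdk : (d : ℤ) ∣ k
  · obtain ⟨k', rfl⟩ := hdk
    rw [ModularCurve.qExpand_coeff_mul]
    apply jf_coeff_jqModC_of_lt
    have hd : (0 : ℤ) < d := by exact_mod_cast Nat.pos_of_ne_zero (NeZero.ne d)
    nlinarith
  · exact ModularCurve.qExpand_coeff_of_not_dvd d _ hdk

theorem jf_hasSum_jdfun (d : ℕ) [NeZero d] (τ : ℍ) :
    HasSum (fun n : ℕ => (ModularCurve.qExpand ℂ d (ModularCurve.jqModC ℂ)).coeff ((n : ℤ) - d) *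
      𝕢 ((1 : ℕ) : ℝ) τ ^ n) (jdfun d τ * 𝕢 ((1 : ℕ) : ℝ) τ ^ d) := by
  have h := jf_hasSum_jfun (mulPos d τ)
  rw [jf_qParam_mulPos] at h
  rw [Nat.cast_one]
  have hd : d ≠ 0 := NeZero.ne d
  have hinj : Function.Injective (fun n : ℕ => d * n) := fun a b hab =>
    Nat.eq_of_mul_eq_mul_left (Nat.pos_of_ne_zero hd) hab
  rw [← hinj.hasSum_iff]
  · have e : ((fun n : ℕ => (ModularCurve.qExpand ℂ d (ModularCurve.jqModC ℂ)).coeff ((n : ℤ) - d) *
        𝕢 1 τ ^ n) ∘ fun n : ℕ => d * n) =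
        fun n : ℕ => (ModularCurve.jqModC ℂ).coeff ((n : ℤ) - 1) * (𝕢 1 (τ : ℂ) ^ d) ^ n := by
      funext n
      simp only [Function.comp_apply]
      rw [show (((d * n : ℕ) : ℤ) - d) = (d : ℤ) * ((n : ℤ) - 1) by push_cast; ring,
        ModularCurve.qExpand_coeff_mul, pow_mul]
    rw [e]
    exact h
  · intro k hk
    have hdk : ¬ (d : ℤ) ∣ ((k : ℤ) - d) := by
      intro hdvd
      apply hk
      have : (d : ℤ) ∣ (k : ℤ) := by
        have := dvd_add hdvd (dvd_refl (d : ℤ))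
        simpa using this
      obtain ⟨c, hc⟩ := Int.natCast_dvd_natCast.mp this
      exact ⟨c, hc.symm⟩
    rw [ModularCurve.qExpand_coeff_of_not_dvd d _ hdk, zero_mul]

/-- PIECE J7. -/
theorem jdfun_mem_MerInf (d : ℕ) [NeZero d] : jdfun d ∈ MerInf 1 :=
  mem_MerInf_of_hasSum 1 (jdfun d) (ModularCurve.qExpand ℂ d (ModularCurve.jqModC ℂ)) d
    (jf_hasSum_jdfun d)

/-- PIECE J8. -/
theorem laurentHom_jdfun (d : ℕ) [NeZero d] :
    laurentHom 1 ⟨jdfun d, jdfun_mem_MerInf d⟩ = ModularCurve.qExpand ℂ d (ModularCurve.jqModC ℂ) :=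
  laurentHom_eq_of_hasSum 1 ⟨jdfun d, jdfun_mem_MerInf d⟩ _ d
    (fun _ hk => jf_coeff_qExpand_of_lt d hk) (jf_hasSum_jdfun d)

end Fermat.Agent.S24
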