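import Fermat.Agent.S24.Basic

set_option autoImplicit false

namespace Fermat.Agent.S24

open AlgebraicCurve IntermediateField

variable {K F : Type} [Field K] [Field F] [Algebra K F]

theorem order_map_mul (φ : F →+* LaurentSeries ℂ) {f g : F} (hf : f ≠ 0) (hg : g ≠ 0) :
    (φ (f * g)).order = (φ f).order + (φ g).order := by
  rw [map_mul]
  exact HahnSeries.order_mul ((map_ne_zero φ).2 hf) ((map_ne_zero φ).2 hg)

theorem order_map_one (φ : F →+* LaurentSeries ℂ) : (φ 1).order = 0 := by
  rw [map_one]; exact HahnSeries.order_one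

theorem order_map_inv (φ : F →+* LaurentSeries ℂ) (f : F) :
    (φ f⁻¹).order = -(φ f).order := by
  rcases eq_or_ne f 0 with rfl | hf
  · simp
  · have h := order_map_mul φ hf (inv_ne_zero hf)
    rw [mul_inv_cancel₀ hf, order_map_one] at h
    omega

theorem order_map_pow (φ : F →+* LaurentSeries ℂ) (f : F) (n : ℕ) :
    (φ (f ^ n)).order = n * (φ f).order := by
  rcases eq_or_ne f 0 with rfl | hf
  · rcases Nat.eq_zero_or_pos n with rfl | hn
    · simp
    · simp [zero_pow hn.ne']
  · induction n with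
    | zero => simp
    | succ n ih =>
      rw [pow_succ, order_map_mul φ (pow_ne_zero n hf) hf, ih]
      push_cast; ring

theorem order_map_zpow (φ : F →+* LaurentSeries ℂ) (f : F) (n : ℤ) :
    (φ (f ^ n)).order = n * (φ f).order := by
  obtain ⟨m, rfl | rfl⟩ := n.eq_nat_or_neg
  · rw [zpow_natCast, order_map_pow]
  · rw [zpow_neg, zpow_natCast, order_map_inv, order_map_pow]; ring

theorem order_map_div (φ : F →+* LaurentSeries ℂ) {f g : F} (hf : f ≠ 0) (hg : g ≠ 0) :
    (φ (f / g)).order = (φ f).order - (φ g).order := by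
  rw [div_eq_mul_inv, order_map_mul φ hf (inv_ne_zero hg), order_map_inv]; ring

/-- PIECE C3. Comparison of the two valuations. -/
theorem exists_order_eq_mul_ord (v : Place K F) (φ : F →+* LaurentSeries ℂ)
    (h : ∀ f : F, f ∈ v.toValuationSubring ↔ 0 ≤ (φ f).order) :
    ∃ k : ℕ, 0 < k ∧ ∀ f : F, (φ f).order = (k : ℤ) * v.ord f := by
  obtain ⟨π, hπ⟩ := IsDiscreteValuationRing.exists_irreducible v.toValuationSubring
  have hπ0 : (π : F) ≠ 0 := by
    simpa [ne_eq, ZeroMemClass.coe_eq_zero] using hπ.ne_zero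
  have hunit : ∀ u : v.toValuationSubringˣ, (φ ((u : v.toValuationSubring) : F)).order = 0 := by
    intro u
    have h1 := (h _).1 (u : v.toValuationSubring).2
    have h2 := (h _).1 ((u⁻¹ : v.toValuationSubringˣ) : v.toValuationSubring).2
    have h3 : (((u⁻¹ : v.toValuationSubringˣ) : v.toValuationSubring) : F)
        = ((u : v.toValuationSubring) : F)⁻¹ := by
      have : ((u : v.toValuationSubring) : F) * (((u⁻¹ : v.toValuationSubringˣ) : v.toValuationSubring) : F) = 1 := by
        have h4 : ((u : v.toValuationSubring) * ((u⁻¹ : v.toValuationSubringˣ) : v.toValuationSubring)) = 1 := u.mul_inv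
        have h5 := congrArg (Subtype.val) h4
        exact h5
      exact eq_inv_of_mul_eq_one_right this
    rw [h3, order_map_inv] at h2
    omega
  have hk0 : 0 ≤ (φ (π : F)).order := (h _).1 π.2
  have hk1 : (φ (π : F)).order ≠ 0 := by
    intro h0
    have : (π : F)⁻¹ ∈ v.toValuationSubring := by
      rw [h, order_map_inv, h0]; simp
    apply hπ.not_isUnit
    refine IsUnit.of_mul_eq_one ⟨(π : F)⁻¹, this⟩ ?_
    ext
    simp [hπ0]
  refine ⟨(φ (π : F)).order.toNat, by omega, fun f => ?_⟩
  rcases eq_or_ne f 0 with rfl | hf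
  · simp
  obtain ⟨u, hu⟩ := v.exists_unit_mul_zpow hf hπ
  have hu0 : ((u : v.toValuationSubring) : F) ≠ 0 := by
    simp [ne_eq, ZeroMemClass.coe_eq_zero]
  conv_lhs => rw [hu]
  rw [order_map_mul φ hu0 (zpow_ne_zero _ hπ0), hunit, order_map_zpow, Int.toNat_of_nonneg hk0]
  ring

end Fermat.Agent.S24
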