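import Fermat.Agent.S24.Basic

/-!
# PIECE F5: the "genus" of a transitive pair of permutations is a natural number

Parity comes from signs of permutations, nonnegativity from Scott's lemma.
-/

set_option autoImplicit false

namespace Fermat.Agent.S24

open Equiv Equiv.Perm

section Orbits

variable {X : Type}

lemma genus_orbitRel_iff (σ : Perm X) (x y : X) :
    (MulAction.orbitRel (Subgroup.zpowers σ) X) x y ↔ σ.SameCycle y x := by
  rw [MulAction.orbitRel_apply, MulAction.mem_orbit_iff]
  constructor
  · rintro ⟨⟨g, hg⟩, rfl⟩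
    obtain ⟨k, rfl⟩ := Subgroup.mem_zpowers_iff.mp hg
    exact ⟨k, rfl⟩
  · rintro ⟨k, hk⟩
    exact ⟨⟨σ ^ k, Subgroup.zpow_mem_zpowers σ k⟩, hk⟩

lemma genus_orbitCount_eq [Fintype X] [DecidableEq X] (σ : Perm X) :
    orbitCount σ = Multiset.card σ.cycleType + Fintype.card (Function.fixedPoints σ) := by
  classical
  let F0 : X → {c // c ∈ σ.cycleFactorsFinset} ⊕ Function.fixedPoints σ := fun x =>
    if h : σ x = x then Sum.inr ⟨x, h⟩
    else Sum.inl ⟨σ.cycleOf x, cycleOf_mem_cycleFactorsFinset_iff.2 (mem_support.2 h)⟩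
  have hF0 : ∀ x y, F0 x = F0 y ↔ σ.SameCycle x y := by
    intro x y
    by_cases hx : σ x = x <;> by_cases hy : σ y = y
    · simp only [F0, dif_pos hx, dif_pos hy, Sum.inr.injEq]
      constructor
      · intro h
        have h' : x = y := congrArg Subtype.val h
        exact h' ▸ SameCycle.refl _ _
      · intro h
        exact Subtype.ext (h.eq_of_left hx)
    · simp only [F0, dif_pos hx, dif_neg hy, reduceCtorEq, false_iff]
      exact fun h => hy (h.apply_eq_self_iff.1 hx)
    · simp only [F0, dif_neg hx, dif_pos hy, reduceCtorEq, false_iff]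
      exact fun h => hx (h.apply_eq_self_iff.2 hy)
    · simp only [F0, dif_neg hx, dif_neg hy, Sum.inl.injEq, Subtype.mk.injEq]
      exact (sameCycle_iff_cycleOf_eq_of_mem_support (mem_support.2 hx) (mem_support.2 hy)).symm
  let F : MulAction.orbitRel.Quotient (Subgroup.zpowers σ) X →
      {c // c ∈ σ.cycleFactorsFinset} ⊕ Function.fixedPoints σ :=
    Quotient.lift F0 (fun x y h => (hF0 x y).2 ((genus_orbitRel_iff σ x y).1 h).symm)
  have hinj : Function.Injective F := by
    intro q₁ q₂
    induction q₁ using Quotient.inductionOn with | _ x => ?_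
    induction q₂ using Quotient.inductionOn with | _ y => ?_
    intro h
    apply Quotient.sound
    exact (genus_orbitRel_iff σ x y).2 ((hF0 x y).1 h).symm
  have hsurj : Function.Surjective F := by
    rintro (⟨c, hc⟩ | ⟨x, hx⟩)
    · obtain ⟨x, hx⟩ := (mem_cycleFactorsFinset_iff.1 hc).1.nonempty_support
      have hxσ : x ∈ σ.support := mem_cycleFactorsFinset_support_le hc hx
      refine ⟨Quotient.mk _ x, ?_⟩
      show F0 x = _
      simp only [F0, dif_neg (mem_support.1 hxσ), Sum.inl.injEq, Subtype.mk.injEq]
      exact (cycle_is_cycleOf hx hc).symm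
    · refine ⟨Quotient.mk _ x, ?_⟩
      show F0 x = _
      have hx' : σ x = x := hx
      simp only [F0, dif_pos hx']
  unfold orbitCount
  rw [Nat.card_congr (Equiv.ofBijective F ⟨hinj, hsurj⟩), Nat.card_eq_fintype_card,
    Fintype.card_sum, Fintype.card_coe, cycleType_def, Multiset.card_map]
  rfl

lemma genus_sign_eq [Fintype X] [DecidableEq X] (σ : Perm X) :
    sign σ = (-1 : ℤˣ) ^ (Fintype.card X + orbitCount σ) := by
  have h1 := genus_orbitCount_eq σ
  have h2 := σ.card_fixedPoints
  have h3 := σ.sum_cycleType_le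
  rw [sign_of_cycleType]
  have h4 : Fintype.card X + orbitCount σ =
      (σ.cycleType.sum + Multiset.card σ.cycleType) + 2 * (Fintype.card X - σ.cycleType.sum) := by
    omega
  rw [h4, pow_add (-1 : ℤˣ) (σ.cycleType.sum + Multiset.card σ.cycleType), pow_mul]
  simp

lemma genus_parity [Fintype X] [DecidableEq X] (a b : Perm X) :
    Even (Fintype.card X + orbitCount a + orbitCount b + orbitCount (a * b)) := by
  have h := sign_mul a b
  rw [genus_sign_eq, genus_sign_eq a, genus_sign_eq b, ← pow_add] at h
  have h2 : (-1 : ℤˣ) ^ ((Fintype.card X + orbitCount (a * b)) +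
      (Fintype.card X + orbitCount a + (Fintype.card X + orbitCount b))) = 1 := by
    rw [pow_add, h, ← pow_add, ← two_mul, pow_mul]
    simp
  have h3 : Even ((Fintype.card X + orbitCount (a * b)) +
      (Fintype.card X + orbitCount a + (Fintype.card X + orbitCount b))) := by
    by_contra hodd
    rw [Nat.not_even_iff_odd] at hodd
    rw [hodd.neg_one_pow] at h2
    exact absurd h2 (by decide)
  obtain ⟨k, hk⟩ := h3
  exact ⟨k - Fintype.card X, by omega⟩

end Orbits

section Scott

variable {k V : Type} [Field k] [AddCommGroup V] [Module k V] [FiniteDimensional k V]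

omit [FiniteDimensional k V] in
lemma genus_finrank_span_singleton_le (v : V) :
    Module.finrank k (Submodule.span k {v}) ≤ 1 := by
  by_cases h : v = 0
  · subst h
    rw [Submodule.span_zero_singleton, finrank_bot]
    exact Nat.zero_le 1
  · exact (finrank_span_singleton h).le

/-- Scott's lemma (for two endomorphisms and their product). -/
lemma genus_scott (A B : V →ₗ[k] V) :
    Module.finrank k V + Module.finrank k
        (LinearMap.range (LinearMap.id - A) ⊔ LinearMap.range (LinearMap.id - B) : Submodule k V) ≤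
      Module.finrank k (LinearMap.range (LinearMap.id - A)) +
        Module.finrank k (LinearMap.range (LinearMap.id - B)) +
        Module.finrank k (LinearMap.range (LinearMap.id - B ∘ₗ A)) +
      Module.finrank k
        (LinearMap.ker (LinearMap.id - A) ⊓ LinearMap.ker (LinearMap.id - B) : Submodule k V) := by
  set RA := LinearMap.range (LinearMap.id - A) with hRA
  set RB := LinearMap.range (LinearMap.id - B) with hRB
  set RC := LinearMap.range (LinearMap.id - B ∘ₗ A) with hRC
  let δ : (RA × RB × RC) →ₗ[k] V :=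
    (B ∘ₗ RA.subtype).coprod (RB.subtype.coprod (-RC.subtype))
  let β : V →ₗ[k] (RA × RB × RC) :=
    (LinearMap.id - A).rangeRestrict.prod
      ((LinearMap.id - B).rangeRestrict.prod (LinearMap.id - B ∘ₗ A).rangeRestrict)
  have hδβ : LinearMap.range β ≤ LinearMap.ker δ := by
    rintro _ ⟨v, rfl⟩
    rw [LinearMap.mem_ker]
    show B (v - A v) + ((v - B v) + -(v - B (A v))) = 0
    rw [map_sub]
    abel
  have hkerβ : LinearMap.ker β ≤
      LinearMap.ker (LinearMap.id - A) ⊓ LinearMap.ker (LinearMap.id - B) := by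
    intro v hv
    rw [LinearMap.mem_ker] at hv
    have h1 : ((β v).1 : V) = 0 := by rw [hv]; rfl
    have h2 : ((β v).2.1 : V) = 0 := by rw [hv]; rfl
    exact ⟨h1, h2⟩
  have hrangeδ : RA ⊔ RB ≤ LinearMap.range δ := by
    refine sup_le ?_ ?_
    · intro x hx
      refine ⟨(⟨x, hx⟩, ⟨(LinearMap.id - B : V →ₗ[k] V) x, LinearMap.mem_range_self _ x⟩, 0), ?_⟩
      simp [δ]
    · intro x hx
      refine ⟨(0, ⟨x, hx⟩, 0), ?_⟩
      simp [δ]
  have e1 := LinearMap.finrank_range_add_finrank_ker δ
  have e2 := LinearMap.finrank_range_add_finrank_ker β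
  have e3 : Module.finrank k (RA × RB × RC) =
      Module.finrank k RA + (Module.finrank k RB + Module.finrank k RC) := by
    rw [Module.finrank_prod, Module.finrank_prod]
  have i1 := Submodule.finrank_mono hδβ
  have i2 := Submodule.finrank_mono hkerβ
  have i3 := Submodule.finrank_mono hrangeδ
  omega

end Scott

section Perm

variable {X : Type}

/-- precomposition with a permutation, as a linear map on `X → ℚ` -/
noncomputable abbrev genusP (σ : Perm X) : (X → ℚ) →ₗ[ℚ] (X → ℚ) := LinearMap.funLeft ℚ ℚ σ

/-- permutations fixing a given function -/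
def genusFixer (f : X → ℚ) : Subgroup (Perm X) where
  carrier := {τ | ∀ x, f (τ x) = f x}
  mul_mem' := fun {σ τ} hσ hτ x => by rw [Perm.mul_apply, hσ, hτ]
  one_mem' := fun _ => rfl
  inv_mem' := fun {σ} hσ x => by
    have := hσ (σ⁻¹ x)
    have h : σ (σ⁻¹ x) = x := by simp
    rw [h] at this
    exact this.symm

/-- permutations moving every function by an element of `R` -/
def genusMover (R : Submodule ℚ (X → ℚ)) : Subgroup (Perm X) where
  carrier := {τ | ∀ v : X → ℚ, v - v ∘ τ ∈ R}
  mul_mem' := fun {σ τ} hσ hτ v => by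
    have h1 := hσ v
    have h2 := hτ (v ∘ σ)
    have : v - v ∘ ⇑(σ * τ) = (v - v ∘ σ) + (v ∘ σ - (v ∘ σ) ∘ τ) := by
      ext x
      simp
    rw [this]
    exact R.add_mem h1 h2
  one_mem' := fun v => by
    have : v - v ∘ ⇑(1 : Perm X) = 0 := by
      ext x
      simp
    rw [this]
    exact R.zero_mem
  inv_mem' := fun {σ} hσ v => by
    have h1 := hσ (v ∘ ⇑σ⁻¹)
    have : v - v ∘ ⇑σ⁻¹ = -(v ∘ ⇑σ⁻¹ - (v ∘ ⇑σ⁻¹) ∘ σ) := by
      ext x
      simp
    rw [this]
    exact R.neg_mem h1

lemma genus_mem_ker_iff (σ : Perm X) (f : X → ℚ) :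
    f ∈ LinearMap.ker (LinearMap.id - genusP σ) ↔ σ ∈ genusFixer f := by
  rw [LinearMap.mem_ker, LinearMap.sub_apply, LinearMap.id_apply, sub_eq_zero]
  constructor
  · intro h x
    exact (congrFun h x).symm
  · intro h
    ext x
    exact (h x).symm

lemma genus_finrank_ker [Finite X] (σ : Perm X) :
    Module.finrank ℚ (LinearMap.ker (LinearMap.id - genusP σ)) = orbitCount σ := by
  classical
  have := Fintype.ofFinite (MulAction.orbitRel.Quotient (Subgroup.zpowers σ) X)
  let mk : X → MulAction.orbitRel.Quotient (Subgroup.zpowers σ) X := Quotient.mk _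
  have hmk : Function.Surjective mk := Quotient.mk_surjective
  let Φ : (MulAction.orbitRel.Quotient (Subgroup.zpowers σ) X → ℚ) →ₗ[ℚ] (X → ℚ) :=
    LinearMap.funLeft ℚ ℚ mk
  have hΦ : Function.Injective Φ := LinearMap.funLeft_injective_of_surjective ℚ ℚ mk hmk
  have hrange : LinearMap.range Φ = LinearMap.ker (LinearMap.id - genusP σ) := by
    ext f
    rw [genus_mem_ker_iff]
    constructor
    · rintro ⟨h, rfl⟩ x
      show h (mk (σ x)) = h (mk x)
      congr 1
      apply Quotient.sound
      exact (genus_orbitRel_iff σ _ _).2 ⟨1, by simp⟩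
    · intro hf
      have hz : Subgroup.zpowers σ ≤ genusFixer f := (Subgroup.zpowers_le).2 hf
      refine ⟨Quotient.lift f ?_, ?_⟩
      · intro x y hxy
        obtain ⟨k, hk⟩ := (genus_orbitRel_iff σ x y).1 hxy
        rw [← hk]
        exact hz (Subgroup.zpow_mem_zpowers σ k) y
      · ext x
        rfl
  rw [← hrange, LinearMap.finrank_range_of_inj hΦ, Module.finrank_fintype_fun_eq_card,
    orbitCount, Nat.card_eq_fintype_card]

lemma genus_finrank_range [Finite X] (σ : Perm X) :
    Module.finrank ℚ (LinearMap.range (LinearMap.id - genusP σ)) + orbitCount σ = Nat.card X := by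
  classical
  have := Fintype.ofFinite X
  rw [← genus_finrank_ker, LinearMap.finrank_range_add_finrank_ker,
    Module.finrank_fintype_fun_eq_card, Nat.card_eq_fintype_card]

lemma genus_inequality [Finite X] [Nonempty X] (a b : Perm X)
    (htrans : ∀ x y : X, ∃ σ ∈ Subgroup.closure {a, b}, σ x = y) :
    orbitCount a + orbitCount b + orbitCount (a * b) ≤ Nat.card X + 2 := by
  classical
  have := Fintype.ofFinite X
  obtain ⟨x₀⟩ := ‹Nonempty X›
  have hS := genus_scott (genusP a) (genusP b)
  have hab : genusP b ∘ₗ genusP a = genusP (a * b) := by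
    ext f x
    simp [genusP, LinearMap.funLeft_apply]
  rw [hab] at hS
  have ha := genus_finrank_range a
  have hb := genus_finrank_range b
  have hc := genus_finrank_range (a * b)
  have hV : Module.finrank ℚ (X → ℚ) = Nat.card X := by
    rw [Module.finrank_fintype_fun_eq_card, Nat.card_eq_fintype_card]
  -- invariants are constants
  have hker : Module.finrank ℚ (LinearMap.ker (LinearMap.id - genusP a) ⊓
      LinearMap.ker (LinearMap.id - genusP b) : Submodule ℚ (X → ℚ)) ≤ 1 := by
    have hle : (LinearMap.ker (LinearMap.id - genusP a) ⊓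
        LinearMap.ker (LinearMap.id - genusP b) : Submodule ℚ (X → ℚ)) ≤
        Submodule.span ℚ {(fun _ => 1 : X → ℚ)} := by
      rintro f ⟨hfa, hfb⟩
      rw [SetLike.mem_coe, genus_mem_ker_iff] at hfa hfb
      have hcl : Subgroup.closure {a, b} ≤ genusFixer f := by
        rw [Subgroup.closure_le]
        rintro σ (rfl | rfl)
        · exact hfa
        · exact hfb
      rw [Submodule.mem_span_singleton]
      refine ⟨f x₀, ?_⟩
      ext y
      obtain ⟨σ, hσ, rfl⟩ := htrans x₀ y
      simp [hcl hσ x₀]
    exact (Submodule.finrank_mono hle).trans (genus_finrank_span_singleton_le _)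
  -- coinvariants are one-dimensional
  set R : Submodule ℚ (X → ℚ) := LinearMap.range (LinearMap.id - genusP a) ⊔
      LinearMap.range (LinearMap.id - genusP b) with hR
  have hrange : Nat.card X ≤ Module.finrank ℚ R + 1 := by
    have hcl : Subgroup.closure {a, b} ≤ genusMover R := by
      rw [Subgroup.closure_le]
      rintro σ (rfl | rfl)
      · intro v
        exact Submodule.mem_sup_left ⟨v, rfl⟩
      · intro v
        exact Submodule.mem_sup_right ⟨v, rfl⟩
    have htop : (⊤ : Submodule ℚ (X → ℚ)) ≤ R ⊔ Submodule.span ℚ {(Pi.single x₀ 1 : X → ℚ)} := by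
      rw [← (Pi.basisFun ℚ X).span_eq, Submodule.span_le]
      rintro _ ⟨y, rfl⟩
      obtain ⟨σ, hσ, hσy⟩ := htrans x₀ y
      have h1 := hcl hσ (Pi.single y 1)
      have h2 : (Pi.single y 1 : X → ℚ) ∘ σ = Pi.single x₀ 1 := by
        ext z
        by_cases hz : z = x₀
        · subst hz
          simp [hσy]
        · have : σ z ≠ y := by
            intro h
            apply hz
            apply σ.injective
            rw [h, hσy]
          simp [hz, this]
      rw [h2] at h1
      have h3 : (Pi.basisFun ℚ X) y = ((Pi.single y 1 : X → ℚ) - Pi.single x₀ 1) +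
          Pi.single x₀ 1 := by
        simp
      rw [SetLike.mem_coe, h3]
      exact Submodule.add_mem _ (Submodule.mem_sup_left h1)
        (Submodule.mem_sup_right (Submodule.mem_span_singleton_self _))
    have h4 := Submodule.finrank_mono htop
    rw [finrank_top, hV] at h4
    have h5 := Submodule.finrank_add_le_finrank_add_finrank R
      (Submodule.span ℚ {(Pi.single x₀ 1 : X → ℚ)})
    have h6 := genus_finrank_span_singleton_le (k := ℚ) (Pi.single x₀ 1 : X → ℚ)
    omega
  omega

end Perm

/-- PIECE F5 (parity by signs, nonnegativity by Scott's lemma), for an arbitrary finite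
transitive set. -/
theorem exists_genus {X : Type} [Finite X] [Nonempty X] (a b : Equiv.Perm X)
    (htrans : ∀ x y : X, ∃ σ ∈ Subgroup.closure {a, b}, σ x = y) :
    ∃ g : ℕ, (Nat.card X : ℤ) - orbitCount a - orbitCount (a * b) - orbitCount b + 2 = 2 * g := by
  classical
  have := Fintype.ofFinite X
  have h1 := genus_inequality a b htrans
  obtain ⟨k, hk⟩ := genus_parity a b
  rw [← Nat.card_eq_fintype_card] at hk
  refine ⟨Nat.card X + 1 - k, ?_⟩
  omega

end Fermat.Agent.S24
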