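import Fermat.Agent.S24.Local
import Fermat.Agent.S24.Degree

set_option autoImplicit false

namespace Fermat.Agent.S24

open AlgebraicCurve IntermediateField
open scoped MatrixGroups

theorem unifData_zero (N : ℕ) [NeZero N] :
    Nonempty (UnifData Kbar (FF N) (Cosets N) (jF N) 3
      (permOf N (ModularGroup.S * ModularGroup.T))) := by
  obtain ⟨P⟩ := preUnif_zero N
  have := P.toUnifData
  simpa using this

theorem unifData_1728 (N : ℕ) [NeZero N] :
    Nonempty (UnifData Kbar (FF N) (Cosets N) (jF N - algebraMap Kbar (FF N) 1728) 2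
      (permOf N ModularGroup.S)) := by
  obtain ⟨P⟩ := preUnif_1728 N
  exact P.toUnifData

theorem unifData_infty (N : ℕ) [NeZero N] :
    Nonempty (UnifData Kbar (FF N) (Cosets N) (jF N)⁻¹ N (permOf N ModularGroup.T)) := by
  obtain ⟨P⟩ := preUnif_infty N
  exact P.toUnifDataInv

theorem unifData_generic (N : ℕ) [NeZero N] (c : Kbar) (h0 : c ≠ 0) (h1 : c ≠ 1728) :
    Nonempty (UnifData Kbar (FF N) (Cosets N) (jF N - algebraMap Kbar (FF N) c) 1 1) := by
  obtain ⟨P⟩ := preUnif_generic N c h0 h1
  exact P.toUnifData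

end Fermat.Agent.S24
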