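import Fermat.Statements.S24

set_option autoImplicit false

namespace Fermat.Agent.S24

open AlgebraicCurve IntermediateField

/-- Number of orbits of a permutation. -/
noncomputable def orbitCount {X : Type} (g : Equiv.Perm X) : ℕ :=
  Nat.card (MulAction.orbitRel.Quotient (Subgroup.zpowers g) X)

/-- Uniformisation data along the zero locus of `x : F`: a family of field embeddings of `F` into
`ℂ((t))` indexed by `X`, all agreeing on `K(x)`, with `x ↦` a series of order `e0`, and a
permutation `g` of `X` recording the local monodromy. -/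
structure UnifData (K F : Type) [Field K] [Field F] [Algebra K F] (X : Type) (x : F) (e0 : ℕ)
    (g : Equiv.Perm X) where
  φ : X → F →+* LaurentSeries ℂ
  ι : K →+* ℂ
  map_const : ∀ i a, φ i (algebraMap K F a) = HahnSeries.C (ι a)
  map_x : ∀ i i', φ i x = φ i' x
  inj : Function.Injective φ
  e0_pos : 0 < e0
  order_x : ∀ i, (φ i x).order = (e0 : ℤ)
  order_perm : ∀ i f, (φ (g i) f).order = (φ i f).order
  order_dvd : ∀ i (w : ℕ), (g ^ w) i = i → ∀ f, (e0 : ℤ) ∣ (w : ℤ) * (φ i f).order

end Fermat.Agent.S24
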