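import Fermat.Agent.S24.Induced
import Fermat.Agent.S24.OrderLemmas

set_option autoImplicit false

namespace Fermat.Agent.S24

open AlgebraicCurve IntermediateField

variable {K F : Type} [Field K] [Field F] [Algebra K F]

theorem card_eq_of_sum_le {Q Z : Type} [Fintype Q] [Fintype Z] [DecidableEq Z] (p : Q → Z)
    (hp : Function.Surjective p) (size : Q → ℕ) (e : Z → ℕ) (he : ∀ z, 0 < e z)
    (hle : ∀ q, e (p q) ≤ size q) (hsum : ∑ q, size q = ∑ z, e z) :
    Fintype.card Q = Fintype.card Z := by
  classical
  have h1 : ∑ q, e (p q) ≤ ∑ z, e z := hsum ▸ Finset.sum_le_sum fun q _ => hle q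
  have h2 : ∑ q, e (p q) = ∑ z, (Finset.univ.filter fun q => p q = z).card * e z := by
    rw [Finset.sum_comp e p]
    have : Finset.univ.image p = Finset.univ := by
      ext z; simpa using hp z
    rw [this]
    simp
  have h3 : ∀ z ∈ (Finset.univ : Finset Z),
      e z ≤ (Finset.univ.filter fun q => p q = z).card * e z := by
    intro z _
    obtain ⟨q, hq⟩ := hp z
    have : 0 < (Finset.univ.filter fun q => p q = z).card :=
      Finset.card_pos.2 ⟨q, by simp [hq]⟩
    nlinarith [he z]
  have h4 : ∑ z, e z = ∑ z, (Finset.univ.filter fun q => p q = z).card * e z :=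
    le_antisymm (Finset.sum_le_sum h3) (h2 ▸ h1)
  have h5 := (Finset.sum_eq_sum_iff_of_le h3).1 h4
  have h6 : ∀ z, (Finset.univ.filter fun q => p q = z).card = 1 := by
    intro z
    have := h5 z (Finset.mem_univ z)
    have hz := he z
    nlinarith [this]
  have h7 := Finset.card_eq_sum_card_fiberwise (s := (Finset.univ : Finset Q))
    (t := (Finset.univ : Finset Z)) (f := p) (fun _ _ => Finset.mem_univ _)
  simp only [h6] at h7
  simpa using h7

/-- The ramification index at the place induced by `φ i` divides every period of `i`. -/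
theorem UnifData.ord_dvd_of_period {X : Type} {x : F} {e0 : ℕ} {g : Equiv.Perm X}
    (U : UnifData K F X x e0 g) (i : X) (v : Place K F)
    (h : ∀ f : F, f ∈ v.toValuationSubring ↔ 0 ≤ (U.φ i f).order) (w : ℕ) (hw : (g ^ w) i = i) :
    v.ord x ∣ (w : ℤ) := by
  obtain ⟨k, hk, hkf⟩ := exists_order_eq_mul_ord v (U.φ i) h
  obtain ⟨π, hπ⟩ := IsDiscreteValuationRing.exists_irreducible v.toValuationSubring
  have h1 := U.order_dvd i w hw (π : F)
  rw [hkf, v.ord_coe_irreducible hπ, mul_one] at h1
  have h2 := U.order_x i
  rw [hkf] at h2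
  rw [← h2, mul_comm (w : ℤ)] at h1
  exact (mul_dvd_mul_iff_left (by exact_mod_cast hk.ne')).1 h1

/-- PIECE C4 (counting). -/
theorem UnifData.card_zeros [IsAlgClosed K] [CharZero K] {X : Type} [Finite X] {x : F}
    {e0 : ℕ} {g : Equiv.Perm X} (U : UnifData K F X x e0 g) (hx : Transcendental K x)
    [FiniteDimensional K⟮x⟯ F] (hn : Nat.card X = Module.finrank K⟮x⟯ F)
    (Z : Finset (Place K F)) (hZ : ∀ v, v ∈ Z ↔ 0 < v.ord x) :
    Z.card = orbitCount g := by
  classical
  haveI := Fintype.ofFinite X
  obtain ⟨Z', hZ', hsum⟩ := exists_zeros_finset (K := K) x hx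
  obtain rfl : Z' = Z := by ext v; rw [hZ, hZ']
  -- the place induced by an embedding
  choose pl hpl0 hpl using fun i => U.exists_place hx i
  have hperm : ∀ i, pl (g i) = pl i := by
    intro i
    apply Place.ext
    ext f
    rw [hpl, hpl, U.order_perm]
  have hzpow : ∀ (n : ℤ) i, pl ((g ^ n) i) = pl i := by
    intro n i
    induction n using Int.induction_on generalizing i with
    | zero => simp
    | succ n ih => rw [zpow_add_one, Equiv.Perm.mul_apply, ih, hperm]
    | pred n ih =>
      rw [zpow_sub_one, Equiv.Perm.mul_apply, ih]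
      have := hperm (g⁻¹ i)
      have h2 : g (g⁻¹ i) = i := by simp
      rw [h2] at this
      exact this.symm
  let Q := MulAction.orbitRel.Quotient (Subgroup.zpowers g) X
  haveI : Fintype Q := Fintype.ofFinite Q
  let p : Q → Z' := Quotient.lift (fun i => (⟨pl i, (hZ' _).2 (hpl0 i)⟩ : Z')) (by
    rintro a b ⟨⟨σ, n, rfl⟩, rfl⟩
    apply Subtype.ext
    exact hzpow n b)
  have hp : Function.Surjective p := by
    rintro ⟨v, hv⟩
    obtain ⟨i, hi⟩ := U.exists_induced hx hn v ((hZ' v).1 hv)
    refine ⟨Quotient.mk'' i, Subtype.ext ?_⟩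
    apply Place.ext
    ext f
    show f ∈ (pl i).toValuationSubring ↔ _
    rw [hpl, hi]
  have key := card_eq_of_sum_le p hp (fun q => Nat.card q.orbit) (fun z => (z.1.ord x).toNat)
    (fun z => by have := (hZ' z.1).1 z.2; omega)
    (by
      intro q
      induction q using Quotient.inductionOn' with
      | h i =>
        show ((pl i).ord x).toNat ≤ Nat.card (MulAction.orbitRel.Quotient.orbit (Quotient.mk'' i))
        rw [MulAction.orbitRel.Quotient.orbit_mk]
        haveI : Fintype (MulAction.orbit (Subgroup.zpowers g) i) := Fintype.ofFinite _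
        rw [Nat.card_eq_fintype_card, ← MulAction.minimalPeriod_eq_card]
        have hper : Function.IsPeriodicPt (fun y => g • y) (Function.minimalPeriod (fun y => g • y) i) i :=
          Function.isPeriodicPt_minimalPeriod _ _
        have hpos : 0 < Function.minimalPeriod (fun y => g • y) i := by
          apply Function.IsPeriodicPt.minimalPeriod_pos (n := orderOf g) (orderOf_pos g)
          show (fun y => g • y)^[orderOf g] i = i
          have : (fun y : X => g • y) = ⇑g := rfl
          rw [this, Equiv.Perm.iterate_eq_pow, pow_orderOf_eq_one]; rfl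
        have hw : (g ^ (Function.minimalPeriod (fun y => g • y) i)) i = i := by
          have : (fun y : X => g • y) = ⇑g := rfl
          rw [← Equiv.Perm.iterate_eq_pow]
          rw [this] at hper ⊢
          exact hper
        have hdvd := U.ord_dvd_of_period i (pl i) (hpl i) _ hw
        have := Int.le_of_dvd (by exact_mod_cast hpos) hdvd
        omega)
    (by
      have h1 : ∑ q : Q, Nat.card q.orbit = Nat.card X := by
        rw [Nat.card_congr (MulAction.selfEquivSigmaOrbits' (Subgroup.zpowers g) X), Nat.card_sigma]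
      rw [h1, hn]
      have h2 : ((∑ z : Z', (z.1.ord x).toNat : ℕ) : ℤ) = ∑ v ∈ Z', v.ord x := by
        rw [← Finset.sum_coe_sort Z' (fun v => v.ord x)]
        push_cast
        refine Finset.sum_congr rfl fun z _ => ?_
        have := (hZ' z.1).1 z.2
        omega
      have : ((∑ z : Z', (z.1.ord x).toNat : ℕ) : ℤ) = (Module.finrank K⟮x⟯ F : ℤ) := by
        rw [h2, hsum]
      exact_mod_cast this.symm)
  rw [orbitCount, Nat.card_eq_fintype_card, key]
  simp

end Fermat.Agent.S24
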