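import Mathlib
import Fermat.Prelude.Def_AlgebraicCurve_DivisorClassGroup

/-!
# Comparison of `ord_v` with the order of Laurent series along an embedding inducing `v`
(= piece C3 of S24, for an arbitrary coefficient field)
-/

set_option autoImplicit false

namespace Fermat.Agent.S24

open AlgebraicCurve

variable {K F : Type*} [Field K] [Field F] [Algebra K F]

theorem OrdAux.order_zpow {L : Type*} [Field L] (s : LaurentSeries L) (n : ℤ) :
    (s ^ n).order = n * s.order := by
  rcases eq_or_ne s 0 with rfl | hs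
  · rcases eq_or_ne n 0 with rfl | hn
    · simp
    · rw [zero_zpow n hn]; simp
  have hpow : ∀ m : ℕ, (s ^ m).order = m * s.order := by
    intro m
    induction m with
    | zero => simp
    | succ m ih =>
      rw [pow_succ, HahnSeries.order_mul (pow_ne_zero m hs) hs, ih]
      push_cast
      ring
  have hinv : ∀ r : LaurentSeries L, r ≠ 0 → (r⁻¹).order = - r.order := by
    intro r hr
    have h1 := HahnSeries.order_mul hr (inv_ne_zero hr)
    rw [mul_inv_cancel₀ hr, HahnSeries.order_one] at h1
    linarith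
  obtain ⟨m, rfl | rfl⟩ := n.eq_nat_or_neg
  · rw [zpow_natCast, hpow]
  · rw [zpow_neg, zpow_natCast, hinv _ (pow_ne_zero m hs), hpow]
    ring

/-- (= PIECE C3, for an arbitrary coefficient field.) Comparison of the two valuations. -/
theorem OrdAux.order_eq_mul_ord {L : Type*} [Field L] (v : Place K F) (φ : F →+* LaurentSeries L)
    (h : ∀ f : F, f ∈ v.toValuationSubring ↔ 0 ≤ (φ f).order) :
    ∃ k : ℕ, 0 < k ∧ ∀ f : F, (φ f).order = (k : ℤ) * v.ord f := by
  obtain ⟨π, hπ⟩ := IsDiscreteValuationRing.exists_irreducible v.toValuationSubring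
  have hinv : ∀ f : F, f ≠ 0 → (φ f⁻¹).order = - (φ f).order := by
    intro f hf
    have h1 := HahnSeries.order_mul ((map_ne_zero φ).mpr hf) ((map_ne_zero φ).mpr (inv_ne_zero hf))
    rw [← map_mul, mul_inv_cancel₀ hf, map_one, HahnSeries.order_one] at h1
    linarith
  have hπ0 : (π : F) ≠ 0 := by
    simpa [ne_eq, ZeroMemClass.coe_eq_zero] using hπ.ne_zero
  have hπinv : ((π : F))⁻¹ ∉ v.toValuationSubring := by
    intro hmem
    apply hπ.not_isUnit
    refine isUnit_iff_exists_inv.mpr ⟨⟨_, hmem⟩, ?_⟩
    ext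
    simp [hπ0]
  have hpos : 0 < (φ (π : F)).order := by
    rw [h, hinv _ hπ0] at hπinv
    omega
  have hunit : ∀ u : v.toValuationSubringˣ, (φ ((u : v.toValuationSubring) : F)).order = 0 := by
    intro u
    have hu0 : ((u : v.toValuationSubring) : F) ≠ 0 := by
      simp [ne_eq, ZeroMemClass.coe_eq_zero]
    have h1 : 0 ≤ (φ ((u : v.toValuationSubring) : F)).order := (h _).mp (u : v.toValuationSubring).2
    have h2 : (((u : v.toValuationSubring) : F))⁻¹ ∈ v.toValuationSubring := by
      have : (((u⁻¹ : v.toValuationSubringˣ) : v.toValuationSubring) : F)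
          = (((u : v.toValuationSubring) : F))⁻¹ := by
        apply eq_inv_of_mul_eq_one_left
        have e : ((((u⁻¹ : v.toValuationSubringˣ) : v.toValuationSubring)
            * (u : v.toValuationSubring) : v.toValuationSubring) : F) = 1 := by
          rw [Units.inv_mul]; rfl
        exact e
      rw [← this]
      exact ((u⁻¹ : v.toValuationSubringˣ) : v.toValuationSubring).2
    rw [h, hinv _ hu0] at h2
    omega
  refine ⟨(φ (π : F)).order.toNat, by omega, fun f => ?_⟩
  rcases eq_or_ne f 0 with rfl | hf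
  · simp
  obtain ⟨u, hu⟩ := v.exists_unit_mul_zpow hf hπ
  have hu0 : ((u : v.toValuationSubring) : F) ≠ 0 := by
    simp [ne_eq, ZeroMemClass.coe_eq_zero]
  conv_lhs => rw [hu]
  rw [map_mul, map_zpow₀, HahnSeries.order_mul ((map_ne_zero φ).mpr hu0)
    (zpow_ne_zero _ ((map_ne_zero φ).mpr hπ0)), hunit, OrdAux.order_zpow, Int.toNat_of_nonneg hpos.le]
  ring

end Fermat.Agent.S24
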